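import Fermat.Agent.LT.Clas.FormK
import Fermat.Agent.LT.Steps

/-!
# `StepK`
-/

set_option autoImplicit false

namespace Fermat.Agent.LT.Clas

/-- **Classicalisation** (block B4.5 with Adapt and kappa). -/
theorem stepK : StepK := fun K _ _ _ w s hK hs N hN a U g hg =>
  exists_kform_of_isForm w hK hs hN hg

end Fermat.Agent.LT.Clas
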