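import Mathlib

/-!
# Kirillov spaces contain all Schwartz functions (abstract form)

`R` is a commutative ring (the product of the completions at the places of `S`), `O` the
subring of integral elements, `N` a unit of `R` lying in `O` (all the places of `S` divide `N`).
`θ` is an additive character of `R` whose conductor is exactly `O`.

A space `𝒦` of functions on `Rˣ` which is stable under multiplication by `a ↦ θ (a * b)` and under
translation, whose members have bounded support and are smooth, and which is nonzero, contains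
the indicator functions of all the sets `a₀ (1 + N ^ m O)`, and the indicator function of `Oˣ`.
-/

open scoped BigOperators

namespace Fermat.Agent.LT.Clas

variable {R : Type*} [CommRing R]

/-- The conductor of `θ` is `O`. -/
def HasConductor (O : Subring R) (θ : AddChar R ℂ) : Prop :=
  ∀ x : R, (∀ y ∈ O, θ (x * y) = 1) ↔ x ∈ O

/-- the set `1 + N ^ m O`, as a predicate on units. -/
def Near (O : Subring R) (N : Rˣ) (m : ℕ) (u : Rˣ) : Prop :=
  ∃ y ∈ O, (u : R) = 1 + (N : R) ^ m * y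

structure KirSpace (O : Subring R) (N : Rˣ) (θ : AddChar R ℂ) where
  /-- the space -/
  V : Submodule ℂ (Rˣ → ℂ)
  mul_mem : ∀ f ∈ V, ∀ b : R, (fun a : Rˣ => θ ((a : R) * b) * f a) ∈ V
  trans_mem : ∀ f ∈ V, ∀ t : Rˣ, (fun a : Rˣ => f (a * t)) ∈ V
  smooth : ∀ f ∈ V, ∃ m : ℕ, ∀ u : Rˣ, Near O N m u → ∀ a : Rˣ, f (a * u) = f a
  bdd : ∀ f ∈ V, ∃ k : ℕ, ∀ a : Rˣ, f a ≠ 0 → (N : R) ^ k * a ∈ O
  ne : ∃ f ∈ V, f ≠ 0

open scoped Classical in
/-- The finite orthogonality relation: for `x` with `N ^ k x ∈ O`, the average of `θ (b x)` over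
`b ∈ N ^ (-m) O / N ^ k O` is the indicator of `x ∈ N ^ m O`. -/
theorem exists_avg (O : Subring R) (N : Rˣ) (hN : (N : R) ∈ O) (θ : AddChar R ℂ)
    (hθ : HasConductor O θ)
    (hfin : ∀ m : ℕ, Finite (O ⧸ (Ideal.span {(⟨(N : R), hN⟩ : O) ^ m} : Ideal O)))
    (m k : ℕ) :
    ∃ (s : Finset R) (c : ℂ), ∀ x : R, (N : R) ^ k * x ∈ O →
      (∑ b ∈ s, c * θ (x * b)) = if (∃ y ∈ O, x = (N : R) ^ m * y) then 1 else 0 := by
  classical
  set n₀ : O := ⟨(N : R), hN⟩ with hn₀
  set I : Ideal O := Ideal.span {n₀ ^ (m + k)} with hI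
  have : Finite (O ⧸ I) := hfin (m + k)
  let _ : Fintype (O ⧸ I) := Fintype.ofFinite _
  -- representatives
  let rep : O ⧸ I → R := fun q => ((N⁻¹ : Rˣ) : R) ^ m * ((Quotient.out q : O) : R)
  have hrep_inj : Function.Injective rep := by
    intro q q' h
    have h1 : ((Quotient.out q : O) : R) = ((Quotient.out q' : O) : R) := by
      have := congrArg (fun t => (N : R) ^ m * t) h
      simp only [rep, ← mul_assoc, ← mul_pow] at this
      simpa using this
    have h2 : (Quotient.out q : O) = Quotient.out q' := Subtype.ext h1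
    rw [← Quotient.out_eq q, ← Quotient.out_eq q', h2]
  have hNk : ∀ j : ℕ, ((N : R) ^ j) * ((N⁻¹ : Rˣ) : R) ^ j = 1 := by
    intro j
    rw [← mul_pow]
    simp
  refine ⟨Finset.univ.image rep, ((Fintype.card (O ⧸ I) : ℂ))⁻¹, ?_⟩
  intro x hx
  rw [Finset.sum_image (fun a _ b _ h => hrep_inj h)]
  -- the additive character of the quotient
  have hwell : ∀ a b : O, (a - b) ∈ I →
      θ (x * (((N⁻¹ : Rˣ) : R) ^ m * (a : R))) = θ (x * (((N⁻¹ : Rˣ) : R) ^ m * (b : R))) := by
    intro a b hab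
    obtain ⟨t, ht⟩ := Ideal.mem_span_singleton'.1 hab
    have h1 : (a : R) = b + (t : R) * (N : R) ^ (m + k) := by
      have := congrArg (fun z : O => (z : R)) ht
      simp [hn₀] at this
      rw [this]; ring
    have h2 : x * (((N⁻¹ : Rˣ) : R) ^ m * (a : R)) =
        x * (((N⁻¹ : Rˣ) : R) ^ m * (b : R)) + ((N : R) ^ k * x) * (t : R) := by
      rw [h1, pow_add]
      linear_combination (x * (t : R) * (N : R) ^ k) * (hNk m)
    rw [h2, AddChar.map_add_eq_mul]
    have h3 : θ (((N : R) ^ k * x) * (t : R)) = 1 := (hθ _).2 hx _ t.2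
    rw [h3, mul_one]
  let ψ : AddChar (O ⧸ I) ℂ :=
    { toFun := fun q => θ (x * rep q)
      map_zero_eq_one' := by
        have : θ (x * (((N⁻¹ : Rˣ) : R) ^ m * ((Quotient.out (0 : O ⧸ I) : O) : R))) =
            θ (x * (((N⁻¹ : Rˣ) : R) ^ m * ((0 : O) : R))) := by
          apply hwell
          rw [← Ideal.Quotient.eq]
          rw [map_zero]
          exact Quotient.out_eq _
        simpa [rep] using this
      map_add_eq_mul' := by
        intro q q'
        have : θ (x * (((N⁻¹ : Rˣ) : R) ^ m * ((Quotient.out (q + q') : O) : R))) =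
            θ (x * (((N⁻¹ : Rˣ) : R) ^ m * (((Quotient.out q + Quotient.out q' : O)) : R))) := by
          apply hwell
          rw [← Ideal.Quotient.eq, map_add]
          have e : ∀ r : O ⧸ I, Ideal.Quotient.mk I (Quotient.out r) = r := fun r =>
            Quotient.out_eq r
          rw [e, e, e]
        rw [← AddChar.map_add_eq_mul]
        simp only [rep]
        rw [this]
        congr 1
        push_cast
        ring }
  have hsum : (∑ q : O ⧸ I, ((Fintype.card (O ⧸ I) : ℂ))⁻¹ * θ (x * rep q)) =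
      ((Fintype.card (O ⧸ I) : ℂ))⁻¹ * ∑ q : O ⧸ I, ψ q := by
    rw [Finset.mul_sum]
    rfl
  rw [hsum, AddChar.sum_eq_ite]
  have hcard : (Fintype.card (O ⧸ I) : ℂ) ≠ 0 := by
    exact_mod_cast Fintype.card_ne_zero
  by_cases hx' : ∃ y ∈ O, x = (N : R) ^ m * y
  · have hψ : ψ = 0 := by
      ext q
      obtain ⟨y, hy, rfl⟩ := hx'
      change θ _ = 1
      have : (N : R) ^ m * y * rep q = y * ((Quotient.out q : O) : R) := by
        simp only [rep]
        linear_combination (y * ((Quotient.out q : O) : R)) * (hNk m)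
      rw [this]
      exact (hθ y).2 hy _ (Quotient.out q).2
    rw [if_pos hψ, if_pos hx', inv_mul_cancel₀ hcard]
  · have hψ : ψ ≠ 0 := by
      intro hψ
      apply hx'
      refine ⟨((N⁻¹ : Rˣ) : R) ^ m * x, ?_, ?_⟩
      · rw [← hθ]
        intro y hy
        have h1 := hwell (Quotient.out (Ideal.Quotient.mk I ⟨y, hy⟩)) ⟨y, hy⟩ (by
          rw [← Ideal.Quotient.eq]
          exact Quotient.out_eq _)
        have h2 : ψ (Ideal.Quotient.mk I ⟨y, hy⟩) = 1 := by rw [hψ]; rfl
        change θ (x * rep _) = 1 at h2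
        simp only [rep] at h2
        rw [h1] at h2
        rw [← h2]
        congr 1
        ring
      · rw [← mul_assoc, hNk, one_mul]
    rw [if_neg hψ, if_neg hx', mul_zero]


/-- The indicator of `a₀ (1 + N ^ m O)`. -/
noncomputable def ind (O : Subring R) (N : Rˣ) (m : ℕ) (a₀ : Rˣ) : Rˣ → ℂ := by
  classical
  exact fun a => if Near O N m (a₀⁻¹ * a) then 1 else 0

/-- The indicator of `Oˣ`. -/
noncomputable def indUnits (O : Subring R) : Rˣ → ℂ := by
  classical
  exact fun a => if (a : R) ∈ O ∧ ((a⁻¹ : Rˣ) : R) ∈ O then 1 else 0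

variable {O : Subring R} {N : Rˣ} {θ : AddChar R ℂ}

theorem near_mono (hN : (N : R) ∈ O) {m m' : ℕ} (h : m ≤ m') {u : Rˣ} (hu : Near O N m' u) :
    Near O N m u := by
  obtain ⟨y, hy, hu⟩ := hu
  refine ⟨(N : R) ^ (m' - m) * y, O.mul_mem (O.pow_mem hN _) hy, ?_⟩
  rw [hu, ← mul_assoc, ← pow_add, Nat.add_sub_cancel' h]

/-- Every nonzero Kirillov space contains the indicators of small neighbourhoods. -/
theorem KirSpace.ind_mem (W : KirSpace O N θ) (hN : (N : R) ∈ O) (hθ : HasConductor O θ)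
    (hfin : ∀ m : ℕ, Finite (O ⧸ (Ideal.span {(⟨(N : R), hN⟩ : O) ^ m} : Ideal O))) :
    ∃ m₀ : ℕ, ∀ m, m₀ ≤ m → ∀ a₀ : Rˣ, ind O N m a₀ ∈ W.V := by
  classical
  obtain ⟨f, hf, hf0⟩ := W.ne
  obtain ⟨a₁, ha₁⟩ := Function.ne_iff.1 hf0
  -- translate to 1
  set g : Rˣ → ℂ := fun a => f (a * a₁) with hg
  have hgV : g ∈ W.V := W.trans_mem f hf a₁
  have hg1 : g 1 ≠ 0 := by simpa [hg] using ha₁
  obtain ⟨m₀, hm₀⟩ := W.smooth g hgV
  obtain ⟨k, hk⟩ := W.bdd g hgV
  refine ⟨m₀, fun m hm a₀ => ?_⟩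
  obtain ⟨s, c, hs⟩ := exists_avg O N hN θ hθ hfin m k
  -- `g` times the indicator of `1 + N ^ m O`
  have h1 : ind O N m 1 ∈ W.V := by
    have h2 : (∑ b ∈ s, (c * θ (-b) * (g 1)⁻¹) • (fun a : Rˣ => θ ((a : R) * b) * g a)) ∈ W.V :=
      Submodule.sum_mem _ fun b _ => Submodule.smul_mem _ _ (W.mul_mem g hgV b)
    convert h2 using 1
    ext a
    simp only [ind, inv_one, one_mul, Finset.sum_apply, Pi.smul_apply, smul_eq_mul]
    by_cases hga : g a = 0
    · rw [if_neg]
      · simp [hga]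
      · intro hn
        have := hm₀ a (near_mono hN hm hn) 1
        rw [one_mul, hga] at this
        exact hg1 this.symm
    · have hka := hk a hga
      have hk1 := hk 1 hg1
      have hmem : (N : R) ^ k * ((a : R) - 1) ∈ O := by
        have := O.sub_mem hka hk1
        rwa [← mul_sub, Units.val_one] at this
      have key := hs ((a : R) - 1) hmem
      have hsum : (∑ b ∈ s, c * θ (-b) * (g 1)⁻¹ * (θ ((a : R) * b) * g a)) =
          (g a * (g 1)⁻¹) * ∑ b ∈ s, c * θ (((a : R) - 1) * b) := by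
        rw [Finset.mul_sum]
        refine Finset.sum_congr rfl fun b _ => ?_
        have : ((a : R) - 1) * b = (a : R) * b + (-b) := by ring
        rw [this, AddChar.map_add_eq_mul]
        ring
      rw [hsum, key]
      have hiff : (∃ y ∈ O, (a : R) - 1 = (N : R) ^ m * y) ↔ Near O N m a := by
        constructor
        · rintro ⟨y, hy, h⟩
          exact ⟨y, hy, by rw [← h]; ring⟩
        · rintro ⟨y, hy, h⟩
          exact ⟨y, hy, by rw [h]; ring⟩
      by_cases hn : Near O N m a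
      · rw [if_pos hn, if_pos (hiff.2 hn)]
        have := hm₀ a (near_mono hN hm hn) 1
        rw [one_mul] at this
        rw [this, mul_one, mul_inv_cancel₀ hg1]
      · rw [if_neg hn, if_neg (fun h => hn (hiff.1 h)), mul_zero]
  have h3 := W.trans_mem _ h1 a₀⁻¹
  convert h3 using 1
  ext a
  have : a₀⁻¹ * a = a * a₀⁻¹ := mul_comm _ _
  simp only [ind, inv_one, one_mul, this]

/-- Every nonzero Kirillov space contains the indicator of `Oˣ`. -/
theorem KirSpace.indUnits_mem (W : KirSpace O N θ) (hN : (N : R) ∈ O) (hθ : HasConductor O θ)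
    (hrad : ∀ y ∈ O, ∀ m : ℕ, 0 < m → ∀ u : Rˣ, (u : R) = 1 + (N : R) ^ m * y →
      ((u⁻¹ : Rˣ) : R) ∈ O)
    (hfin : ∀ m : ℕ, Finite (O ⧸ (Ideal.span {(⟨(N : R), hN⟩ : O) ^ m} : Ideal O))) :
    indUnits O ∈ W.V := by
  classical
  obtain ⟨m₀, hm₀⟩ := W.ind_mem hN hθ hfin
  set m := m₀ + 1 with hm
  set n₀ : O := ⟨(N : R), hN⟩ with hn₀
  set I : Ideal O := Ideal.span {n₀ ^ m} with hI
  have : Finite (O ⧸ I) := hfin m
  let _ : Fintype (O ⧸ I) := Fintype.ofFinite _
  -- the classes which contain a unit of `R` with inverse in `O`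
  let P : O ⧸ I → Prop := fun q => ∃ a : Rˣ, ((a⁻¹ : Rˣ) : R) ∈ O ∧ ∃ h : (a : R) ∈ O,
    Ideal.Quotient.mk I ⟨(a : R), h⟩ = q
  let rep : O ⧸ I → Rˣ := fun q => if h : P q then h.choose else 1
  have hrep : ∀ q, P q → (((rep q)⁻¹ : Rˣ) : R) ∈ O ∧ ∃ h : ((rep q : Rˣ) : R) ∈ O,
      Ideal.Quotient.mk I ⟨((rep q : Rˣ) : R), h⟩ = q := by
    intro q hq
    have : rep q = hq.choose := by simp only [rep]; rw [dif_pos hq]
    rw [this]
    exact hq.choose_spec
  have hmem : (∑ q ∈ Finset.univ.filter P, ind O N m (rep q)) ∈ W.V :=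
    Submodule.sum_mem _ fun q _ => hm₀ m (by omega) _
  convert hmem using 1
  ext a
  rw [Finset.sum_apply]
  simp only [ind, indUnits]
  by_cases ha : (a : R) ∈ O ∧ ((a⁻¹ : Rˣ) : R) ∈ O
  · rw [if_pos ha]
    set q₀ : O ⧸ I := Ideal.Quotient.mk I ⟨(a : R), ha.1⟩ with hq₀
    have hP : P q₀ := ⟨a, ha.2, ha.1, rfl⟩
    rw [Finset.sum_eq_single q₀]
    · rw [if_pos]
      obtain ⟨h1, h2, h3⟩ := hrep q₀ hP
      have h3' := Ideal.mem_span_singleton'.1 (Ideal.Quotient.eq.1 (h3.trans hq₀))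
      obtain ⟨t, ht⟩ := h3'
      have ht' : (t : R) * (N : R) ^ m = (rep q₀ : R) - a := by
        have := congrArg (fun z : O => (z : R)) ht
        simpa [hn₀] using this
      refine ⟨-(((rep q₀)⁻¹ : Rˣ) : R) * t, O.mul_mem (O.neg_mem h1) t.2, ?_⟩
      have hinv : (((rep q₀)⁻¹ : Rˣ) : R) * (rep q₀ : R) = 1 := Units.inv_mul _
      rw [Units.val_mul]
      linear_combination (((rep q₀)⁻¹ : Rˣ) : R) * ht' + hinv
    · intro q hq hne
      rw [if_neg]
      rintro ⟨y, hy, hu⟩
      obtain ⟨h1, h2, h3⟩ := hrep q (Finset.mem_filter.1 hq).2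
      apply hne
      rw [← h3, hq₀, Ideal.Quotient.eq, Ideal.mem_span_singleton']
      have hinv : (rep q : R) * (((rep q)⁻¹ : Rˣ) : R) = 1 := Units.mul_inv _
      refine ⟨-(⟨(rep q : R), h2⟩ * ⟨y, hy⟩), ?_⟩
      apply Subtype.ext
      rw [Units.val_mul] at hu
      simp only [hn₀]
      push_cast
      linear_combination (rep q : R) * hu - (a : R) * hinv
    · intro h
      exact absurd (Finset.mem_filter.2 ⟨Finset.mem_univ _, hP⟩) h
  · rw [if_neg ha, Finset.sum_eq_zero]
    intro q hq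
    rw [if_neg]
    rintro ⟨y, hy, hu⟩
    obtain ⟨h1, h2, h3⟩ := hrep q (Finset.mem_filter.1 hq).2
    apply ha
    have h4 := hrad y hy m (by omega) _ hu
    constructor
    · have : (a : R) = (rep q : R) * (1 + (N : R) ^ m * y) := by
        rw [← hu, Units.val_mul, ← mul_assoc, Units.mul_inv, one_mul]
      rw [this]
      exact O.mul_mem h2 (O.add_mem O.one_mem (O.mul_mem (O.pow_mem hN _) hy))
    · have : ((a⁻¹ : Rˣ) : R) = ((((rep q)⁻¹ * a)⁻¹ : Rˣ) : R) * (((rep q)⁻¹ : Rˣ) : R) := by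
        rw [← Units.val_mul]
        congr 1
        group
      rw [this]
      exact O.mul_mem h4 h1

end Fermat.Agent.LT.Clas
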