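import Mathlib

/-!
# The group `U₀(N ^ m)` and its decomposition `N(O) T(O) Z(O) N⁻(N ^ m O)`

`R` is a commutative ring, `O` a subring, `N : R` an element of `O` such that `1 + N O ⊆ Oˣ`
(`Jac O N`).  Models:

* `R = K` a field, `O` = the elements which are integral at all the places of a finite nonempty
  set, `N` divisible by all these places (`jac_of_valuation`),
* `R = ∏ K_v`, `O = ∏ O_v` (`jac_pi`),
* `R = K = Frac A`, `O = semiLoc A K n` = the fractions with denominator prime to `n`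
  (`jac_semiLoc`).

Main results: `exists_factor`, `U0_le` (a subgroup containing `n(b)` (`b ∈ O`), `diag (a, 1)`,
`diag (z, z)` (`a, z ∈ Oˣ`) and `n⁻(N ^ m c)` (`c ∈ O`) contains `U₀(N ^ m)`), `right_inv`
(functions), `left_inv_one` (the function `P ↦ f (P, 1)` is invariant under `Γ₀`).
-/

set_option autoImplicit false

namespace Fermat.Agent.LT.Clas

open Matrix

section General

variable {R : Type*} [CommRing R]

/-- `1 + N O` consists of units of `O`. -/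
def Jac (O : Subring R) (N : R) : Prop := ∀ x ∈ O, ∃ y ∈ O, (1 + N * x) * y = 1

/-- `n(b)`. -/
def uni (b : R) : GL (Fin 2) R where
  val := !![1, b; 0, 1]
  inv := !![1, -b; 0, 1]
  val_inv := by
    ext i j
    fin_cases i <;> fin_cases j <;> simp
  inv_val := by
    ext i j
    fin_cases i <;> fin_cases j <;> simp

/-- `n⁻(c)`. -/
def lun (c : R) : GL (Fin 2) R where
  val := !![1, 0; c, 1]
  inv := !![1, 0; -c, 1]
  val_inv := by
    ext i j
    fin_cases i <;> fin_cases j <;> simp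
  inv_val := by
    ext i j
    fin_cases i <;> fin_cases j <;> simp

/-- `diag (a, d)`. -/
def dg (a d : Rˣ) : GL (Fin 2) R where
  val := !![(a : R), 0; 0, (d : R)]
  inv := !![((a⁻¹ : Rˣ) : R), 0; 0, ((d⁻¹ : Rˣ) : R)]
  val_inv := by
    ext i j
    fin_cases i <;> fin_cases j <;> simp
  inv_val := by
    ext i j
    fin_cases i <;> fin_cases j <;> simp

@[simp] theorem coe_uni (b : R) : (uni b : Matrix (Fin 2) (Fin 2) R) = !![1, b; 0, 1] := rfl

@[simp] theorem coe_lun (c : R) : (lun c : Matrix (Fin 2) (Fin 2) R) = !![1, 0; c, 1] := rfl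

@[simp] theorem coe_dg (a d : Rˣ) :
    (dg a d : Matrix (Fin 2) (Fin 2) R) = !![(a : R), 0; 0, (d : R)] := rfl

theorem uni_inv (b : R) : (uni b)⁻¹ = uni (-b) := by
  apply Units.ext
  rfl

theorem lun_inv (c : R) : (lun c)⁻¹ = lun (-c) := by
  apply Units.ext
  rfl

theorem dg_inv (a d : Rˣ) : (dg a d)⁻¹ = dg a⁻¹ d⁻¹ := by
  apply Units.ext
  rfl

/-- The inverse of a `2 × 2` matrix, entrywise. -/
theorem inv_entries (g : GL (Fin 2) R) :
    (g⁻¹ : GL (Fin 2) R) 1 0 =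
      -(((g⁻¹ : GL (Fin 2) R) 0 0 * (g⁻¹ : GL (Fin 2) R) 1 1 -
        (g⁻¹ : GL (Fin 2) R) 0 1 * (g⁻¹ : GL (Fin 2) R) 1 0) * g 1 0) := by
  have h1 : (g : Matrix (Fin 2) (Fin 2) R) * ((g⁻¹ : GL (Fin 2) R) : Matrix (Fin 2) (Fin 2) R) = 1 := by
    rw [← Units.val_mul, mul_inv_cancel, Units.val_one]
  have h2 : ((g⁻¹ : GL (Fin 2) R) : Matrix (Fin 2) (Fin 2) R) * (g : Matrix (Fin 2) (Fin 2) R) = 1 := by
    rw [← Units.val_mul, inv_mul_cancel, Units.val_one]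
  have e10 := congrFun (congrFun h2 1) 0
  have e11 := congrFun (congrFun h1 0) 0
  have e00 := congrFun (congrFun h2 0) 0
  simp only [Matrix.mul_apply, Fin.sum_univ_two, Matrix.one_apply_eq] at e10 e11 e00
  rw [Matrix.one_apply_ne (by decide : (1 : Fin 2) ≠ 0)] at e10
  linear_combination (-((g⁻¹ : GL (Fin 2) R) 1 0)) * e00 + ((g⁻¹ : GL (Fin 2) R) 0 0) * e10

theorem det_mul_det_inv (g : GL (Fin 2) R) :
    (g 0 0 * g 1 1 - g 0 1 * g 1 0) * ((g⁻¹ : GL (Fin 2) R) 0 0 * (g⁻¹ : GL (Fin 2) R) 1 1 -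
        (g⁻¹ : GL (Fin 2) R) 0 1 * (g⁻¹ : GL (Fin 2) R) 1 0) = 1 := by
  have h1 : (g : Matrix (Fin 2) (Fin 2) R) * ((g⁻¹ : GL (Fin 2) R) : Matrix (Fin 2) (Fin 2) R) = 1 := by
    rw [← Units.val_mul, mul_inv_cancel, Units.val_one]
  have := congrArg Matrix.det h1
  rw [Matrix.det_mul, Matrix.det_one, Matrix.det_fin_two, Matrix.det_fin_two] at this
  exact this

/-- `GL₂(O)` as a subgroup of `GL₂(R)`. -/
def GLO (O : Subring R) : Subgroup (GL (Fin 2) R) where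
  carrier := {g | (∀ i j, g i j ∈ O) ∧ ∀ i j, (g⁻¹ : GL (Fin 2) R) i j ∈ O}
  one_mem' := by
    refine ⟨fun i j => ?_, fun i j => ?_⟩
    · rw [Units.val_one, Matrix.one_apply]
      split_ifs
      · exact O.one_mem
      · exact O.zero_mem
    · rw [inv_one, Units.val_one, Matrix.one_apply]
      split_ifs
      · exact O.one_mem
      · exact O.zero_mem
  mul_mem' := by
    rintro g h ⟨hg, hg'⟩ ⟨hh, hh'⟩
    refine ⟨fun i j => ?_, fun i j => ?_⟩
    · rw [Units.val_mul, Matrix.mul_apply]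
      exact O.sum_mem fun k _ => O.mul_mem (hg i k) (hh k j)
    · rw [_root_.mul_inv_rev, Units.val_mul, Matrix.mul_apply]
      exact O.sum_mem fun k _ => O.mul_mem (hh' i k) (hg' k j)
  inv_mem' := by
    rintro g ⟨hg, hg'⟩
    exact ⟨hg', by simpa using hg⟩

theorem mem_GLO {O : Subring R} {g : GL (Fin 2) R} :
    g ∈ GLO O ↔ (∀ i j, g i j ∈ O) ∧ ∀ i j, (g⁻¹ : GL (Fin 2) R) i j ∈ O := Iff.rfl

/-- Integral entries and the inverse of the determinant is integral. -/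
theorem mem_GLO_of_det {O : Subring R} {g : GL (Fin 2) R} (h : ∀ i j, g i j ∈ O) {D : R}
    (hD : D ∈ O) (hD' : (g 0 0 * g 1 1 - g 0 1 * g 1 0) * D = 1) : g ∈ GLO O := by
  refine ⟨h, ?_⟩
  have h1 : (g : Matrix (Fin 2) (Fin 2) R) * (D • !![g 1 1, -g 0 1; -g 1 0, g 0 0]) = 1 := by
    ext i j
    fin_cases i <;> fin_cases j <;> simp [Matrix.mul_apply, Fin.sum_univ_two]
    · linear_combination hD'
    · ring
    · ring
    · linear_combination hD'
  have h2 : (D • !![g 1 1, -g 0 1; -g 1 0, g 0 0]) * (g : Matrix (Fin 2) (Fin 2) R) = 1 := by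
    ext i j
    fin_cases i <;> fin_cases j <;> simp [Matrix.mul_apply, Fin.sum_univ_two]
    · linear_combination hD'
    · ring
    · ring
    · linear_combination hD'
  have key : g = ⟨g, D • !![g 1 1, -g 0 1; -g 1 0, g 0 0], h1, h2⟩ := Units.ext rfl
  intro i j
  have hval : ((g⁻¹ : GL (Fin 2) R) : Matrix (Fin 2) (Fin 2) R) =
      D • !![g 1 1, -g 0 1; -g 1 0, g 0 0] := by
    rw [key]
    rfl
  rw [hval, Matrix.smul_apply, smul_eq_mul]
  refine O.mul_mem hD ?_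
  fin_cases i <;> fin_cases j
  · exact h 1 1
  · exact O.neg_mem (h 0 1)
  · exact O.neg_mem (h 1 0)
  · exact h 0 0

/-- `U₀(N ^ m)`: the elements of `GL₂(O)` whose lower left entry lies in `N ^ m O`. -/
def U0 (O : Subring R) (N : R) (m : ℕ) : Subgroup (GL (Fin 2) R) where
  carrier := {g | g ∈ GLO O ∧ ∃ y ∈ O, g 1 0 = N ^ m * y}
  one_mem' := by
    refine ⟨(GLO O).one_mem, 0, O.zero_mem, ?_⟩
    rw [Units.val_one, Matrix.one_apply_ne (by decide : (1 : Fin 2) ≠ 0), mul_zero]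
  mul_mem' := by
    rintro g h ⟨hg, y, hy, hgy⟩ ⟨hh, y', hy', hhy⟩
    refine ⟨(GLO O).mul_mem hg hh, y * h 0 0 + g 1 1 * y', O.add_mem (O.mul_mem hy (hh.1 0 0))
      (O.mul_mem (hg.1 1 1) hy'), ?_⟩
    rw [Units.val_mul, Matrix.mul_apply, Fin.sum_univ_two, hgy, hhy]
    ring
  inv_mem' := by
    rintro g ⟨hg, y, hy, hgy⟩
    refine ⟨(GLO O).inv_mem hg, _, O.neg_mem (O.mul_mem (O.sub_mem (O.mul_mem (hg.2 0 0) (hg.2 1 1))
      (O.mul_mem (hg.2 0 1) (hg.2 1 0))) hy), ?_⟩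
    refine (inv_entries g).trans ?_
    rw [hgy]
    ring

theorem mem_U0 {O : Subring R} {N : R} {m : ℕ} {g : GL (Fin 2) R} :
    g ∈ U0 O N m ↔ g ∈ GLO O ∧ ∃ y ∈ O, g 1 0 = N ^ m * y := Iff.rfl

/-- **Gauss decomposition** of `U₀(N ^ m)`, `m ≥ 1`. -/
theorem exists_factor {O : Subring R} {N : R} (hN : N ∈ O) (hJ : Jac O N) {m : ℕ} (hm : 1 ≤ m)
    {g : GL (Fin 2) R} (hg : g ∈ U0 O N m) :
    ∃ b ∈ O, ∃ a z : Rˣ, (a : R) ∈ O ∧ ((a⁻¹ : Rˣ) : R) ∈ O ∧ (z : R) ∈ O ∧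
      ((z⁻¹ : Rˣ) : R) ∈ O ∧ ∃ c ∈ O, g = uni b * dg a 1 * dg z z * lun (N ^ m * c) := by
  obtain ⟨⟨hg1, hg2⟩, y, hy, hgy⟩ := hg
  set D' : R := (g⁻¹ : GL (Fin 2) R) 0 0 * (g⁻¹ : GL (Fin 2) R) 1 1 -
        (g⁻¹ : GL (Fin 2) R) 0 1 * (g⁻¹ : GL (Fin 2) R) 1 0 with hD'
  have hDD : (g 0 0 * g 1 1 - g 0 1 * g 1 0) * D' = 1 := det_mul_det_inv g
  have hD'O : D' ∈ O := O.sub_mem (O.mul_mem (hg2 0 0) (hg2 1 1)) (O.mul_mem (hg2 0 1) (hg2 1 0))
  obtain ⟨k, rfl⟩ : ∃ k, m = k + 1 := ⟨m - 1, by omega⟩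
  obtain ⟨u, huO, hu⟩ := hJ (N ^ k * y * g 0 1 * D')
    (O.mul_mem (O.mul_mem (O.mul_mem (O.pow_mem hN k) hy) (hg1 0 1)) hD'O)
  have hd : g 1 1 * (g 0 0 * D' * u) = 1 := by
    have e1 : g 0 0 * g 1 1 * D' = 1 + N * (N ^ k * y * g 0 1 * D') := by
      rw [pow_succ] at hgy
      linear_combination hDD + g 0 1 * D' * hgy
    calc g 1 1 * (g 0 0 * D' * u) = (g 0 0 * g 1 1 * D') * u := by ring
      _ = 1 := by rw [e1, hu]
  let z : Rˣ := ⟨g 1 1, g 0 0 * D' * u, hd, by rw [mul_comm]; exact hd⟩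
  let Du : Rˣ := ⟨g 0 0 * g 1 1 - g 0 1 * g 1 0, D', hDD, by rw [mul_comm]; exact hDD⟩
  have hz : (z : R) ∈ O := hg1 1 1
  have hz' : ((z⁻¹ : Rˣ) : R) ∈ O := O.mul_mem (O.mul_mem (hg1 0 0) hD'O) huO
  have hDu : (Du : R) ∈ O := O.sub_mem (O.mul_mem (hg1 0 0) (hg1 1 1))
    (O.mul_mem (hg1 0 1) (hg1 1 0))
  have hDu' : ((Du⁻¹ : Rˣ) : R) ∈ O := hD'O
  have hzz : g 1 1 * ((z⁻¹ : Rˣ) : R) = 1 := hd
  refine ⟨g 0 1 * ((z⁻¹ : Rˣ) : R), O.mul_mem (hg1 0 1) hz', Du * z⁻¹ * z⁻¹, z, ?_, ?_, hz, hz',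
    y * ((z⁻¹ : Rˣ) : R), O.mul_mem hy hz', ?_⟩
  · rw [Units.val_mul, Units.val_mul]
    exact O.mul_mem (O.mul_mem hDu hz') hz'
  · have : (Du * z⁻¹ * z⁻¹)⁻¹ = Du⁻¹ * z * z := by
      rw [_root_.mul_inv, _root_.mul_inv, inv_inv]
    rw [this, Units.val_mul, Units.val_mul]
    exact O.mul_mem (O.mul_mem hDu' hz) hz
  · apply Units.ext
    have hDuv : (Du : R) = g 0 0 * g 1 1 - g 0 1 * g 1 0 := rfl
    have hzv : (z : R) = g 1 1 := rfl
    ext i j
    fin_cases i <;> fin_cases j <;>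
      simp [Matrix.mul_apply, Fin.sum_univ_two, hzv, hDuv]
    · linear_combination (-(g 0 0) * (1 + g 1 1 * ((z⁻¹ : Rˣ) : R))) * hzz +
        g 0 1 * g 1 1 * ((z⁻¹ : Rˣ) : R) ^ 2 * hgy
    · linear_combination (-(g 0 1)) * hzz
    · linear_combination hgy - N ^ (k + 1) * y * hzz

/-- **`U₀(N ^ m)` is generated** by `n(O)`, `diag (Oˣ, 1)`, the scalars `Oˣ` and `n⁻(N ^ m O)`. -/
theorem U0_le {O : Subring R} {N : R} (hN : N ∈ O) (hJ : Jac O N) {m : ℕ} (hm : 1 ≤ m)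
    (H : Subgroup (GL (Fin 2) R)) (hn : ∀ b ∈ O, uni b ∈ H)
    (hd : ∀ a : Rˣ, (a : R) ∈ O → ((a⁻¹ : Rˣ) : R) ∈ O → dg a 1 ∈ H)
    (hz : ∀ a : Rˣ, (a : R) ∈ O → ((a⁻¹ : Rˣ) : R) ∈ O → dg a a ∈ H)
    (hl : ∀ c ∈ O, lun (N ^ m * c) ∈ H) : U0 O N m ≤ H := by
  intro g hg
  obtain ⟨b, hb, a, z, ha, ha', hz1, hz2, c, hc, rfl⟩ := exists_factor hN hJ hm hg
  exact H.mul_mem (H.mul_mem (H.mul_mem (hn b hb) (hd a ha ha')) (hz z hz1 hz2)) (hl c hc)

/-- The subgroup of the `g` such that `f (x * g) = f x` for all `x`. -/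
def rightStab {G α : Type*} [Group G] (f : G → α) : Subgroup G where
  carrier := {g | ∀ x, f (x * g) = f x}
  one_mem' := fun x => by rw [mul_one]
  mul_mem' := by
    intro g h hg hh x
    rw [← mul_assoc, hh, hg]
  inv_mem' := by
    intro g hg x
    rw [← hg (x * g⁻¹), inv_mul_cancel_right]

theorem mem_rightStab {G α : Type*} [Group G] {f : G → α} {g : G} :
    g ∈ rightStab f ↔ ∀ x, f (x * g) = f x := Iff.rfl

/-- The elements of `GL₂(O)` congruent to `1` modulo `N ^ m`. -/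
def IsCong1 (O : Subring R) (N : R) (m : ℕ) (g : GL (Fin 2) R) : Prop :=
  g ∈ GLO O ∧ ∀ i j, ∃ y ∈ O, g i j - (1 : Matrix (Fin 2) (Fin 2) R) i j = N ^ m * y

theorem isCong1_lun {O : Subring R} {N : R} (hN : N ∈ O) {m : ℕ} {c : R} (hc : c ∈ O) :
    IsCong1 O N m (lun (N ^ m * c)) := by
  have hNc : N ^ m * c ∈ O := O.mul_mem (O.pow_mem hN m) hc
  refine ⟨⟨fun i j => ?_, fun i j => ?_⟩, fun i j => ?_⟩
  · fin_cases i <;> fin_cases j <;> simp [hNc, O.one_mem, O.zero_mem]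
  · rw [lun_inv]
    fin_cases i <;> fin_cases j <;> simp [hNc, O.one_mem, O.zero_mem]
  · fin_cases i <;> fin_cases j
    · exact ⟨0, O.zero_mem, by simp⟩
    · exact ⟨0, O.zero_mem, by simp⟩
    · exact ⟨c, hc, by simp⟩
    · exact ⟨0, O.zero_mem, by simp⟩

/-- Right invariance under `n(O)`, `diag (Oˣ, 1)`, scalars and a principal congruence subgroup
implies right invariance under `U₀(N ^ m)`. -/
theorem right_inv {α : Type*} {O : Subring R} {N : R} (hN : N ∈ O) (hJ : Jac O N) {m : ℕ}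
    (hm : 1 ≤ m) (f : GL (Fin 2) R → α)
    (hn : ∀ x, ∀ b ∈ O, f (x * uni b) = f x)
    (hd : ∀ x, ∀ a : Rˣ, (a : R) ∈ O → ((a⁻¹ : Rˣ) : R) ∈ O → f (x * dg a 1) = f x)
    (hz : ∀ x, ∀ a : Rˣ, (a : R) ∈ O → ((a⁻¹ : Rˣ) : R) ∈ O → f (x * dg a a) = f x)
    (hc : ∀ x, ∀ g, IsCong1 O N m g → f (x * g) = f x) :
    ∀ x, ∀ g ∈ U0 O N m, f (x * g) = f x := by
  intro x g hg
  exact U0_le hN hJ hm (rightStab f) (fun b hb x => hn x b hb) (fun a h1 h2 x => hd x a h1 h2)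
    (fun a h1 h2 x => hz x a h1 h2) (fun c hc' x => hc x _ (isCong1_lun hN hc')) hg x

/-- If `f` is left invariant under `G` (acting on `X` and mapping to `GL₂(R)`) and right
invariant under `H`, then `P ↦ f (P, 1)` is invariant under the preimage of `H`. -/
theorem left_inv_one {G X α : Type*} [Group G] [MulAction G X] (j : G →* GL (Fin 2) R)
    (f : X → GL (Fin 2) R → α) (hleft : ∀ g P x, f (g • P) (j g * x) = f P x)
    (H : Subgroup (GL (Fin 2) R)) (hright : ∀ P x, ∀ h ∈ H, f P (x * h) = f P x)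
    (g : G) (hg : j g ∈ H) (P : X) : f (g • P) 1 = f P 1 := by
  have h1 := hleft g P (j g)⁻¹
  rw [mul_inv_cancel] at h1
  rw [h1]
  have h2 := hright P 1 _ (H.inv_mem hg)
  rw [one_mul] at h2
  exact h2

/-- The image in `GL₂(R)` of an element of `GL₂(A)` whose lower left entry is divisible by
`n ^ m` lies in `U₀`. -/
theorem map_mem_U0 {A : Type*} [CommRing A] {O : Subring R} (ι : A →+* R) (hι : ∀ a, ι a ∈ O)
    (n : A) (m : ℕ) (g : GL (Fin 2) A) (h : n ^ m ∣ g 1 0) :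
    Matrix.GeneralLinearGroup.map ι g ∈ U0 O (ι n) m := by
  refine ⟨⟨fun i j => ?_, fun i j => ?_⟩, ?_⟩
  · rw [Matrix.GeneralLinearGroup.map_apply]
    exact hι _
  · rw [← map_inv, Matrix.GeneralLinearGroup.map_apply]
    exact hι _
  · obtain ⟨t, ht⟩ := h
    refine ⟨ι t, hι t, ?_⟩
    rw [Matrix.GeneralLinearGroup.map_apply, ht, map_mul, map_pow]

end General

section Models

/-- `O` = elements of a field integral for a nonempty family of valuations. -/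
def valRing {K ι : Type*} [Field K] {Γ : ι → Type*} [∀ i, LinearOrderedCommGroupWithZero (Γ i)]
    (v : ∀ i, Valuation K (Γ i)) : Subring K where
  carrier := {x | ∀ i, v i x ≤ 1}
  mul_mem' := by
    intro a b ha hb i
    rw [map_mul]
    exact mul_le_one' (ha i) (hb i)
  one_mem' := fun i => by rw [map_one]
  add_mem' := by
    intro a b ha hb i
    exact (v i).map_add_le (ha i) (hb i)
  zero_mem' := fun i => by rw [map_zero]; exact zero_le_one
  neg_mem' := by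
    intro a ha i
    rw [Valuation.map_neg]
    exact ha i

theorem mem_valRing {K ι : Type*} [Field K] {Γ : ι → Type*}
    [∀ i, LinearOrderedCommGroupWithZero (Γ i)] {v : ∀ i, Valuation K (Γ i)} {x : K} :
    x ∈ valRing v ↔ ∀ i, v i x ≤ 1 := Iff.rfl

/-- `v (1 + N x) = 1` when `v N < 1` and `v x ≤ 1`. -/
theorem val_one_add {K Γ : Type*} [Field K] [LinearOrderedCommGroupWithZero Γ]
    (v : Valuation K Γ) {N x : K} (hN : v N < 1) (hx : v x ≤ 1) : v (1 + N * x) = 1 := by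
  have h : v (N * x) < 1 := by
    rw [map_mul]
    exact mul_lt_one_of_lt_of_le hN hx
  have h1 : v (1 : K) = 1 := map_one _
  rw [Valuation.map_add_eq_of_lt_left v (by rw [h1]; exact h), h1]

theorem jac_of_valuation {K ι : Type*} [Field K] [Nonempty ι] {Γ : ι → Type*}
    [∀ i, LinearOrderedCommGroupWithZero (Γ i)] (v : ∀ i, Valuation K (Γ i)) {N : K}
    (hN : ∀ i, v i N < 1) : Jac (valRing v) N := by
  intro x hx
  have hv : ∀ i, v i (1 + N * x) = 1 := fun i => val_one_add (v i) (hN i) (hx i)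
  have hne : 1 + N * x ≠ 0 := by
    intro h
    obtain ⟨i⟩ := ‹Nonempty ι›
    have := hv i
    rw [h, map_zero] at this
    exact zero_ne_one this
  refine ⟨(1 + N * x)⁻¹, fun i => ?_, mul_inv_cancel₀ hne⟩
  rw [map_inv₀, hv i, inv_one]

/-- The product model: `R = ∏ K_i`, `O = ∏ O_i`. -/
def piRing {ι : Type*} {K : ι → Type*} [∀ i, Field (K i)] {Γ : ι → Type*}
    [∀ i, LinearOrderedCommGroupWithZero (Γ i)] (v : ∀ i, Valuation (K i) (Γ i)) :
    Subring (∀ i, K i) where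
  carrier := {x | ∀ i, v i (x i) ≤ 1}
  mul_mem' := by
    intro a b ha hb i
    rw [Pi.mul_apply, map_mul]
    exact mul_le_one' (ha i) (hb i)
  one_mem' := fun i => by rw [Pi.one_apply, map_one]
  add_mem' := by
    intro a b ha hb i
    exact (v i).map_add_le (ha i) (hb i)
  zero_mem' := fun i => by rw [Pi.zero_apply, map_zero]; exact zero_le_one
  neg_mem' := by
    intro a ha i
    rw [Pi.neg_apply, Valuation.map_neg]
    exact ha i

theorem mem_piRing {ι : Type*} {K : ι → Type*} [∀ i, Field (K i)] {Γ : ι → Type*}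
    [∀ i, LinearOrderedCommGroupWithZero (Γ i)] {v : ∀ i, Valuation (K i) (Γ i)}
    {x : ∀ i, K i} : x ∈ piRing v ↔ ∀ i, v i (x i) ≤ 1 := Iff.rfl

theorem jac_pi {ι : Type*} {K : ι → Type*} [∀ i, Field (K i)] {Γ : ι → Type*}
    [∀ i, LinearOrderedCommGroupWithZero (Γ i)] (v : ∀ i, Valuation (K i) (Γ i))
    {N : ∀ i, K i} (hN : ∀ i, v i (N i) < 1) : Jac (piRing v) N := by
  intro x hx
  have hv : ∀ i, v i (1 + N i * x i) = 1 := fun i => val_one_add (v i) (hN i) (hx i)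
  have hne : ∀ i, 1 + N i * x i ≠ 0 := by
    intro i h
    have := hv i
    rw [h, map_zero] at this
    exact zero_ne_one this
  refine ⟨fun i => (1 + N i * x i)⁻¹, fun i => ?_, ?_⟩
  · rw [map_inv₀, hv i, inv_one]
  · funext i
    exact mul_inv_cancel₀ (hne i)

/-- The semilocal ring of the fractions whose denominator is prime to `n`. -/
def semiLoc (A K : Type*) [CommRing A] [Field K] [Algebra A K] (n : A) : Subring K where
  carrier := {x | ∃ a b : A, IsCoprime b n ∧ x * algebraMap A K b = algebraMap A K a}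
  mul_mem' := by
    rintro x y ⟨a, b, hb, h⟩ ⟨a', b', hb', h'⟩
    refine ⟨a * a', b * b', hb.mul_left hb', ?_⟩
    rw [map_mul, map_mul, ← h, ← h']
    ring
  one_mem' := ⟨1, 1, isCoprime_one_left, by simp⟩
  add_mem' := by
    rintro x y ⟨a, b, hb, h⟩ ⟨a', b', hb', h'⟩
    refine ⟨a * b' + a' * b, b * b', hb.mul_left hb', ?_⟩
    rw [map_mul, map_add, map_mul, map_mul, ← h, ← h']
    ring
  zero_mem' := ⟨0, 1, isCoprime_one_left, by simp⟩
  neg_mem' := by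
    rintro x ⟨a, b, hb, h⟩
    exact ⟨-a, b, hb, by rw [map_neg, ← h]; ring⟩

theorem mem_semiLoc {A K : Type*} [CommRing A] [Field K] [Algebra A K] {n : A} {x : K} :
    x ∈ semiLoc A K n ↔ ∃ a b : A, IsCoprime b n ∧ x * algebraMap A K b = algebraMap A K a :=
  Iff.rfl

theorem algebraMap_mem_semiLoc {A K : Type*} [CommRing A] [Field K] [Algebra A K] (n a : A) :
    algebraMap A K a ∈ semiLoc A K n := ⟨a, 1, isCoprime_one_left, by simp⟩

/-- `n` not a unit of `A`: the elements prime to `n` are nonzero and `1 + n O ⊆ Oˣ`. -/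
theorem jac_semiLoc (A K : Type*) [CommRing A] [Field K] [Algebra A K] [FaithfulSMul A K]
    {n : A} (hn : ¬ IsUnit n) : Jac (semiLoc A K n) (algebraMap A K n) := by
  have hne : ∀ b : A, IsCoprime b n → algebraMap A K b ≠ 0 := by
    intro b hb h
    rw [FaithfulSMul.algebraMap_eq_zero_iff] at h
    rw [h, isCoprime_zero_left] at hb
    exact hn hb
  rintro x ⟨a, b, hb, h⟩
  have hcop : IsCoprime (b + n * a) n := by
    rw [IsCoprime.add_mul_left_left_iff]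
    exact hb
  have hb0 := hne b hb
  have hc0 := hne _ hcop
  refine ⟨algebraMap A K b / algebraMap A K (b + n * a), ⟨b, b + n * a, hcop, ?_⟩, ?_⟩
  · rw [div_mul_cancel₀ _ hc0]
  · rw [← mul_div_assoc, div_eq_one_iff_eq hc0, map_add, map_mul, ← h]
    ring

end Models

end Fermat.Agent.LT.Clas
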