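import Fermat.Agent.LT.Kappa.Main
import Fermat.Agent.LT.Clas.Deplete
import Fermat.Agent.LT.Clas.Gen

/-!
# The Kirillov space of a space of automorphic functions, and the depleted vector

`C` is a nonempty set of functions on `X_∞ × GL₂(R_f)`, stable under linear combinations and
right translations, contained in helper31's `InW O θ lam wi`.  If `C` contains a nonzero function
then it contains `ψ₀` with `κ ψ₀ = 1_{O_fˣ}`.
-/

set_option autoImplicit false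

namespace Fermat.Agent.LT.Clas

open MeasureTheory Topology Kap

variable {O Ri Rf Xi : Type*} [CommRing O] [CommRing Ri] [TopologicalSpace Ri]
  [IsTopologicalRing Ri] [CommRing Rf] [TopologicalSpace Rf] [IsTopologicalRing Rf]
  [Algebra O Ri] [Algebra O Rf]
  [MulAction (GL (Fin 2) Ri) Xi] {θ : AddChar (Ri × Rf) Circle} {lam : O → ℂ} {wi : Xi → ℂ}

/-- The finite part of `θ`, with values in `ℂ`. -/
noncomputable def thf (θ : AddChar (Ri × Rf) Circle) : AddChar Rf ℂ where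
  toFun x := (θ (0, x) : ℂ)
  map_zero_eq_one' := by
    have : ((0 : Ri), (0 : Rf)) = 0 := rfl
    rw [this, AddChar.map_zero_eq_one, Circle.coe_one]
  map_add_eq_mul' x y := by
    have : ((0 : Ri), x + y) = (0, x) + (0, y) := by simp
    rw [this, AddChar.map_add_eq_mul, Circle.coe_mul]

theorem thf_apply (θ : AddChar (Ri × Rf) Circle) (x : Rf) : thf θ x = (θ (0, x) : ℂ) := rfl

/-- The data at the finite places: the ring of integers and the level. -/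
structure FinDat (θ : AddChar (Ri × Rf) Circle) (Of : Subring Rf) (N : Rfˣ) : Prop where
  mem : (N : Rf) ∈ Of
  cond : HasConductor Of (thf θ)
  fin : ∀ m : ℕ, Finite (Of ⧸ (Ideal.span {(⟨(N : Rf), mem⟩ : Of) ^ m} : Ideal Of))
  jac : Jac Of (N : Rf)
  nhds : ∀ U ∈ 𝓝 (0 : Rf), ∃ m : ℕ, ∀ x ∈ Of, (N : Rf) ^ m * x ∈ U

variable [CompactSpace ((Ri × Rf) ⧸ lat O (Ri × Rf))]

/-- A space of functions: stable under linear combinations and right translations, inside `W`. -/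
structure AutSp (O : Type*) {Ri Rf Xi : Type*} [CommRing O] [CommRing Ri] [TopologicalSpace Ri]
    [IsTopologicalRing Ri] [CommRing Rf] [TopologicalSpace Rf] [IsTopologicalRing Rf]
    [Algebra O Ri] [Algebra O Rf] [MulAction (GL (Fin 2) Ri) Xi]
    [CompactSpace ((Ri × Rf) ⧸ lat O (Ri × Rf))] (θ : AddChar (Ri × Rf) Circle) (lam : O → ℂ)
    (wi : Xi → ℂ) (C : Set (Sp Xi Rf → ℂ)) : Prop where
  add : ∀ ψ ∈ C, ∀ ψ' ∈ C, ∀ c c' : ℂ, (fun x => c * ψ x + c' * ψ' x) ∈ C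
  rt : ∀ ψ ∈ C, ∀ k, rt k ψ ∈ C
  inW : ∀ ψ ∈ C, InW O θ lam wi ψ
  ne : ∃ ψ ∈ C, ∃ x, ψ x ≠ 0

/-- The Kirillov function (at a point `z₀` where `w∞` does not vanish). -/
noncomputable def kap (O : Type*) {Ri Rf Xi : Type*} [CommRing O] [CommRing Ri]
    [TopologicalSpace Ri] [IsTopologicalRing Ri] [CommRing Rf] [TopologicalSpace Rf]
    [IsTopologicalRing Rf] [Algebra O Ri] [Algebra O Rf] [MulAction (GL (Fin 2) Ri) Xi]
    [CompactSpace ((Ri × Rf) ⧸ lat O (Ri × Rf))] (θ : AddChar (Ri × Rf) Circle)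
    (wi : Xi → ℂ) (z₀ : Xi) (ψ : Sp Xi Rf → ℂ) (a : Rfˣ) : ℂ :=
  wh O θ ψ 1 (⟨z₀, Kap.dg a 1⟩ : Sp Xi Rf) / wi z₀

theorem wh_eq_kap {z₀ : Xi} (hz₀ : wi z₀ ≠ 0) {ψ : Sp Xi Rf → ℂ} (h : InW O θ lam wi ψ) (a : Rfˣ)
    (z : Xi) : wh O θ ψ 1 (⟨z, Kap.dg a 1⟩ : Sp Xi Rf) = kap O θ wi z₀ ψ a * wi z := by
  obtain ⟨c, hc⟩ := h.line (Kap.dg a 1)
  unfold kap
  rw [hc z, hc z₀, mul_div_cancel_right₀ _ hz₀]

theorem kap_add (hθ : SelfDual O θ) {z₀ : Xi} {ψ ψ' : Sp Xi Rf → ℂ} (h : InW O θ lam wi ψ)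
    (h' : InW O θ lam wi ψ') (c c' : ℂ) (a : Rfˣ) :
    kap O θ wi z₀ (fun x => c * ψ x + c' * ψ' x) a =
      c * kap O θ wi z₀ ψ a + c' * kap O θ wi z₀ ψ' a := by
  unfold kap
  rw [wh_add hθ h.aut h'.aut]
  ring

theorem kap_rt_dg {z₀ : Xi} (ψ : Sp Xi Rf → ℂ) (t a : Rfˣ) :
    kap O θ wi z₀ (rt (Kap.dg t 1) ψ) a = kap O θ wi z₀ ψ (a * t) := by
  unfold kap
  rw [wh_rt]
  simp only [dg_mul_dg, mul_one]

theorem kap_rt_nn (hθ : SelfDual O θ) {z₀ : Xi} {ψ : Sp Xi Rf → ℂ}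
    (h : InW O θ lam wi ψ) (b : Rf) (a : Rfˣ) :
    kap O θ wi z₀ (rt (nn b) ψ) a = thf θ ((a : Rf) * b) * kap O θ wi z₀ ψ a := by
  unfold kap
  rw [wh_rt]
  simp only
  rw [wh_nn_right hθ h.aut, thf_apply]
  ring

/-- evaluation at a fixed point at infinity -/
def ψₒ_apply (ψ : Sp Xi Rf → ℂ) (z : Xi) (g : GL (Fin 2) Rf) : ℂ := ψ ⟨z, g⟩

section

variable {Of : Subring Rf} {N : Rfˣ}

/-- a neighbourhood adapted to `N`. -/
theorem exists_level (D : FinDat θ Of N) {ψ : Sp Xi Rf → ℂ} (hs : Smooth ψ) :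
    ∃ m : ℕ, 1 ≤ m ∧ ∀ (z : Xi) (g h : GL (Fin 2) Rf),
      (∀ i j, ∃ y ∈ Of, (h : Matrix (Fin 2) (Fin 2) Rf) i j -
        (1 : Matrix (Fin 2) (Fin 2) Rf) i j = (N : Rf) ^ m * y) → ψ ⟨z, g * h⟩ = ψ ⟨z, g⟩ := by
  obtain ⟨U, hU, h1⟩ := hs
  obtain ⟨m, hm⟩ := D.nhds U hU
  refine ⟨m + 1, by omega, fun z g h hh => h1 z g h fun i j => ?_⟩
  obtain ⟨y, hy, hy'⟩ := hh i j
  rw [hy', pow_succ, mul_assoc]
  exact hm _ (Of.mul_mem D.mem hy)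

theorem rt_eq_of_near {m : ℕ} {ψ : Sp Xi Rf → ℂ} (hm : ∀ (z : Xi) (g h : GL (Fin 2) Rf),
      (∀ i j, ∃ y ∈ Of, (h : Matrix (Fin 2) (Fin 2) Rf) i j -
        (1 : Matrix (Fin 2) (Fin 2) Rf) i j = (N : Rf) ^ m * y) → ψ ⟨z, g * h⟩ = ψ ⟨z, g⟩)
    {u : Rfˣ} (hu : Near Of N m u) : rt (Kap.dg u 1) ψ = ψ := by
  ext x
  obtain ⟨y, hy, hu⟩ := hu
  refine hm x.i x.f _ fun i j => ?_
  rw [Kap.coe_dg]
  fin_cases i <;> fin_cases j
  · exact ⟨y, hy, by simp [hu]⟩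
  · exact ⟨0, Of.zero_mem, by simp⟩
  · exact ⟨0, Of.zero_mem, by simp⟩
  · exact ⟨0, Of.zero_mem, by simp⟩

theorem rt_nn_of_near {m : ℕ} {ψ : Sp Xi Rf → ℂ} (hm : ∀ (z : Xi) (g h : GL (Fin 2) Rf),
      (∀ i j, ∃ y ∈ Of, (h : Matrix (Fin 2) (Fin 2) Rf) i j -
        (1 : Matrix (Fin 2) (Fin 2) Rf) i j = (N : Rf) ^ m * y) → ψ ⟨z, g * h⟩ = ψ ⟨z, g⟩)
    {y : Rf} (hy : y ∈ Of) : rt (nn ((N : Rf) ^ m * y)) ψ = ψ := by
  ext x
  refine hm x.i x.f _ fun i j => ?_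
  rw [coe_nn]
  fin_cases i <;> fin_cases j
  · exact ⟨0, Of.zero_mem, by simp⟩
  · exact ⟨y, hy, by simp⟩
  · exact ⟨0, Of.zero_mem, by simp⟩
  · exact ⟨0, Of.zero_mem, by simp⟩

/-- The Kirillov space. -/
noncomputable def kirSpace (hθ : SelfDual O θ) (D : FinDat θ Of N) {C : Set (Sp Xi Rf → ℂ)}
    (hC : AutSp O θ lam wi C) {z₀ : Xi} (hinj : ∀ ψ ∈ C, kap O θ wi z₀ ψ = 0 → ∀ x, ψ x = 0) :
    KirSpace Of N (thf θ) where
  V :=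
    { carrier := {f | ∃ ψ ∈ C, kap O θ wi z₀ ψ = f}
      add_mem' := by
        rintro f g ⟨ψ, hψ, rfl⟩ ⟨ψ', hψ', rfl⟩
        refine ⟨_, hC.add ψ hψ ψ' hψ' 1 1, ?_⟩
        ext a
        rw [kap_add hθ (hC.inW ψ hψ) (hC.inW ψ' hψ')]
        simp
      zero_mem' := by
        obtain ⟨ψ, hψ, -⟩ := hC.ne
        refine ⟨_, hC.add ψ hψ ψ hψ 0 0, ?_⟩
        ext a
        rw [kap_add hθ (hC.inW ψ hψ) (hC.inW ψ hψ)]
        simp
      smul_mem' := by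
        rintro c f ⟨ψ, hψ, rfl⟩
        refine ⟨_, hC.add ψ hψ ψ hψ c 0, ?_⟩
        ext a
        rw [kap_add hθ (hC.inW ψ hψ) (hC.inW ψ hψ)]
        simp }
  mul_mem := by
    rintro f ⟨ψ, hψ, rfl⟩ b
    exact ⟨_, hC.rt ψ hψ (nn b), funext fun a => kap_rt_nn hθ (hC.inW ψ hψ) b a⟩
  trans_mem := by
    rintro f ⟨ψ, hψ, rfl⟩ t
    exact ⟨_, hC.rt ψ hψ (Kap.dg t 1), funext fun a => kap_rt_dg ψ t a⟩
  smooth := by
    rintro f ⟨ψ, hψ, rfl⟩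
    obtain ⟨m, -, hm⟩ := exists_level D (hC.inW ψ hψ).smooth
    refine ⟨m, fun u hu a => ?_⟩
    rw [← kap_rt_dg, rt_eq_of_near hm hu]
  bdd := by
    rintro f ⟨ψ, hψ, rfl⟩
    obtain ⟨m, -, hm⟩ := exists_level D (hC.inW ψ hψ).smooth
    refine ⟨m, fun a ha => ?_⟩
    rw [← D.cond]
    intro y hy
    have h1 := kap_rt_nn (z₀ := z₀) hθ (hC.inW ψ hψ) ((N : Rf) ^ m * y) a
    rw [rt_nn_of_near hm hy] at h1
    have h2 : (thf θ ((a : Rf) * ((N : Rf) ^ m * y)) - 1) * kap O θ wi z₀ ψ a = 0 := by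
      rw [sub_mul, ← h1]
      ring
    have h3 := (mul_eq_zero.mp h2).resolve_right ha
    rw [show (N : Rf) ^ m * (a : Rf) * y = (a : Rf) * ((N : Rf) ^ m * y) by ring]
    exact sub_eq_zero.mp h3
  ne := by
    obtain ⟨ψ, hψ, x, hx⟩ := hC.ne
    exact ⟨_, ⟨ψ, hψ, rfl⟩, fun h => hx (hinj ψ hψ h x)⟩

/-- The depleted vector: `κ ψ₀ = 1_{O_fˣ}`, with its invariances. -/
structure IsDepleted (O : Type*) {Ri Rf Xi : Type*} [CommRing O] [CommRing Ri]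
    [TopologicalSpace Ri] [IsTopologicalRing Ri] [CommRing Rf] [TopologicalSpace Rf]
    [IsTopologicalRing Rf] [Algebra O Ri] [Algebra O Rf] [MulAction (GL (Fin 2) Ri) Xi]
    [CompactSpace ((Ri × Rf) ⧸ lat O (Ri × Rf))] (θ : AddChar (Ri × Rf) Circle)
    (wi : Xi → ℂ) (Of : Subring Rf) (N : Rfˣ) (m : ℕ) (ψ : Sp Xi Rf → ℂ) : Prop where
  wh_one : ∀ (z : Xi) (a : Rfˣ),
    wh O θ ψ 1 (⟨z, Kap.dg a 1⟩ : Sp Xi Rf) = indUnits Of a * wi z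
  one_le : 1 ≤ m
  rt_nn : ∀ b ∈ Of, rt (nn b) ψ = ψ
  rt_dg : ∀ a : Rfˣ, (a : Rf) ∈ Of → ((a⁻¹ : Rfˣ) : Rf) ∈ Of → rt (Kap.dg a 1) ψ = ψ
  rt_cong : ∀ (z : Xi) (g h : GL (Fin 2) Rf),
      (∀ i j, ∃ y ∈ Of, (h : Matrix (Fin 2) (Fin 2) Rf) i j -
        (1 : Matrix (Fin 2) (Fin 2) Rf) i j = (N : Rf) ^ m * y) → ψ ⟨z, g * h⟩ = ψ ⟨z, g⟩
  /-- right invariance under `U₀(N ^ m)` -/
  rt_U0 : ∀ (z : Xi) (g : GL (Fin 2) Rf), ∀ h ∈ U0 Of (N : Rf) m, ψ ⟨z, g * h⟩ = ψ ⟨z, g⟩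

theorem exists_depleted_of_inj (hθ : SelfDual O θ) (D : FinDat θ Of N) {C : Set (Sp Xi Rf → ℂ)}
    (hC : AutSp O θ lam wi C) {z₀ : Xi} (hz₀ : wi z₀ ≠ 0)
    (hinj : ∀ ψ ∈ C, kap O θ wi z₀ ψ = 0 → ∀ x, ψ x = 0) :
    ∃ ψ₀ ∈ C, ∃ m : ℕ, IsDepleted O θ wi Of N m ψ₀ := by
  have hrad : ∀ y ∈ Of, ∀ m : ℕ, 0 < m → ∀ u : Rfˣ, (u : Rf) = 1 + (N : Rf) ^ m * y →
      ((u⁻¹ : Rfˣ) : Rf) ∈ Of := by
    intro y hy m hm u hu
    obtain ⟨m, rfl⟩ := Nat.exists_eq_succ_of_ne_zero hm.ne'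
    obtain ⟨w, hw, hw1⟩ := D.jac ((N : Rf) ^ m * y) (Of.mul_mem (Of.pow_mem D.mem m) hy)
    have h1 : (u : Rf) * w = 1 := by
      rw [hu, pow_succ]
      linear_combination hw1
    have h2 : ((u⁻¹ : Rfˣ) : Rf) = w := by
      rw [← mul_one ((u⁻¹ : Rfˣ) : Rf), ← h1, ← mul_assoc, Units.inv_mul, one_mul]
    rw [h2]
    exact hw
  obtain ⟨ψ₀, hψ₀, hk⟩ := (kirSpace hθ D hC hinj).indUnits_mem D.mem D.cond hrad D.fin
  have hW := hC.inW ψ₀ hψ₀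
  -- a criterion for invariance
  have hinv : ∀ k : GL (Fin 2) Rf, (∀ a, kap O θ wi z₀ (rt k ψ₀) a = kap O θ wi z₀ ψ₀ a) →
      rt k ψ₀ = ψ₀ := by
    intro k hk'
    have h1 := hinj _ (hC.add _ (hC.rt ψ₀ hψ₀ k) ψ₀ hψ₀ 1 (-1)) (by
      ext a
      rw [kap_add hθ (hC.inW _ (hC.rt ψ₀ hψ₀ k)) hW, hk']
      simp)
    ext x
    have := h1 x
    linear_combination this
  have hnn : ∀ b ∈ Of, rt (nn b) ψ₀ = ψ₀ := by
    intro b hb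
    refine hinv _ fun a => ?_
    rw [kap_rt_nn hθ hW]
    by_cases ha : kap O θ wi z₀ ψ₀ a = 0
    · rw [ha, mul_zero]
    · rw [hk] at ha
      have ha' : (a : Rf) ∈ Of := by
        unfold indUnits at ha
        by_contra hcon
        exact ha (if_neg fun h => hcon h.1)
      rw [(D.cond _).mpr ha' b hb, one_mul]
  have hdg : ∀ a : Rfˣ, (a : Rf) ∈ Of → ((a⁻¹ : Rfˣ) : Rf) ∈ Of → rt (Kap.dg a 1) ψ₀ = ψ₀ := by
    intro u hu hu'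
    refine hinv _ fun a => ?_
    rw [kap_rt_dg, hk]
    have h1 : ((a * u : Rfˣ) : Rf) ∈ Of ↔ (a : Rf) ∈ Of := by
      rw [Units.val_mul]
      refine ⟨fun h => ?_, fun h => Of.mul_mem h hu⟩
      have := Of.mul_mem h hu'
      rwa [mul_assoc, Units.mul_inv, mul_one] at this
    have h2 : (((a * u)⁻¹ : Rfˣ) : Rf) ∈ Of ↔ ((a⁻¹ : Rfˣ) : Rf) ∈ Of := by
      rw [mul_inv, Units.val_mul]
      refine ⟨fun h => ?_, fun h => Of.mul_mem h hu'⟩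
      have := Of.mul_mem h hu
      rwa [mul_assoc, Units.inv_mul, mul_one] at this
    have h3 := and_congr h1 h2
    unfold indUnits
    by_cases h : (a : Rf) ∈ Of ∧ ((a⁻¹ : Rfˣ) : Rf) ∈ Of
    · rw [if_pos (h3.mpr h), if_pos h]
    · rw [if_neg fun h' => h (h3.mp h'), if_neg h]
  obtain ⟨m, hm1, hm⟩ := exists_level D hW.smooth
  refine ⟨ψ₀, hψ₀, m, ⟨fun z a => ?_, hm1, hnn, hdg, hm, fun z g h hh => ?_⟩⟩
  · rw [wh_eq_kap hz₀ hW, hk]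
  · refine right_inv (O := Of) (N := (N : Rf)) D.mem D.jac hm1 (fun g => ψₒ_apply ψ₀ z g) ?_ ?_ ?_ ?_
      g h hh
    · intro x b hb
      have := congrFun (hnn b hb) ⟨z, x⟩
      exact this
    · intro x a ha ha'
      have := congrFun (hdg a ha ha') ⟨z, x⟩
      exact this
    · intro x a ha ha'
      exact right_scal hW.aut z x a
    · intro x g hg
      exact hm z x g hg.2

/-- **Existence of the depleted vector.** -/
theorem exists_depleted [IsDomain O] [IsPrincipalIdealRing O] (F : Type*) [Field F] [Algebra O F]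
    [Algebra F Rf] [IsScalarTower O F Rf] [IsFractionRing O F]
    [IsClosed (lat O (Ri × Rf) : Set (Ri × Rf))] [Nontrivial Rf]
    (hinj : Function.Injective (algebraMap O (Ri × Rf)))
    (hθ : SelfDual O θ) (hunit : ∀ a : O, a ≠ 0 → IsUnit (algebraMap O (Ri × Rf) a))
    (hdense : DenseRange (algebraMap F Rf)) (hu : ∀ᶠ x in 𝓝 (1 : Rf), IsUnit x)
    (D : FinDat θ Of N) {C : Set (Sp Xi Rf → ℂ)} (hC : AutSp O θ lam wi C) {z₀ : Xi}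
    (hz₀ : wi z₀ ≠ 0) : ∃ ψ₀ ∈ C, ∃ m : ℕ, IsDepleted O θ wi Of N m ψ₀ := by
  refine exists_depleted_of_inj hθ D hC hz₀ fun ψ hψ hk x => ?_
  have hW := hC.inW ψ hψ
  refine eq_zero_of_kappa F hinj hθ hunit hdense hu hW.aut hW.eig hW.cusp hW.smooth
    (fun z a => ?_) x
  rw [wh_eq_kap hz₀ hW, hk]
  simp

end

end Fermat.Agent.LT.Clas
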