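import Fermat.Agent.LT.Clas.NumInst
import Fermat.Agent.LT.Clas.Kir
import Fermat.Agent.LT.Adapt.InfAct
import Fermat.Agent.LT.KForm

/-!
# The classical function `F (P) = ψ (P, 1)` of a depleted vector (helper96)

`K` has one infinite place `w`, `σ = w.embedding`.  Invariance under `Γ₀(N ^ m)` and the Hecke
operators at the primes not dividing `N`.
-/

set_option autoImplicit false
set_option linter.unusedSectionVars false

open NumberField IsDedekindDomain HeightOneSpectrum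

noncomputable section

namespace Fermat.Agent.LT.Clas

open Kap Loc Adapt

variable {K : Type} [Field K] [NumberField K] (S : Finset (HeightOneSpectrum (𝓞 K)))

variable (K) in
/-- the constant point -/
def cst (P : H3) : Xi K := fun _ => P

theorem cst_apply (P : H3) (w : InfinitePlace K) : cst K P w = P := rfl

/-- the classical function -/
def atOne (ψ : Sp (Xi K) (Rf S) → ℂ) (P : H3) : ℂ := ψ ⟨cst K P, 1⟩

/-- `𝓞 K → R_f` -/
def iotaf : 𝓞 K →+* Rf S := (algebraMap K (Rf S)).comp (algebraMap (𝓞 K) K)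

theorem iotaf_apply (b : 𝓞 K) : iotaf S b = algebraMap K (Rf S) (b : K) := rfl

theorem iotaf_mem_Of (b : 𝓞 K) : iotaf S b ∈ Of S := algebraMap_int_mem_Of S b

variable {S}

theorem gl_map_apply {R R' : Type*} [CommRing R] [CommRing R'] (f : R →+* R') (g : GL (Fin 2) R)
    (i j : Fin 2) : (Matrix.GeneralLinearGroup.map f g : GL (Fin 2) R') i j = f (g i j) := rfl

theorem smul_diag (w : InfinitePlace K) (hw : ∀ w', w' = w) (g : GL (Fin 2) (𝓞 K)) (P : H3) :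
    Matrix.GeneralLinearGroup.map (RingHom.fst (Rinf K) (Rf S))
      (Matrix.GeneralLinearGroup.map (algebraMap (OS S) (Rinf K × Rf S))
        (Matrix.GeneralLinearGroup.map (toOS S) g)) • cst K P =
      cst K (toGLC w.embedding g • P) := by
  funext w'
  rw [hw w', inf_smul_apply, cst_apply, cst_apply]
  congr 1

theorem atOne_inv {ψ : Sp (Xi K) (Rf S) → ℂ} (h : IsAut (A := Rinf K × Rf S) (OS S) ψ)
    (w : InfinitePlace K) (hw : ∀ w', w' = w) (g : GL (Fin 2) (𝓞 K))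
    (hg : ∀ z, ψ ⟨z, (Matrix.GeneralLinearGroup.map (iotaf S) g)⁻¹⟩ = ψ ⟨z, 1⟩) (P : H3) :
    atOne S ψ (toGLC w.embedding g • P) = atOne S ψ P := by
  have h1 := h.inv (Matrix.GeneralLinearGroup.map (toOS S) g)
    (⟨cst K P, (Matrix.GeneralLinearGroup.map (iotaf S) g)⁻¹⟩ : Sp (Xi K) (Rf S))
  rw [smul_mk, smul_diag w hw] at h1
  have h2 : Matrix.GeneralLinearGroup.map (RingHom.snd (Rinf K) (Rf S))
      (Matrix.GeneralLinearGroup.map (algebraMap (OS S) (Rinf K × Rf S))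
        (Matrix.GeneralLinearGroup.map (toOS S) g)) =
      Matrix.GeneralLinearGroup.map (iotaf S) g := by
    apply Units.ext
    ext i j
    rfl
  rw [h2, mul_inv_cancel, hg] at h1
  exact h1

/-- **invariance under `Γ₀(n ^ m)`** -/
theorem IsDepleted.atOne_inv {θ : AddChar (Rinf K × Rf S) Circle}
    {wi : Xi K → ℂ} [IsTotallyComplex K] {N : (Rf S)ˣ} {m : ℕ} {ψ : Sp (Xi K) (Rf S) → ℂ}
    (hD : IsDepleted (OS S) θ wi (Of S) N m ψ) (h : IsAut (A := Rinf K × Rf S) (OS S) ψ)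
    {n : 𝓞 K} (hn : (N : Rf S) = iotaf S n)
    (w : InfinitePlace K) (hw : ∀ w', w' = w) (g : GL (Fin 2) (𝓞 K)) (hg : n ^ m ∣ g 1 0)
    (P : H3) : atOne S ψ (toGLC w.embedding g • P) = atOne S ψ P := by
  refine Clas.atOne_inv h w hw g (fun z => ?_) P
  have h1 : (Matrix.GeneralLinearGroup.map (iotaf S) g)⁻¹ ∈ U0 (Of S) (N : Rf S) m := by
    rw [hn]
    exact (U0 _ _ _).inv_mem (map_mem_U0 (iotaf S) (iotaf_mem_Of S) n m g hg)
  have h2 := hD.rt_U0 z 1 _ h1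
  rwa [one_mul] at h2

/-! ### the Hecke operators -/

theorem mem_U0_of_upper {R : Type*} [CommRing R] {O : Subring R} {N : R} {m : ℕ}
    {g : GL (Fin 2) R} (h10 : g 1 0 = 0) (h : ∀ i j, g i j ∈ O) {D : R} (hD : D ∈ O)
    (hD' : g 0 0 * g 1 1 * D = 1) : g ∈ U0 O N m := by
  refine ⟨mem_GLO_of_det h hD ?_, 0, O.zero_mem, ?_⟩
  · rw [h10, mul_zero, sub_zero, hD']
  · rw [h10, mul_zero]

theorem inv_mem_Of {ϖ : 𝓞 K} (h0 : ϖ ≠ 0) (hv : ∀ v ∈ S, ϖ ∉ v.asIdeal) :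
    algebraMap K (Rf S) (ϖ : K)⁻¹ ∈ Of S := by
  intro v
  have h1 : Valued.v (algebraMap K (Rf S) (ϖ : K)⁻¹ v) = v.1.valuation K (ϖ : K)⁻¹ := v_ι v.1 _
  have h2 := ord_toK_nonneg v.1 h0
  have h3 : ¬ 0 < CFT.SUnits.ord v.1 (toK ϖ h0) :=
    fun h4 => hv v.1 v.2 ((ord_toK_pos_iff v.1 h0).mp h4)
  have h4 : CFT.SUnits.ord v.1 (toK ϖ h0) = 0 := by omega
  have h5 := (CFT.SUnits.ord_eq_zero_iff K v.1 (toK ϖ h0)).mp h4
  rw [coe_toK] at h5
  rw [h1, map_inv₀, h5, inv_one]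

theorem divS_toOS_prime {ϖ : 𝓞 K} (hϖ : Prime ϖ) (hv : ∀ v ∈ S, ϖ ∉ v.asIdeal) :
    divS S (toU (toOS S ϖ) (toOS_ne_zero S hϖ.ne_zero)) = Finsupp.single (plc hϖ) 1 := by
  rw [toU_toOS S hϖ.ne_zero, divS_toK S hϖ.ne_zero hv, div_toK_prime hϖ]

theorem plc_notMem {ϖ : 𝓞 K} (hϖ : Prime ϖ) (hv : ∀ v ∈ S, ϖ ∉ v.asIdeal) : plc hϖ ∉ S :=
  fun h => hv _ h (Ideal.mem_span_singleton_self ϖ)

theorem placeIdeal_plc {ϖ : 𝓞 K} (hϖ : Prime ϖ) (hv : ∀ v ∈ S, ϖ ∉ v.asIdeal) :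
    placeIdeal (plc hϖ) (plc_notMem hϖ hv) = Ideal.span {toOS S ϖ} :=
  placeIdeal_eq_span S (toOS_ne_zero S hϖ.ne_zero) (plc_notMem hϖ hv) (divS_toOS_prime hϖ hv)

theorem prime_toOS {ϖ : 𝓞 K} (hϖ : Prime ϖ) (hv : ∀ v ∈ S, ϖ ∉ v.asIdeal) :
    Prime (toOS S ϖ) :=
  prime_of_span (placeIdeal_plc hϖ hv)

theorem toOS_dvd_iff {ϖ : 𝓞 K} (hϖ : Prime ϖ) (hv : ∀ v ∈ S, ϖ ∉ v.asIdeal) (b : 𝓞 K) :
    toOS S ϖ ∣ toOS S b ↔ ϖ ∣ b := by
  rw [span_dvd_iff (placeIdeal_plc hϖ hv), coe_toOS, ← Ideal.mem_span_singleton]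
  exact valuation_lt_one_iff_mem (plc hϖ) b

/-- representatives of `𝓞 K / ϖ` as representatives of `OS S / ϖ` -/
def repsK (S : Finset (HeightOneSpectrum (𝓞 K))) (ϖ : 𝓞 K) [Fintype (𝓞 K ⧸ Ideal.span {ϖ})] :
    Finset (OS S) :=
  open Classical in
  Finset.univ.image fun j : 𝓞 K ⧸ Ideal.span {ϖ} => toOS S (Quotient.out j : 𝓞 K)

theorem dvd_sub_iff_mk (ϖ a b : 𝓞 K) : ϖ ∣ a - b ↔
    Ideal.Quotient.mk (Ideal.span {ϖ}) a = Ideal.Quotient.mk (Ideal.span {ϖ}) b := by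
  rw [Ideal.Quotient.mk_eq_mk_iff_sub_mem, Ideal.mem_span_singleton]

theorem mk_out (ϖ : 𝓞 K) (j : 𝓞 K ⧸ Ideal.span {ϖ}) :
    Ideal.Quotient.mk (Ideal.span {ϖ}) (Quotient.out j : 𝓞 K) = j := Quotient.out_eq j

theorem toOS_out_injective {ϖ : 𝓞 K} : Function.Injective
    fun j : 𝓞 K ⧸ Ideal.span {ϖ} => toOS S (Quotient.out j : 𝓞 K) := by
  intro i j h
  have h1 := toOS_injective S h
  rw [← mk_out ϖ i, ← mk_out ϖ j, h1]

theorem isReps_repsK {ϖ : 𝓞 K} (hϖ : Prime ϖ) (hv : ∀ v ∈ S, ϖ ∉ v.asIdeal)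
    [Fintype (𝓞 K ⧸ Ideal.span {ϖ})] : IsReps (toOS S ϖ) (repsK S ϖ) := by
  classical
  intro a
  obtain ⟨c, hc⟩ := surjective_int_placeIdeal (S := S) (plc hϖ) (plc_notMem hϖ hv)
    (Ideal.Quotient.mk _ a)
  rw [RingHom.comp_apply, Ideal.Quotient.mk_eq_mk_iff_sub_mem, placeIdeal_plc hϖ hv,
    Ideal.mem_span_singleton] at hc
  have hc' : toOS S ϖ ∣ a - toOS S c := by
    have h1 := (dvd_neg).mpr hc
    rwa [neg_sub] at h1
  set j := Ideal.Quotient.mk (Ideal.span {ϖ}) c with hj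
  refine ⟨toOS S (Quotient.out j : 𝓞 K), ⟨Finset.mem_image_of_mem _ (Finset.mem_univ j), ?_⟩, ?_⟩
  · have h1 : ϖ ∣ c - Quotient.out j := by rw [dvd_sub_iff_mk, mk_out]
    have h2 := (toOS_dvd_iff (S := S) hϖ hv _).mpr h1
    rw [map_sub] at h2
    have h3 := dvd_add hc' h2
    rwa [sub_add_sub_cancel] at h3
  · rintro b ⟨hb, hb2⟩
    obtain ⟨i, -, rfl⟩ := Finset.mem_image.mp hb
    have h1 := dvd_sub hb2 hc'
    rw [sub_sub_sub_cancel_left, ← map_sub, toOS_dvd_iff hϖ hv, dvd_sub_iff_mk, mk_out] at h1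
    rw [← h1]

section HeckeT

theorem nn_mul_dg_val {R : Type*} [CommRing R] (b : R) (u : Rˣ) :
    ((nn (b * (u⁻¹ : Rˣ)) * Kap.dg 1 u : GL (Fin 2) R) : Matrix (Fin 2) (Fin 2) R) =
      !![1, b; 0, (u : R)] := by
  rw [Units.val_mul, coe_nn, Kap.coe_dg]
  ext i j
  fin_cases i <;> fin_cases j <;> simp [Matrix.mul_apply, Fin.sum_univ_two, mul_assoc]

variable {w : InfinitePlace K} (hw : ∀ w', w' = w) {ϖ : 𝓞 K} {u : (Rinf K × Rf S)ˣ}
  (hu : algebraMap (OS S) (Rinf K × Rf S) (toOS S ϖ) = u)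

include hu in
theorem u_fst (w' : InfinitePlace K) : ((u : Rinf K × Rf S).1 : Rinf K) w' = w'.embedding ϖ := by
  rw [← hu]; rfl

include hu in
theorem u_snd : ((u : Rinf K × Rf S).2 : Rf S) = iotaf S ϖ := by
  rw [← hu]; rfl

include hw hu in
theorem dg_smul_cst (hσ : w.embedding ϖ ≠ 0) (P : H3) :
    Matrix.GeneralLinearGroup.map (RingHom.fst (Rinf K) (Rf S)) (Kap.dg u 1) • cst K P =
      cst K (H3.ut (w.embedding ϖ) 0 1 hσ one_ne_zero • P) := by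
  funext w'
  rw [hw w', inf_smul_apply, cst_apply, cst_apply]
  congr 1
  apply Units.ext
  ext i j
  fin_cases i <;> fin_cases j
  · exact u_fst hu w
  · rfl
  · rfl
  · rfl

include hw hu in
theorem nn_dg_smul_cst (hσ : w.embedding ϖ ≠ 0) (b : 𝓞 K) (P : H3) :
    Matrix.GeneralLinearGroup.map (RingHom.fst (Rinf K) (Rf S))
      (nn (algebraMap (OS S) (Rinf K × Rf S) (toOS S b) * (u⁻¹ : (Rinf K × Rf S)ˣ)) *
        Kap.dg 1 u) • cst K P =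
      cst K (H3.ut 1 (w.embedding b) (w.embedding ϖ) one_ne_zero hσ • P) := by
  funext w'
  rw [hw w', inf_smul_apply, cst_apply, cst_apply]
  congr 1
  have h1 := nn_mul_dg_val (algebraMap (OS S) (Rinf K × Rf S) (toOS S b)) u
  apply Units.ext
  have h2 : ∀ i j, (Matrix.GeneralLinearGroup.map (evR K w)
      (Matrix.GeneralLinearGroup.map (RingHom.fst (Rinf K) (Rf S))
        (nn (algebraMap (OS S) (Rinf K × Rf S) (toOS S b) * (u⁻¹ : (Rinf K × Rf S)ˣ)) *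
          Kap.dg 1 u)) : GL (Fin 2) ℂ).1 i j =
      ((!![1, algebraMap (OS S) (Rinf K × Rf S) (toOS S b); 0, (u : Rinf K × Rf S)] :
        Matrix (Fin 2) (Fin 2) (Rinf K × Rf S)) i j).1 w := by
    intro i j
    rw [← h1]
    rfl
  ext i j
  rw [h2]
  fin_cases i <;> fin_cases j
  · rfl
  · rfl
  · rfl
  · exact u_fst hu w

include hu in
theorem dg_mem_U0 (hϖ : ϖ ≠ 0) (hv : ∀ v ∈ S, ϖ ∉ v.asIdeal) (N : Rf S) (m : ℕ) :
    Matrix.GeneralLinearGroup.map (RingHom.snd (Rinf K) (Rf S)) (Kap.dg u 1) ∈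
      U0 (Of S) N m := by
  refine mem_U0_of_upper (D := algebraMap K (Rf S) (ϖ : K)⁻¹) rfl ?_ (inv_mem_Of hϖ hv) ?_
  · intro i j
    fin_cases i <;> fin_cases j
    · change (u : Rinf K × Rf S).2 ∈ Of S
      rw [u_snd hu]
      exact iotaf_mem_Of S ϖ
    · exact (Of S).zero_mem
    · exact (Of S).zero_mem
    · exact (Of S).one_mem
  · change (u : Rinf K × Rf S).2 * 1 * _ = 1
    rw [u_snd hu, mul_one, iotaf_apply, ← map_mul, mul_inv_cancel₀, map_one]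
    exact fun h1 => hϖ (RingOfIntegers.coe_injective (h1.trans (map_zero _).symm))

include hu in
theorem nn_dg_mem_U0 (hϖ : ϖ ≠ 0) (hv : ∀ v ∈ S, ϖ ∉ v.asIdeal) (b : 𝓞 K) (N : Rf S) (m : ℕ) :
    Matrix.GeneralLinearGroup.map (RingHom.snd (Rinf K) (Rf S))
      (nn (algebraMap (OS S) (Rinf K × Rf S) (toOS S b) * (u⁻¹ : (Rinf K × Rf S)ˣ)) *
        Kap.dg 1 u) ∈ U0 (Of S) N m := by
  have h1 := nn_mul_dg_val (algebraMap (OS S) (Rinf K × Rf S) (toOS S b)) u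
  have h2 : ∀ i j, (Matrix.GeneralLinearGroup.map (RingHom.snd (Rinf K) (Rf S))
        (nn (algebraMap (OS S) (Rinf K × Rf S) (toOS S b) * (u⁻¹ : (Rinf K × Rf S)ˣ)) *
          Kap.dg 1 u) : GL (Fin 2) (Rf S)) i j =
      ((!![1, algebraMap (OS S) (Rinf K × Rf S) (toOS S b); 0, (u : Rinf K × Rf S)] :
        Matrix (Fin 2) (Fin 2) (Rinf K × Rf S)) i j).2 := by
    intro i j
    rw [← h1]
    rfl
  refine mem_U0_of_upper (D := algebraMap K (Rf S) (ϖ : K)⁻¹) ?_ ?_ (inv_mem_Of hϖ hv) ?_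
  · rw [h2]; rfl
  · intro i j
    rw [h2]
    fin_cases i <;> fin_cases j
    · exact (Of S).one_mem
    · exact iotaf_mem_Of S b
    · exact (Of S).zero_mem
    · change (u : Rinf K × Rf S).2 ∈ Of S
      rw [u_snd hu]
      exact iotaf_mem_Of S ϖ
  · rw [h2, h2]
    change 1 * (u : Rinf K × Rf S).2 * _ = 1
    rw [u_snd hu, one_mul, iotaf_apply, ← map_mul, mul_inv_cancel₀, map_one]
    exact fun h1 => hϖ (RingOfIntegers.coe_injective (h1.trans (map_zero _).symm))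

end HeckeT

/-- **the Hecke operator at a prime not dividing the level** -/
theorem IsDepleted.atOne_hecke {θ : AddChar (Rinf K × Rf S) Circle} {lam : OS S → ℂ}
    {wi : Xi K → ℂ} [IsTotallyComplex K] {N : (Rf S)ˣ} {m : ℕ} {ψ : Sp (Xi K) (Rf S) → ℂ}
    (hD : IsDepleted (OS S) θ wi (Of S) N m ψ) (h : IsAut (A := Rinf K × Rf S) (OS S) ψ)
    (he : IsEig (A := Rinf K × Rf S) (OS S) lam ψ) {w : InfinitePlace K} (hw : ∀ w', w' = w)
    {ϖ : 𝓞 K} (hϖ : Prime ϖ) (hv : ∀ v ∈ S, ϖ ∉ v.asIdeal) (hσ : w.embedding ϖ ≠ 0) (P : H3) :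
    atOne S ψ (H3.ut (w.embedding ϖ) 0 1 hσ one_ne_zero • P) +
      ∑ᶠ j : 𝓞 K ⧸ Ideal.span {ϖ}, atOne S ψ
        (H3.ut 1 (w.embedding (Quotient.out j : 𝓞 K)) (w.embedding ϖ) one_ne_zero hσ • P) =
      lam (toOS S ϖ) * atOne S ψ P := by
  classical
  have hfin : Finite (𝓞 K ⧸ Ideal.span {ϖ}) :=
    (Ideal.span {ϖ}).finiteQuotientOfFreeOfNeBot (plc hϖ).ne_bot
  have hft : Fintype (𝓞 K ⧸ Ideal.span {ϖ}) := Fintype.ofFinite _
  obtain ⟨u, R, hu, hR, hev⟩ := he (toOS S ϖ) (prime_toOS hϖ hv)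
  have h1 := hev (⟨cst K P, 1⟩ : Sp (Xi K) (Rf S))
  rw [hecke_indep h hu hR (isReps_repsK hϖ hv)] at h1
  have hU : ∀ (z : Xi K) (k : GL (Fin 2) (Rf S)), k ∈ U0 (Of S) (N : Rf S) m →
      ψ ⟨z, k * 1⟩ = ψ ⟨z, 1⟩ := by
    intro z k hk
    have h2 := hD.rt_U0 z 1 k hk
    rw [one_mul] at h2
    rwa [mul_one]
  unfold hecke at h1
  rw [smul_mk, dg_smul_cst hw hu hσ, hU _ _ (dg_mem_U0 hu hϖ.ne_zero hv _ _)] at h1
  rw [finsum_eq_sum_of_fintype, ← show lam (toOS S ϖ) * ψ ⟨cst K P, 1⟩ = lam (toOS S ϖ) * atOne S ψ P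
    from rfl, ← h1]
  congr 1
  unfold repsK
  rw [Finset.sum_image (fun i _ j _ h2 => toOS_out_injective h2)]
  refine Finset.sum_congr rfl fun j _ => ?_
  rw [← mul_smul, smul_mk, nn_dg_smul_cst hw hu hσ,
    hU _ _ (nn_dg_mem_U0 hu hϖ.ne_zero hv _ _ _)]
  rfl

end Fermat.Agent.LT.Clas
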