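import Fermat.Agent.LT.Clas.NumK
import Fermat.Agent.LT.EisK

/-!
# `ℚ(√-3)` has class number one: `ClTrivial S`, `OS S` is principal
-/

set_option autoImplicit false

open NumberField IsDedekindDomain

namespace Fermat.Agent.LT.Clas

open CFT.SUnits (ord div div_apply ord_mul ord_one ord_inv)

variable {K : Type*} [Field K] [NumberField K]

/-- a prime element generating a place. -/
theorem exists_prime_plc [IsPrincipalIdealRing (𝓞 K)] (v : HeightOneSpectrum (𝓞 K)) :
    ∃ (ϖ : 𝓞 K) (h : Prime ϖ), plc h = v := by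
  obtain ⟨ϖ, hϖ⟩ := (IsPrincipalIdealRing.principal v.asIdeal).principal
  have h0 : ϖ ≠ 0 := by
    rintro rfl
    apply v.ne_bot
    rw [hϖ]
    simp
  have hp : Prime ϖ := by
    rw [← Ideal.span_singleton_prime h0]
    have : Ideal.span {ϖ} = v.asIdeal := hϖ.symm
    rw [this]
    exact v.isPrime
  exact ⟨ϖ, hp, HeightOneSpectrum.ext hϖ.symm⟩

theorem clTrivial_of_pid [IsPrincipalIdealRing (𝓞 K)] (S : Finset (HeightOneSpectrum (𝓞 K))) :
    CFT.Global.ClTrivial S := by
  suffices h : ∀ D : HeightOneSpectrum (𝓞 K) →₀ ℤ, ∃ x : Kˣ, ∀ v, ord v x = D v from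
    fun D => (h D).imp fun x hx v _ => hx v
  intro D
  induction D using Finsupp.induction_linear with
  | zero => exact ⟨1, fun v => by rw [ord_one]; rfl⟩
  | add f g hf hg =>
    obtain ⟨x, hx⟩ := hf
    obtain ⟨y, hy⟩ := hg
    exact ⟨x * y, fun v => by rw [ord_mul, hx, hy]; rfl⟩
  | single v n =>
    obtain ⟨ϖ, hϖ, rfl⟩ := exists_prime_plc v
    have h1 : ∀ w, ord w (toK ϖ hϖ.ne_zero) = Finsupp.single (plc hϖ) 1 w := by
      intro w
      rw [← div_apply, div_toK_prime hϖ]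
    have h2 : ∀ (k : ℕ) w, ord w ((toK ϖ hϖ.ne_zero) ^ k) = k * Finsupp.single (plc hϖ) 1 w := by
      intro k w
      induction k with
      | zero => rw [pow_zero, ord_one]; simp
      | succ k ih => rw [pow_succ, ord_mul, ih, h1]; push_cast; ring
    have h3 : ∀ w, Finsupp.single (plc hϖ) n w = n * Finsupp.single (plc hϖ) (1 : ℤ) w := by
      classical
      intro w
      rw [Finsupp.single_apply, Finsupp.single_apply]
      split_ifs <;> simp
    refine ⟨(toK ϖ hϖ.ne_zero) ^ n, fun w => ?_⟩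
    rw [h3]
    obtain ⟨k, rfl | rfl⟩ := n.eq_nat_or_neg
    · rw [zpow_natCast, h2]
    · rw [zpow_neg, zpow_natCast, ord_inv, h2]
      ring

/-- `𝓞 K` is principal for `K = ℚ(√-3)` -/
theorem pid_Q3 {K : Type} [Field K] [NumberField K] (hK : Module.finrank ℚ K = 2) {s : 𝓞 K}
    (hs : s ^ 2 = -3) : IsPrincipalIdealRing (𝓞 K) := by
  obtain ⟨ω, -, hω⟩ := EisK.exists_omega hs
  have := EisK.isCyc hK hω
  exact IsCyclotomicExtension.Rat.three_pid K

theorem clTrivial_Q3 {K : Type} [Field K] [NumberField K] (hK : Module.finrank ℚ K = 2) {s : 𝓞 K}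
    (hs : s ^ 2 = -3) (S : Finset (HeightOneSpectrum (𝓞 K))) : CFT.Global.ClTrivial S := by
  have := pid_Q3 hK hs
  exact clTrivial_of_pid S

theorem pid_OS_Q3 {K : Type} [Field K] [NumberField K] (hK : Module.finrank ℚ K = 2) {s : 𝓞 K}
    (hs : s ^ 2 = -3) (S : Finset (HeightOneSpectrum (𝓞 K))) :
    IsPrincipalIdealRing (Loc.OS S) :=
  Loc.isPrincipalIdealRing_OS S (clTrivial_Q3 hK hs S)

end Fermat.Agent.LT.Clas
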