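import Fermat.Agent.LT.Clas.Exp2

/-!
# The classical function attached to a function on `X_∞ × GL₂(R_f)` over `ℚ(√-3)`

`cls ψ P = ψ (P, 1)`: invariance under `Γ₀(N ^ m)`, decay and constant terms at all cusps.
-/

set_option autoImplicit false

namespace Fermat.Agent.LT.Clas

open MeasureTheory Topology Kap NumberField IsDedekindDomain
open Fermat.Agent.LT.Chr hiding Rf
open scoped Real

variable {K : Type} [Field K] [NumberField K] {S : Finset (HeightOneSpectrum (𝓞 K))}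

theorem card_places [IsTotallyComplex K] (hK : Module.finrank ℚ K = 2) :
    Fintype.card (InfinitePlace K) = 1 := by
  have h5 : InfinitePlace.nrComplexPlaces K = 1 := by
    have := IsTotallyComplex.finrank K
    omega
  rw [InfinitePlace.card_eq_nrRealPlaces_add_nrComplexPlaces,
    IsTotallyComplex.nrRealPlaces_eq_zero, h5]

theorem place_eq [IsTotallyComplex K] (hK : Module.finrank ℚ K = 2) (w w₀ : InfinitePlace K) :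
    w = w₀ := by
  obtain ⟨v, hv⟩ := Fintype.card_eq_one_iff.mp (card_places hK)
  rw [hv w, hv w₀]

/-- the classical function -/
noncomputable def cls (ψ : Sp (Xi K) (Loc.Rf S) → ℂ) (P : H3) : ℂ := ψ ⟨ptX P, 1⟩

variable (S) in
/-- `GL₂(𝓞 K) → GL₂(R_f)` -/
noncomputable def finO : GL (Fin 2) (𝓞 K) →* GL (Fin 2) (Loc.Rf S) :=
  Matrix.GeneralLinearGroup.map ((algebraMap K (Loc.Rf S)).comp (algebraMap (𝓞 K) K))

theorem diag_smul [IsTotallyComplex K] (hK : Module.finrank ℚ K = 2) (w₀ : InfinitePlace K)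
    (g : GL (Fin 2) (𝓞 K)) (P : H3) (x : GL (Fin 2) (Loc.Rf S)) :
    Matrix.GeneralLinearGroup.map (algebraMap (Loc.OS S) (Loc.Rinf K × Loc.Rf S))
      (Matrix.GeneralLinearGroup.map (toOS S) g) • (⟨ptX P, x⟩ : Sp (Xi K) (Loc.Rf S)) =
      ⟨ptX (toGLC w₀.embedding g • P), finO S g * x⟩ := by
  rw [smul_mk]
  congr 1
  funext w
  rw [place_eq hK w w₀, Adapt.inf_smul_apply, Adapt.map_map_gl, Adapt.map_map_gl,
    Adapt.map_map_gl]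
  rfl

/-- the classical function on translates -/
theorem cls_smul [IsTotallyComplex K] (hK : Module.finrank ℚ K = 2) (w₀ : InfinitePlace K)
    {ψ : Sp (Xi K) (Loc.Rf S) → ℂ} (h : IsAut (A := Loc.Rinf K × Loc.Rf S) (Loc.OS S) ψ)
    (g : GL (Fin 2) (𝓞 K)) (P : H3) :
    cls ψ (toGLC w₀.embedding g • P) = cls (rt (finO S g⁻¹) ψ) P := by
  have h1 := h.inv (Matrix.GeneralLinearGroup.map (toOS S) g) ⟨ptX P, finO S g⁻¹⟩
  rw [diag_smul hK w₀, ← map_mul, mul_inv_cancel, map_one] at h1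
  unfold cls rt
  rw [h1, one_mul]

theorem finO_mem_U0 (g : GL (Fin 2) (𝓞 K)) {N : ℕ} (hN : N ≠ 0) (m : ℕ)
    (h : (N : 𝓞 K) ^ m ∣ g 1 0) : finO S g ∈ U0 (Loc.Of S) (unitN S N hN : Loc.Rf S) m := by
  have := map_mem_U0 (O := Loc.Of S) ((algebraMap K (Loc.Rf S)).comp (algebraMap (𝓞 K) K))
    (fun a => Loc.algebraMap_int_mem_Of S a) (N : 𝓞 K) m g h
  rwa [coe_unitN]

theorem cls_inv [IsTotallyComplex K] (hK : Module.finrank ℚ K = 2) (w₀ : InfinitePlace K)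
    {ψ : Sp (Xi K) (Loc.Rf S) → ℂ} (h : IsAut (A := Loc.Rinf K × Loc.Rf S) (Loc.OS S) ψ)
    {N : ℕ} (hN : N ≠ 0) {m : ℕ}
    (hU : ∀ (z : Xi K) (g : GL (Fin 2) (Loc.Rf S)), ∀ h ∈ U0 (Loc.Of S)
      (unitN S N hN : Loc.Rf S) m, ψ ⟨z, g * h⟩ = ψ ⟨z, g⟩)
    (g : GL (Fin 2) (𝓞 K)) (hg : (N : 𝓞 K) ^ m ∣ g 1 0) (P : H3) :
    cls ψ (toGLC w₀.embedding g • P) = cls ψ P := by
  rw [cls_smul hK w₀ h]
  refine hU (ptX P) 1 _ ?_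
  rw [map_inv]
  exact (U0 _ _ _).inv_mem (finO_mem_U0 g hN m hg)

/-- the translates by `GL₂(O_f)` are invariant under `n(N ^ m O_f)`. -/
theorem rt_rt_nn {ψ : Sp (Xi K) (Loc.Rf S) → ℂ} {N : ℕ} (hN : N ≠ 0) {m : ℕ}
    (hcong : ∀ (z : Xi K) (g h : GL (Fin 2) (Loc.Rf S)),
      (∀ i j, ∃ y ∈ Loc.Of S, (h : Matrix (Fin 2) (Fin 2) (Loc.Rf S)) i j -
        (1 : Matrix (Fin 2) (Fin 2) (Loc.Rf S)) i j = (unitN S N hN : Loc.Rf S) ^ m * y) →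
        ψ ⟨z, g * h⟩ = ψ ⟨z, g⟩)
    (x : GL (Fin 2) (Loc.Rf S)) (hx : x ∈ GLO (Loc.Of S)) {y : Loc.Rf S} (hy : y ∈ Loc.Of S) :
    rt (nn ((unitN S N hN : Loc.Rf S) ^ m * y)) (rt x ψ) = rt x ψ := by
  ext p
  show ψ ⟨p.i, p.f * nn ((unitN S N hN : Loc.Rf S) ^ m * y) * x⟩ = ψ ⟨p.i, p.f * x⟩
  set b := (unitN S N hN : Loc.Rf S) ^ m * y with hb
  have h1 : p.f * nn b * x = p.f * x * (x⁻¹ * nn b * x) := by group
  rw [h1]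
  refine hcong p.i (p.f * x) _ fun i j => ?_
  have h2 : ((x⁻¹ * nn b * x : GL (Fin 2) (Loc.Rf S)) : Matrix (Fin 2) (Fin 2) (Loc.Rf S)) i j -
      (1 : Matrix (Fin 2) (Fin 2) (Loc.Rf S)) i j = b * (((x⁻¹ : GL (Fin 2) (Loc.Rf S)) i 0) *
        x 1 j) := by
    have h3 : ((x⁻¹ * x : GL (Fin 2) (Loc.Rf S)) : Matrix (Fin 2) (Fin 2) (Loc.Rf S)) = 1 := by
      rw [inv_mul_cancel]; rfl
    rw [← h3, Units.val_mul, Units.val_mul, Units.val_mul, Matrix.mul_apply, Matrix.mul_apply,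
      Fin.sum_univ_two, Fin.sum_univ_two, Matrix.mul_apply, Matrix.mul_apply, Fin.sum_univ_two,
      Fin.sum_univ_two, coe_nn]
    simp
    ring
  rw [h2, hb]
  exact ⟨_, (Loc.Of S).mul_mem hy ((Loc.Of S).mul_mem (hx.2 i 0) (hx.1 1 j)), by ring⟩

theorem scl_mk (α : ℂ) (hα : α ≠ 0) (z : ℂ) {y : ℝ} (hy : 0 < y) :
    scl α hα (H3.mk z y hy) = H3.mk (α * z) (‖α‖ * y) (mul_pos (norm_pos_iff.mpr hα) hy) := by
  unfold scl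
  refine H3.ext ?_ ?_ <;> simp

theorem finO_mem_GLO (g : GL (Fin 2) (𝓞 K)) : finO S g ∈ GLO (Loc.Of S) := by
  refine ⟨fun i j => ?_, fun i j => ?_⟩
  · exact Loc.algebraMap_int_mem_Of S _
  · rw [← map_inv]
    exact Loc.algebraMap_int_mem_Of S _

theorem re_sigma_s (σ : K →+* ℂ) {s : 𝓞 K} (hs : s ^ 2 = -3) : (σ (s : K)).re = 0 := by
  have h1 : (σ (s : K)) ^ 2 = -3 := by
    rw [← map_pow, sq3_coe hs, map_neg, map_ofNat]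
  have h2 := congrArg Complex.re h1
  have h3 := congrArg Complex.im h1
  rw [sq, Complex.mul_re] at h2
  rw [sq, Complex.mul_im] at h3
  simp at h2 h3
  rcases mul_eq_zero.mp (show (σ (s : K)).re * (σ (s : K)).im = 0 by linarith) with h | h
  · exact h
  · rw [h] at h2
    nlinarith [mul_self_nonneg (σ (s : K)).re]

theorem two_mul_re (hK : Module.finrank ℚ K = 2) (σ : K →+* ℂ) {s : 𝓞 K} (hs : s ^ 2 = -3)
    (c : K) : 2 * (σ c).re = ((Algebra.trace ℚ K c : ℚ) : ℝ) := by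
  obtain ⟨x, y, rfl⟩ := exists_coord hK hs c
  rw [trace_coord hK hs, map_add, map_mul, Complex.add_re]
  have h1 : ∀ q : ℚ, σ (algebraMap ℚ K q) = ((q : ℝ) : ℂ) := by
    intro q
    simp
  rw [h1, h1, Complex.re_ofReal_mul, re_sigma_s σ hs, Complex.ofReal_re]
  push_cast
  ring

theorem htr (hK : Module.finrank ℚ K = 2) (σ : K →+* ℂ) {s : 𝓞 K} (hs : s ^ 2 = -3) (b : 𝓞 K) :
    (∃ m : ℤ, 2 * (σ b / σ s).re = m) ∧ ∃ m : ℤ, 2 * (σ b).re = m := by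
  constructor
  · obtain ⟨n, hn⟩ := (trace_int_iff hK hs ((s : K)⁻¹ * b)).mpr ⟨b, rfl⟩ 1
    refine ⟨n, ?_⟩
    rw [← map_div₀, two_mul_re hK σ hs]
    rw [show ((1 : 𝓞 K) : K) = 1 from rfl, one_mul] at hn
    rw [div_eq_inv_mul, hn]
    push_cast
    rfl
  · obtain ⟨n, hn⟩ := trace_int b
    refine ⟨n, ?_⟩
    rw [two_mul_re hK σ hs, hn]
    push_cast
    rfl

variable [IsTotallyComplex K] {lam : Loc.OS S → ℂ} {w₀ : InfinitePlace K} {s : 𝓞 K}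
  [IsPrincipalIdealRing (Loc.OS S)]

/-- The expansion at the cusp `g ∞`. -/
theorem exists_hasExp_cusp (hK : Module.finrank ℚ K = 2) (hs : s ^ 2 = -3) {N : ℕ} (hN : N ≠ 0)
    (h3 : 3 ∣ N) (hS : ∀ v, v ∈ S ↔ (N : 𝓞 K) ∈ v.asIdeal) {ψ : Sp (Xi K) (Loc.Rf S) → ℂ}
    (h : InW (Loc.OS S) (thetaA S (s : K)⁻¹) lam (wiK w₀ s) ψ) {M : ℝ} (hM : ∀ x, ‖ψ x‖ ≤ M)
    {m : ℕ} (hcong : ∀ (z : Xi K) (g h : GL (Fin 2) (Loc.Rf S)),
      (∀ i j, ∃ y ∈ Loc.Of S, (h : Matrix (Fin 2) (Fin 2) (Loc.Rf S)) i j -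
        (1 : Matrix (Fin 2) (Fin 2) (Loc.Rf S)) i j = (unitN S N hN : Loc.Rf S) ^ m * y) →
        ψ ⟨z, g * h⟩ = ψ ⟨z, g⟩) (g : GL (Fin 2) (𝓞 K)) :
    ∃ c : 𝓞 K → ℂ, HasExp w₀.embedding s c
      (fun P => cls ψ (toGLC w₀.embedding g • scl ((N : ℂ) ^ m) (natPow_ne hN m) P)) := by
  obtain ⟨c, hc, -⟩ := exists_hasExp hK hs hN h3 hS
    (h.rt (finO S g⁻¹))
    (fun x => hM _) (k := m) (fun y hy => rt_rt_nn hN hcong _ (finO_mem_GLO _) hy)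
  refine ⟨c, ?_⟩
  have h1 : (fun P => cls ψ (toGLC w₀.embedding g • scl ((N : ℂ) ^ m) (natPow_ne hN m) P)) =
      fun P => rt (finO S g⁻¹) ψ ⟨ptX (scl ((N : ℂ) ^ m) (natPow_ne hN m) P), 1⟩ := by
    ext P
    rw [cls_smul hK w₀ h.aut]
    rfl
  rw [h1]
  exact hc

theorem cls_decay (hK : Module.finrank ℚ K = 2) (hs : s ^ 2 = -3) {N : ℕ} (hN : N ≠ 0)
    (h3 : 3 ∣ N) (hS : ∀ v, v ∈ S ↔ (N : 𝓞 K) ∈ v.asIdeal) {ψ : Sp (Xi K) (Loc.Rf S) → ℂ}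
    (h : InW (Loc.OS S) (thetaA S (s : K)⁻¹) lam (wiK w₀ s) ψ) {M : ℝ} (hM : ∀ x, ‖ψ x‖ ≤ M)
    {m : ℕ} (hcong : ∀ (z : Xi K) (g h : GL (Fin 2) (Loc.Rf S)),
      (∀ i j, ∃ y ∈ Loc.Of S, (h : Matrix (Fin 2) (Fin 2) (Loc.Rf S)) i j -
        (1 : Matrix (Fin 2) (Fin 2) (Loc.Rf S)) i j = (unitN S N hN : Loc.Rf S) ^ m * y) →
        ψ ⟨z, g * h⟩ = ψ ⟨z, g⟩) (g : GL (Fin 2) (𝓞 K)) :
    ∃ C c : ℝ, 0 < c ∧ ∀ P : H3, 1 / 2 ≤ P.y →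
      ‖cls ψ (toGLC w₀.embedding g • P)‖ ≤ C * Real.exp (-(c * P.y)) := by
  obtain ⟨c, hc⟩ := exists_hasExp_cusp hK hs hN h3 hS h hM hcong g
  have hNm : (0 : ℝ) < (N : ℝ) ^ m := by positivity
  obtain ⟨C, hC⟩ := hc.decay (fun b hb => one_le_norm hK w₀.embedding hb)
    (y₁ := 1 / 2 / (N : ℝ) ^ m) (by positivity)
  refine ⟨C, 1 / (N : ℝ) ^ m, by positivity, fun P hP => ?_⟩
  have hy : 0 < P.y / (N : ℝ) ^ m := div_pos P.y_pos hNm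
  have h1 : scl ((N : ℂ) ^ m) (natPow_ne hN m) (H3.mk (P.z / (N : ℂ) ^ m) (P.y / (N : ℝ) ^ m) hy) =
      P := by
    rw [scl_mk]
    refine H3.ext ?_ ?_
    · rw [H3.z_mk, mul_div_cancel₀ _ (natPow_ne hN m)]
    · rw [H3.y_mk, norm_pow, Complex.norm_natCast, mul_div_cancel₀ _ hNm.ne']
  have h2 := hC (H3.mk (P.z / (N : ℂ) ^ m) (P.y / (N : ℝ) ^ m) hy) (by
    rw [H3.y_mk]
    gcongr)
  rw [h1, H3.y_mk] at h2
  refine h2.trans (le_of_eq ?_)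
  congr 3
  ring

theorem cls_cusp (hK : Module.finrank ℚ K = 2) (hs : s ^ 2 = -3) {N : ℕ} (hN : N ≠ 0)
    (h3 : 3 ∣ N) (hS : ∀ v, v ∈ S ↔ (N : 𝓞 K) ∈ v.asIdeal) {ψ : Sp (Xi K) (Loc.Rf S) → ℂ}
    (h : InW (Loc.OS S) (thetaA S (s : K)⁻¹) lam (wiK w₀ s) ψ) {M : ℝ} (hM : ∀ x, ‖ψ x‖ ≤ M)
    {m : ℕ} (hcong : ∀ (z : Xi K) (g h : GL (Fin 2) (Loc.Rf S)),
      (∀ i j, ∃ y ∈ Loc.Of S, (h : Matrix (Fin 2) (Fin 2) (Loc.Rf S)) i j -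
        (1 : Matrix (Fin 2) (Fin 2) (Loc.Rf S)) i j = (unitN S N hN : Loc.Rf S) ^ m * y) →
        ψ ⟨z, g * h⟩ = ψ ⟨z, g⟩) (g : GL (Fin 2) (𝓞 K)) (y : ℝ) (hy : 0 < y) :
    (∫ x in (0 : ℝ)..1, ∫ x' in (0 : ℝ)..1, cls ψ (toGLC w₀.embedding g •
      H3.mk (((N ^ m : ℕ) : ℂ) * ((x : ℂ) + (x' : ℂ) * w₀.embedding s)) y hy)) = 0 := by
  obtain ⟨c, hc⟩ := exists_hasExp_cusp hK hs hN h3 hS h hM hcong g
  have hNm : (0 : ℝ) < (N : ℝ) ^ m := by positivity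
  have hy' : 0 < y / (N : ℝ) ^ m := div_pos hy hNm
  have h1 := hc.integral_eq_zero hs (fun b => htr hK w₀.embedding hs b) (y / (N : ℝ) ^ m) hy'
  have h2 : ∀ z : ℂ, scl ((N : ℂ) ^ m) (natPow_ne hN m) (H3.mk z (y / (N : ℝ) ^ m) hy') =
      H3.mk (((N ^ m : ℕ) : ℂ) * z) y hy := by
    intro z
    rw [scl_mk]
    refine H3.ext ?_ ?_
    · rw [H3.z_mk, H3.z_mk]
      push_cast
      rfl
    · rw [H3.y_mk, H3.y_mk, norm_pow, Complex.norm_natCast, mul_div_cancel₀ _ hNm.ne']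
  simp only [h2] at h1
  exact h1

end Fermat.Agent.LT.Clas
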