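import Fermat.Agent.LT.Clas.AtOne

/-!
# The Fourier coefficients at `(P, 1)` of a depleted vector are `lamK` (helper96)
-/

set_option autoImplicit false
set_option linter.unusedSectionVars false

open NumberField IsDedekindDomain HeightOneSpectrum

noncomputable section

namespace Fermat.Agent.LT.Clas

open Kap Loc Adapt

variable {K : Type} [Field K] [NumberField K] {S : Finset (HeightOneSpectrum (𝓞 K))}

/-- the image of a nonzero `S`-integer in `R_fˣ` -/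
def ufin (a : OS S) (ha : a ≠ 0) : (Rf S)ˣ :=
  Units.map (algebraMap K (Rf S) : K →* Rf S) (toU a ha)

theorem coe_ufin (a : OS S) (ha : a ≠ 0) : ((ufin a ha : (Rf S)ˣ) : Rf S) =
    algebraMap K (Rf S) (a : K) := rfl

theorem coe_ufin_inv (a : OS S) (ha : a ≠ 0) : (((ufin a ha)⁻¹ : (Rf S)ˣ) : Rf S) =
    algebraMap K (Rf S) (a : K)⁻¹ := rfl

/-- the image of a nonzero `S`-integer in `Aˣ` -/
def uall (a : OS S) (ha : a ≠ 0) : (Rinf K × Rf S)ˣ :=
  Units.map (algebraMap K (Rinf K × Rf S) : K →* Rinf K × Rf S) (toU a ha)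

theorem algebraMap_eq_uall (a : OS S) (ha : a ≠ 0) :
    algebraMap (OS S) (Rinf K × Rf S) a = uall a ha := rfl

theorem indUnits_of {b : 𝓞 K} (hb : b ≠ 0) (hv : ∀ v ∈ S, b ∉ v.asIdeal) :
    indUnits (Of S) (ufin (toOS S b) (toOS_ne_zero S hb)) = 1 := by
  unfold indUnits
  rw [if_pos]
  exact ⟨iotaf_mem_Of S b, inv_mem_Of hb hv⟩

theorem indUnits_of_not {b : 𝓞 K} (hb : b ≠ 0) (hv : ¬ ∀ v ∈ S, b ∉ v.asIdeal) :
    indUnits (Of S) (ufin (toOS S b) (toOS_ne_zero S hb)) = 0 := by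
  unfold indUnits
  rw [if_neg]
  rintro ⟨-, h2⟩
  push Not at hv
  obtain ⟨v, hvS, hbv⟩ := hv
  have h3 : Valued.v ((((ufin (toOS S b) (toOS_ne_zero S hb))⁻¹ : (Rf S)ˣ) : Rf S) ⟨v, hvS⟩) ≤ 1 :=
    h2 ⟨v, hvS⟩
  have h4 : Valued.v ((((ufin (toOS S b) (toOS_ne_zero S hb))⁻¹ : (Rf S)ˣ) : Rf S) ⟨v, hvS⟩) =
      v.valuation K (b : K)⁻¹ := v_ι v _
  have h5 : v.valuation K (algebraMap (𝓞 K) K b) < 1 := (valuation_lt_one_iff_mem v b).mpr hbv
  rw [h4, map_inv₀] at h3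
  have hb0 : v.valuation K (b : K) ≠ 0 := by
    rw [Ne, map_eq_zero]
    exact fun h1 => hb (RingOfIntegers.coe_injective (h1.trans (map_zero _).symm))
  have h6 : 1 ≤ v.valuation K (b : K) := by
    rw [← inv_inv (v.valuation K (b : K))]
    exact (one_le_inv₀ (by simpa [zero_lt_iff] using hb0)).mpr h3
  exact absurd h5 (not_lt.mpr h6)

theorem indUnits_of_not_int {a : OS S} (ha : a ≠ 0) (h : ∀ b : 𝓞 K, toOS S b ≠ a) :
    indUnits (Of S) (ufin a ha) = 0 := by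
  unfold indUnits
  rw [if_neg]
  rintro ⟨h1, -⟩
  obtain ⟨b, hb⟩ := exists_int_of_mem S a.2 h1
  exact h b (Subtype.ext hb)

variable {θ : AddChar (Rinf K × Rf S) Circle} {wi : Xi K → ℂ} [IsTotallyComplex K] {N : (Rf S)ˣ}
  {m : ℕ} {ψ : Sp (Xi K) (Rf S) → ℂ} {x : HeightOneSpectrum (𝓞 K) → ℝ}

/-- the coefficients at `(P, 1)` -/
theorem IsDepleted.wh_eq (hS : CFT.Global.ClTrivial S)
    (hθ : Kap.SelfDual (OS S) (A := Rinf K × Rf S) θ)
    (hD : IsDepleted (OS S) θ wi (Of S) N m ψ) (h : IsAut (A := Rinf K × Rf S) (OS S) ψ)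
    (he : IsEig (A := Rinf K × Rf S) (OS S) (lamE S x) ψ) {w : InfinitePlace K}
    (hw : ∀ w', w' = w) {a : OS S} (ha : a ≠ 0) (hσ : w.embedding (a : K) ≠ 0) (P : H3) :
    wh (OS S) θ ψ a (⟨cst K P, 1⟩ : Sp (Xi K) (Rf S)) =
      numC S x a * (indUnits (Of S) (ufin a ha) *
        wi (cst K (H3.ut (w.embedding (a : K)) 0 1 hσ one_ne_zero • P))) := by
  rw [isNum_numC S x hS hθ ha ψ h he _ (uall a ha) (algebraMap_eq_uall a ha), smul_mk]
  congr 1
  have h1 : Matrix.GeneralLinearGroup.map (RingHom.fst (Rinf K) (Rf S))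
      (Kap.dg (uall a ha) 1) • cst K P =
      cst K (H3.ut (w.embedding (a : K)) 0 1 hσ one_ne_zero • P) := by
    funext w'
    rw [hw w', inf_smul_apply, cst_apply, cst_apply]
    congr 1
    apply Units.ext
    ext i j
    fin_cases i <;> fin_cases j <;> rfl
  have h2 : Matrix.GeneralLinearGroup.map (RingHom.snd (Rinf K) (Rf S))
      (Kap.dg (uall a ha) 1) * (1 : GL (Fin 2) (Rf S)) = Kap.dg (ufin a ha) 1 := by
    rw [mul_one]
    apply Units.ext
    refine Matrix.ext fun i j => ?_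
    fin_cases i <;> fin_cases j <;> rfl
  rw [h1, h2, hD.wh_one]

/-- at `a` not in `𝓞 K` the coefficient vanishes -/
theorem IsDepleted.wh_eq_zero (hS : CFT.Global.ClTrivial S)
    (hθ : Kap.SelfDual (OS S) (A := Rinf K × Rf S) θ)
    (hD : IsDepleted (OS S) θ wi (Of S) N m ψ) (h : IsAut (A := Rinf K × Rf S) (OS S) ψ)
    (he : IsEig (A := Rinf K × Rf S) (OS S) (lamE S x) ψ) {w : InfinitePlace K}
    (hw : ∀ w', w' = w) {a : OS S} (ha : ∀ b : 𝓞 K, toOS S b ≠ a) (P : H3) :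
    wh (OS S) θ ψ a (⟨cst K P, 1⟩ : Sp (Xi K) (Rf S)) = 0 := by
  have ha0 : a ≠ 0 := fun h1 => ha 0 (by rw [map_zero, h1])
  have hσ : w.embedding (a : K) ≠ 0 := by
    rw [Ne, map_eq_zero]
    exact fun h1 => ha0 (Subtype.ext h1)
  rw [hD.wh_eq hS hθ h he hw ha0 hσ, indUnits_of_not_int ha0 ha, zero_mul, mul_zero]

/-- at `b ∈ 𝓞 K` the coefficient is `lamK b * y K₀ (4 π |b| y / √3) * e (Tr (b z / s))` -/
theorem IsDepleted.wh_int (hS : CFT.Global.ClTrivial S) (hK : Module.finrank ℚ K = 2)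
    (hθ : Kap.SelfDual (OS S) (A := Rinf K × Rf S) θ)
    (hD : IsDepleted (OS S) θ wi (Of S) N m ψ) (h : IsAut (A := Rinf K × Rf S) (OS S) ψ)
    (he : IsEig (A := Rinf K × Rf S) (OS S) (lamE S x) ψ) {w : InfinitePlace K}
    (hw : ∀ w', w' = w) {n : 𝓞 K} (hn : n ≠ 0) (hnS : ∀ v, v ∈ S ↔ n ∈ v.asIdeal)
    {s : 𝓞 K} (hwi : ∀ P, wi (cst K P) =
      ((P.y * bK0 (4 * Real.pi * P.y / √3) : ℝ) : ℂ) * eTr w.embedding s 1 P.z)
    {b : 𝓞 K} (hb : b ≠ 0) (P : H3) :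
    wh (OS S) θ ψ (toOS S b) (⟨cst K P, 1⟩ : Sp (Xi K) (Rf S)) =
      ((lamK x n b * (P.y * bK0 (4 * Real.pi * ‖w.embedding b‖ * P.y / √3)) : ℝ) : ℂ) *
        eTr w.embedding s b P.z := by
  have hσ : w.embedding ((toOS S b : OS S) : K) ≠ 0 := by
    rw [Ne, map_eq_zero]
    exact fun h1 => hb (RingOfIntegers.coe_injective (h1.trans (map_zero _).symm))
  rw [hD.wh_eq hS hθ h he hw (toOS_ne_zero S hb) hσ]
  by_cases hc : IsCoprime b n
  · have hv := (isCoprime_iff n S hn hnS b).mp hc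
    rw [indUnits_of hb hv, one_mul, hwi, H3.z_ut_smul, H3.y_ut_smul]
    have h1 := numC_mul_norm x n S hK w.embedding hb hv hc
    have h2 : eTr w.embedding s 1 ((w.embedding ((toOS S b : OS S) : K) * P.z + 0) / 1) =
        eTr w.embedding s b P.z := by
      unfold eTr
      rw [coe_toOS, add_zero, div_one]
      simp
    rw [h2, div_one, coe_toOS]
    have h3 : 4 * Real.pi * (‖w.embedding (b : K)‖ * P.y) / √3 =
        4 * Real.pi * ‖w.embedding (b : K)‖ * P.y / √3 := by ring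
    rw [h3]
    push_cast
    rw [← h1]
    ring
  · have hv := fun h1 => hc ((isCoprime_iff n S hn hnS b).mpr h1)
    rw [indUnits_of_not hb hv, lamK_bad x n b hc]
    simp

end Fermat.Agent.LT.Clas
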