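import Fermat.Agent.LT.KForm

/-!
# The constant term of a function given by an expansion without constant term
-/

set_option autoImplicit false

open NumberField MeasureTheory
open scoped Real

namespace Fermat.Agent.LT.Clas

variable {K : Type} [Field K] [NumberField K]

theorem countable_ringOfIntegers (K : Type) [Field K] [NumberField K] : Countable (𝓞 K) :=
  (NumberField.RingOfIntegers.basis K).equivFun.injective.countable

theorem map_sqrt_sq (σ : K →+* ℂ) {s : 𝓞 K} (hs : s ^ 2 = -3) : (σ s) ^ 2 = -3 := by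
  have h : (σ.comp (algebraMap (𝓞 K) K)) (s ^ 2) = (σ.comp (algebraMap (𝓞 K) K)) (-3) :=
    congrArg _ hs
  rw [map_pow, map_neg, map_ofNat] at h
  exact h

theorem norm_eTr (σ : K →+* ℂ) (s b : 𝓞 K) (z : ℂ) : ‖eTr σ s b z‖ = 1 := by
  unfold eTr
  rw [Complex.norm_exp]
  simp

theorem continuous_eTr (σ : K →+* ℂ) (s b : 𝓞 K) : Continuous (eTr σ s b) := by
  unfold eTr
  fun_prop

theorem eTr_add (σ : K →+* ℂ) (s b : 𝓞 K) (z z' : ℂ) :
    eTr σ s b (z + z') = eTr σ s b z * eTr σ s b z' := by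
  unfold eTr
  rw [← Complex.exp_add]
  congr 1
  rw [mul_add, add_div, Complex.add_re]
  push_cast
  ring

/-- `∫₀¹ e (m x) dx = 0` for `m ≠ 0`. -/
theorem integral_exp_int {m : ℤ} (hm : m ≠ 0) :
    (∫ x in (0 : ℝ)..1, Complex.exp (2 * π * Complex.I * ((m : ℝ) * x : ℝ))) = 0 := by
  have hc : (2 * π * Complex.I * m : ℂ) ≠ 0 := by
    have : (π : ℂ) ≠ 0 := Complex.ofReal_ne_zero.mpr Real.pi_ne_zero
    have hm' : (m : ℂ) ≠ 0 := Int.cast_ne_zero.mpr hm
    simp [this, hm', Complex.I_ne_zero]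
  have h := integral_exp_mul_complex (a := 0) (b := 1) hc
  have h2 : (∫ x in (0 : ℝ)..1, Complex.exp (2 * π * Complex.I * ((m : ℝ) * x : ℝ))) =
      ∫ x in (0 : ℝ)..1, Complex.exp (2 * π * Complex.I * m * x) := by
    congr 1
    ext x
    congr 1
    push_cast
    ring
  rw [h2, h]
  have h3 : Complex.exp (2 * π * Complex.I * m * ((1 : ℝ) : ℂ)) = 1 := by
    rw [Complex.exp_eq_one_iff]
    exact ⟨m, by push_cast; ring⟩
  rw [h3]
  simp

/-- For `s² = -3`: `Re (σ s) = 0`, and the two traces vanish only for `b = 0`. -/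
theorem re_of_sq {w : ℂ} (hw : w ^ 2 = -3) : w.re = 0 ∧ w.im ≠ 0 := by
  have h1 := congrArg Complex.re hw
  have h2 := congrArg Complex.im hw
  simp [pow_two, Complex.mul_re, Complex.mul_im] at h1 h2
  have h3 : w.re * w.im = 0 := by linarith
  rcases mul_eq_zero.mp h3 with h | h
  · refine ⟨h, fun h' => ?_⟩
    rw [h, h'] at h1
    norm_num at h1
  · rw [h] at h1
    nlinarith [sq_nonneg w.re]

theorem eTr_plane (σ : K →+* ℂ) {s : 𝓞 K} (hs : s ^ 2 = -3) (b : 𝓞 K) (x x' : ℝ) :
    eTr σ s b ((x : ℂ) + (x' : ℂ) * σ s) =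
      Complex.exp (2 * π * Complex.I * ((2 * (σ b / σ s).re) * x : ℝ)) *
        Complex.exp (2 * π * Complex.I * ((2 * (σ b).re) * x' : ℝ)) := by
  have hs' : (σ s) ^ 2 = -3 := map_sqrt_sq σ hs
  have hs0 : σ (s : K) ≠ 0 := by
    intro h
    rw [h] at hs'
    norm_num at hs'
  unfold eTr
  rw [← Complex.exp_add]
  congr 1
  have h1 : σ b * ((x : ℂ) + (x' : ℂ) * σ s) / σ s = (x : ℂ) * (σ b / σ s) + (x' : ℂ) * σ b := by
    field_simp
  rw [h1, Complex.add_re, Complex.re_ofReal_mul, Complex.re_ofReal_mul]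
  push_cast
  ring

/-- The mean over `ℤ + ℤ s` of a nontrivial character vanishes. -/
theorem integral_eTr (σ : K →+* ℂ) {s : 𝓞 K} (hs : s ^ 2 = -3) {b : 𝓞 K} (hb : b ≠ 0)
    (h1 : ∃ m : ℤ, 2 * (σ b / σ s).re = m) (h2 : ∃ m : ℤ, 2 * (σ b).re = m) :
    (∫ x in (0 : ℝ)..1, ∫ x' in (0 : ℝ)..1, eTr σ s b ((x : ℂ) + (x' : ℂ) * σ s)) = 0 := by
  obtain ⟨m, hm⟩ := h1
  obtain ⟨m', hm'⟩ := h2
  have hs' : (σ s) ^ 2 = -3 := map_sqrt_sq σ hs
  simp only [eTr_plane σ hs, hm, hm', intervalIntegral.integral_const_mul,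
    intervalIntegral.integral_mul_const]
  by_cases h : m = 0
  · have hm'0 : m' ≠ 0 := by
      rintro rfl
      subst h
      obtain ⟨hre, him⟩ := re_of_sq hs'
      have hb1 : (σ (b : K)).re = 0 := by
        have : (2 : ℝ) * (σ (b : K)).re = 0 := by rw [hm']; simp
        linarith
      have hb2 : (σ (b : K) / σ (s : K)).re = 0 := by
        have : (2 : ℝ) * (σ (b : K) / σ (s : K)).re = 0 := by rw [hm]; simp
        linarith
      rw [Complex.div_re, hb1, hre, zero_mul, zero_div, zero_add, div_eq_zero_iff] at hb2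
      have hns : Complex.normSq (σ (s : K)) ≠ 0 := by
        rw [Ne, Complex.normSq_eq_zero]
        intro h0
        rw [h0] at him
        simp at him
      have hb3 : (σ (b : K)).im = 0 := by
        rcases hb2 with h | h
        · exact (mul_eq_zero.mp h).resolve_right him
        · exact absurd h hns
      have : σ (b : K) = 0 := Complex.ext hb1 hb3
      rw [map_eq_zero] at this
      exact hb (by exact_mod_cast this)
    rw [integral_exp_int hm'0, mul_zero]
  · rw [integral_exp_int h, zero_mul]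

/-- A function with an expansion without constant term has constant term zero. -/
theorem integral_eq_zero_of_hasSum (σ : K →+* ℂ) {s : 𝓞 K} (hs : s ^ 2 = -3)
    (htr : ∀ b : 𝓞 K, (∃ m : ℤ, 2 * (σ b / σ s).re = m) ∧ ∃ m : ℤ, 2 * (σ b).re = m)
    {G : ℂ → ℂ} {c : 𝓞 K → ℂ} (h0 : c 0 = 0)
    (h : ∀ z, HasSum (fun b : 𝓞 K => c b * eTr σ s b z) (G z)) :
    (∫ x in (0 : ℝ)..1, ∫ x' in (0 : ℝ)..1, G ((x : ℂ) + (x' : ℂ) * σ s)) = 0 := by
  have : Countable (𝓞 K) := countable_ringOfIntegers K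
  have hsum : Summable fun b : 𝓞 K => ‖c b‖ := by
    have := (h 0).summable.norm
    simpa [norm_mul, norm_eTr] using this
  have hcont : ∀ b : 𝓞 K, Continuous fun p : ℝ × ℝ =>
      c b * eTr σ s b ((p.1 : ℂ) + (p.2 : ℂ) * σ s) := fun b =>
    continuous_const.mul ((continuous_eTr σ s b).comp (by fun_prop))
  -- inner integral
  have hin : ∀ x : ℝ, HasSum (fun b : 𝓞 K => ∫ x' in (0 : ℝ)..1,
      c b * eTr σ s b ((x : ℂ) + (x' : ℂ) * σ s)) (∫ x' in (0 : ℝ)..1,
        G ((x : ℂ) + (x' : ℂ) * σ s)) := by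
    intro x
    refine intervalIntegral.hasSum_integral_of_dominated_convergence (fun b _ => ‖c b‖) ?_ ?_ ?_ ?_ ?_
    · intro b
      exact ((hcont b).comp (by fun_prop : Continuous fun x' : ℝ => (x, x'))).aestronglyMeasurable
    · intro b
      refine Filter.Eventually.of_forall fun x' _ => ?_
      rw [norm_mul, norm_eTr, mul_one]
    · exact Filter.Eventually.of_forall fun x' _ => hsum
    · exact intervalIntegrable_const
    · exact Filter.Eventually.of_forall fun x' _ => h _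
  have hout : HasSum (fun b : 𝓞 K => ∫ x in (0 : ℝ)..1, ∫ x' in (0 : ℝ)..1,
      c b * eTr σ s b ((x : ℂ) + (x' : ℂ) * σ s)) (∫ x in (0 : ℝ)..1, ∫ x' in (0 : ℝ)..1,
        G ((x : ℂ) + (x' : ℂ) * σ s)) := by
    refine intervalIntegral.hasSum_integral_of_dominated_convergence (fun b _ => ‖c b‖) ?_ ?_ ?_ ?_ ?_
    · intro b
      refine Continuous.aestronglyMeasurable ?_
      exact intervalIntegral.continuous_parametric_intervalIntegral_of_continuous' (hcont b) 0 1
    · intro b
      refine Filter.Eventually.of_forall fun x _ => ?_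
      have := intervalIntegral.norm_integral_le_of_norm_le_const (a := (0 : ℝ)) (b := 1)
        (C := ‖c b‖) (f := fun x' : ℝ => c b * eTr σ s b ((x : ℂ) + (x' : ℂ) * σ s))
        (fun x' _ => by rw [norm_mul, norm_eTr, mul_one])
      simpa using this
    · exact Filter.Eventually.of_forall fun x _ => hsum
    · exact intervalIntegrable_const
    · exact Filter.Eventually.of_forall fun x _ => hin x
  have hz : ∀ b : 𝓞 K, (∫ x in (0 : ℝ)..1, ∫ x' in (0 : ℝ)..1,
      c b * eTr σ s b ((x : ℂ) + (x' : ℂ) * σ s)) = 0 := by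
    intro b
    by_cases hb : b = 0
    · simp [hb, h0]
    · simp only [intervalIntegral.integral_const_mul]
      rw [integral_eTr σ hs hb (htr b).1 (htr b).2, mul_zero]
  rw [← hout.tsum_eq, tsum_congr hz, tsum_zero]

end Fermat.Agent.LT.Clas
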