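import Fermat.Agent.LT.Clas.Cusp

/-!
# Exponential decay of functions given by expansions in Bessel functions
-/

set_option autoImplicit false

open NumberField MeasureTheory
open scoped Real

namespace Fermat.Agent.LT.Clas

variable {K : Type} [Field K] [NumberField K]

/-- the `b`-th term of an expansion -/
noncomputable def bterm (σ : K →+* ℂ) (s : 𝓞 K) (c : 𝓞 K → ℂ) (P : H3) (b : 𝓞 K) : ℂ :=
  c b * ((P.y * bK0 (4 * π * ‖σ b‖ * P.y / √3) : ℝ) : ℂ) * eTr σ s b P.z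

/-- `G` has a cuspidal expansion with respect to `𝓞 K` with coefficients `c`. -/
def HasExp (σ : K →+* ℂ) (s : 𝓞 K) (c : 𝓞 K → ℂ) (G : H3 → ℂ) : Prop :=
  c 0 = 0 ∧ ∀ P : H3, HasSum (bterm σ s c P) (G P)

theorem bK0_pos {y : ℝ} (hy : 0 < y) : 0 < bK0 y := by
  unfold bK0
  have := bkR_pos 0 hy
  positivity

theorem bK0_le {y₀ y : ℝ} (h₀ : 0 < y₀) (h : y₀ ≤ y) :
    bK0 y ≤ Real.exp (-(y - y₀)) * bK0 y₀ := by
  unfold bK0
  have := bkR_le_exp_mul 0 h₀ h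
  linarith

theorem norm_bterm (σ : K →+* ℂ) (s : 𝓞 K) (c : 𝓞 K → ℂ) (P : H3) {b : 𝓞 K}
    (hb : σ b ≠ 0) :
    ‖bterm σ s c P b‖ = ‖c b‖ * (P.y * bK0 (4 * π * ‖σ b‖ * P.y / √3)) := by
  have h1 : 0 < 4 * π * ‖σ b‖ * P.y / √3 := by
    have := norm_pos_iff.mpr hb
    have := P.y_pos
    positivity
  have h2 : 0 ≤ P.y * bK0 (4 * π * ‖σ b‖ * P.y / √3) := mul_nonneg P.y_pos.le (bK0_pos h1).le
  unfold bterm
  rw [norm_mul, norm_mul, norm_eTr, mul_one, Complex.norm_real, Real.norm_of_nonneg h2]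

/-- The coefficients of an expansion decay: the sum `∑ |c b| K₀ (κ |b| y)` converges. -/
theorem HasExp.summable {σ : K →+* ℂ} {s : 𝓞 K} {c : 𝓞 K → ℂ} {G : H3 → ℂ}
    (h : HasExp σ s c G) {y : ℝ} (hy : 0 < y) :
    Summable fun b : 𝓞 K => ‖c b‖ * bK0 (4 * π * ‖σ b‖ * y / √3) := by
  have h1 := (h.2 (H3.mk 0 y hy)).summable.norm.mul_left (y⁻¹)
  refine h1.congr fun b => ?_
  by_cases hb : b = 0
  · simp [hb, bterm, h.1]
  · have hb' : σ (b : K) ≠ 0 := by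
      intro h0
      rw [map_eq_zero] at h0
      exact hb (by exact_mod_cast h0)
    rw [norm_bterm σ s c _ hb', H3.y_mk]
    field_simp

theorem HasExp.norm_le {σ : K →+* ℂ} {s : 𝓞 K} {c : 𝓞 K → ℂ} {G : H3 → ℂ}
    (h : HasExp σ s c G) (hmin : ∀ b : 𝓞 K, b ≠ 0 → 1 ≤ ‖σ b‖) {y₀ : ℝ} (hy₀ : 0 < y₀)
    (P : H3) (hP : y₀ ≤ P.y) :
    ‖G P‖ ≤ P.y * Real.exp (-(4 * π / √3 * (P.y - y₀))) *
      ∑' b : 𝓞 K, ‖c b‖ * bK0 (4 * π * ‖σ b‖ * y₀ / √3) := by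
  have hs := h.summable hy₀
  rw [← (h.2 P).tsum_eq]
  refine (norm_tsum_le_tsum_norm (h.2 P).summable.norm).trans ?_
  rw [← tsum_mul_left]
  refine (h.2 P).summable.norm.tsum_le_tsum (fun b => ?_) (hs.mul_left _)
  by_cases hb : b = 0
  · simp [hb, bterm, h.1]
  · have hb' : σ (b : K) ≠ 0 := by
      intro h0
      rw [map_eq_zero] at h0
      exact hb (by exact_mod_cast h0)
    rw [norm_bterm σ s c _ hb']
    have h1 := hmin b hb
    have h3 : 0 < √(3 : ℝ) := by positivity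
    have hk : bK0 (4 * π * ‖σ b‖ * P.y / √3) ≤
        Real.exp (-(4 * π / √3 * (P.y - y₀))) * bK0 (4 * π * ‖σ b‖ * y₀ / √3) := by
      refine (bK0_le (y₀ := 4 * π * ‖σ b‖ * y₀ / √3) (by positivity) (by gcongr)).trans ?_
      refine mul_le_mul_of_nonneg_right ?_ (bK0_pos (by positivity)).le
      refine Real.exp_le_exp.mpr (neg_le_neg ?_)
      have h4 : 4 * π * ‖σ b‖ * P.y / √3 - 4 * π * ‖σ b‖ * y₀ / √3 =
          ‖σ b‖ * (4 * π / √3 * (P.y - y₀)) := by ring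
      rw [h4]
      have h5 : 0 ≤ 4 * π / √3 * (P.y - y₀) := mul_nonneg (by positivity) (by linarith)
      nlinarith
    calc ‖c b‖ * (P.y * bK0 (4 * π * ‖σ b‖ * P.y / √3))
        ≤ ‖c b‖ * (P.y * (Real.exp (-(4 * π / √3 * (P.y - y₀))) *
          bK0 (4 * π * ‖σ b‖ * y₀ / √3))) := by
          gcongr
          exact P.y_pos.le
      _ = _ := by ring

/-- Exponential decay. -/
theorem HasExp.decay {σ : K →+* ℂ} {s : 𝓞 K} {c : 𝓞 K → ℂ} {G : H3 → ℂ}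
    (h : HasExp σ s c G) (hmin : ∀ b : 𝓞 K, b ≠ 0 → 1 ≤ ‖σ b‖) {y₁ : ℝ} (hy₁ : 0 < y₁) :
    ∃ C : ℝ, ∀ P : H3, y₁ ≤ P.y → ‖G P‖ ≤ C * Real.exp (-P.y) := by
  set S := ∑' b : 𝓞 K, ‖c b‖ * bK0 (4 * π * ‖σ b‖ * y₁ / √3) with hS
  have hS0 : 0 ≤ S := tsum_nonneg fun b => by
    by_cases hb : b = 0
    · simp [hb, h.1]
    · have hb' := hmin b hb
      have : 0 < bK0 (4 * π * ‖σ b‖ * y₁ / √3) := bK0_pos (by positivity)
      positivity
  refine ⟨Real.exp (4 * π / √3 * y₁) * S, fun P hP => ?_⟩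
  refine (h.norm_le hmin hy₁ P hP).trans ?_
  rw [← hS]
  have hk : (2 : ℝ) ≤ 4 * π / √3 := by
    have h3 : √(3 : ℝ) ≤ 2 := by
      rw [Real.sqrt_le_left (by norm_num)]
      norm_num
    have h3' : 0 < √(3 : ℝ) := by positivity
    rw [le_div_iff₀ h3']
    have := Real.pi_gt_three
    nlinarith
  have hy := P.y_pos
  have h1 : P.y ≤ Real.exp P.y := (Real.add_one_le_exp P.y).trans' (by linarith)
  have h2 : P.y * Real.exp (-(4 * π / √3 * (P.y - y₁))) ≤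
      Real.exp (4 * π / √3 * y₁) * Real.exp (-P.y) := by
    calc P.y * Real.exp (-(4 * π / √3 * (P.y - y₁)))
        ≤ Real.exp P.y * Real.exp (-(4 * π / √3 * (P.y - y₁))) := by gcongr
      _ = Real.exp (4 * π / √3 * y₁) * Real.exp (P.y - 4 * π / √3 * P.y) := by
          rw [← Real.exp_add, ← Real.exp_add]
          congr 1
          ring
      _ ≤ Real.exp (4 * π / √3 * y₁) * Real.exp (-P.y) := by
          gcongr
          nlinarith
  calc P.y * Real.exp (-(4 * π / √3 * (P.y - y₁))) * S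
      ≤ (Real.exp (4 * π / √3 * y₁) * Real.exp (-P.y)) * S := by gcongr
    _ = _ := by ring

/-- The constant term of a function with an expansion. -/
theorem HasExp.integral_eq_zero {σ : K →+* ℂ} {s : 𝓞 K} (hs : s ^ 2 = -3)
    (htr : ∀ b : 𝓞 K, (∃ m : ℤ, 2 * (σ b / σ s).re = m) ∧ ∃ m : ℤ, 2 * (σ b).re = m)
    {c : 𝓞 K → ℂ} {G : H3 → ℂ} (h : HasExp σ s c G) (y : ℝ) (hy : 0 < y) :
    (∫ x in (0 : ℝ)..1, ∫ x' in (0 : ℝ)..1, G (H3.mk ((x : ℂ) + (x' : ℂ) * σ s) y hy)) = 0 := by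
  refine integral_eq_zero_of_hasSum σ hs htr (G := fun z => G (H3.mk z y hy))
    (c := fun b => c b * ((y * bK0 (4 * π * ‖σ b‖ * y / √3) : ℝ) : ℂ)) (by simp [h.1]) ?_
  intro z
  exact h.2 (H3.mk z y hy)

end Fermat.Agent.LT.Clas
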