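import Fermat.Agent.LT.Clas.Decay
import Fermat.Agent.LT.H3.Pi

/-!
# Functions given by expansions in spherical Whittaker functions are eigenfunctions of the
radial kernels
-/

set_option autoImplicit false

open NumberField MeasureTheory
open scoped Real

namespace Fermat.Agent.LT.Clas

variable {K : Type} [Field K] [NumberField K]

theorem continuousOn_bK0 : ContinuousOn bK0 (Set.Ioi 0) := by
  have h : ∀ y : ℝ, bK0 y = (besselK 0 y).re := by
    intro y
    have := besselK_ofReal 0 y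
    rw [Complex.ofReal_zero] at this
    rw [this, Complex.ofReal_re]
    rfl
  have h2 : bK0 = fun y => (besselK 0 y).re := funext h
  rw [h2]
  exact Complex.continuous_re.comp_continuousOn (continuousOn_besselK 0)

/-- the spherical Whittaker function of frequency `b`. -/
noncomputable def whit (σ : K →+* ℂ) (s b : 𝓞 K) (P : H3) : ℂ :=
  ((P.y * bK0 (4 * π * ‖σ b‖ * P.y / √3) : ℝ) : ℂ) * eTr σ s b P.z

theorem bterm_eq (σ : K →+* ℂ) (s : 𝓞 K) (c : 𝓞 K → ℂ) (P : H3) (b : 𝓞 K) :
    bterm σ s c P b = c b * whit σ s b P := by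
  unfold bterm whit
  ring

theorem continuous_whit (σ : K →+* ℂ) (s b : 𝓞 K) (hb : σ b ≠ 0) : Continuous (whit σ s b) := by
  have h1 : Continuous fun P : H3 => bK0 (4 * π * ‖σ b‖ * P.y / √3) := by
    refine continuousOn_bK0.comp_continuous (by fun_prop) fun P => ?_
    have := norm_pos_iff.mpr hb
    have := P.y_pos
    show 0 < 4 * π * ‖σ b‖ * P.y / √3
    positivity
  unfold whit
  exact (Complex.continuous_ofReal.comp (H3.continuous_y.mul h1)).mul
    ((continuous_eTr σ s b).comp H3.continuous_z)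

theorem norm_whit (σ : K →+* ℂ) (s b : 𝓞 K) (hb : σ b ≠ 0) (P : H3) :
    ‖whit σ s b P‖ = P.y * bK0 (4 * π * ‖σ b‖ * P.y / √3) := by
  have h1 : 0 < 4 * π * ‖σ b‖ * P.y / √3 := by
    have := norm_pos_iff.mpr hb
    have := P.y_pos
    positivity
  have h2 : 0 ≤ P.y * bK0 (4 * π * ‖σ b‖ * P.y / √3) := mul_nonneg P.y_pos.le (bK0_pos h1).le
  unfold whit
  rw [norm_mul, norm_eTr, mul_one, Complex.norm_real, Real.norm_of_nonneg h2]

theorem map_ne (σ : K →+* ℂ) {b : 𝓞 K} (hb : b ≠ 0) : σ (b : K) ≠ 0 := by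
  intro h0
  rw [map_eq_zero] at h0
  exact hb (by exact_mod_cast h0)

/-- The eigenvalue equation passes from the Whittaker functions to the expansions. -/
theorem HasExp.eig {σ : K →+* ℂ} {s : 𝓞 K} {c : 𝓞 K → ℂ} {G : H3 → ℂ} (h : HasExp σ s c G)
    {k : ℝ → ℂ} (hk : Continuous k) {R : ℝ} (hR : ∀ t, R < t → k t = 0) {ev : ℂ}
    (hW : ∀ b : 𝓞 K, b ≠ 0 → ∀ P : H3,
      ∫ Q : H3, k (H3.cu P Q) * whit σ s b Q = ev * whit σ s b P) (P : H3) :
    ∫ Q : H3, k (H3.cu P Q) * G Q = ev * G P := by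
  have : Countable (𝓞 K) := countable_ringOfIntegers K
  -- enlarge the radius
  set R' := max R 1 with hR'
  have hR1 : 1 ≤ R' := le_max_right _ _
  have hkR : ∀ t, R' < t → k t = 0 := fun t ht => hR t ((le_max_left _ _).trans_lt ht)
  set y₀ := P.y / (2 * R') with hy₀
  have hPy := P.y_pos
  have hy₀' : 0 < y₀ := by positivity
  have hball : ∀ Q, H3.cu P Q ≤ R' → y₀ ≤ Q.y ∧ Q.y ≤ 2 * R' * P.y := by
    intro Q hQ
    refine ⟨?_, H3.y_le_of_cu_le hQ⟩
    have := H3.y_le_of_cu_le (P := Q) (Q := P) (R := R') (by rw [H3.cu_comm]; exact hQ)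
    rw [hy₀, div_le_iff₀ (by positivity)]
    linarith
  set M : 𝓞 K → ℝ := fun b => (2 * R' * P.y) * (‖c b‖ * bK0 (4 * π * ‖σ b‖ * y₀ / √3)) with hM
  have hMs : Summable M := (h.summable hy₀').mul_left _
  have hbd : ∀ b Q, ‖k (H3.cu P Q) * bterm σ s c Q b‖ ≤ M b * ‖k (H3.cu P Q)‖ := by
    intro b Q
    by_cases hQ : H3.cu P Q ≤ R'
    · by_cases hb : b = 0
      · simp [hb, bterm, h.1, hM]
      · obtain ⟨h1, h2⟩ := hball Q hQ
        have hb' := norm_pos_iff.mpr (map_ne σ hb)
        rw [norm_mul, norm_bterm σ s c _ (map_ne σ hb), mul_comm]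
        refine mul_le_mul_of_nonneg_right ?_ (norm_nonneg _)
        have h3 : bK0 (4 * π * ‖σ b‖ * Q.y / √3) ≤ bK0 (4 * π * ‖σ b‖ * y₀ / √3) := by
          unfold bK0
          have := bkR_antitone 0 (y₀ := 4 * π * ‖σ b‖ * y₀ / √3)
            (y := 4 * π * ‖σ b‖ * Q.y / √3) (by positivity) (by gcongr)
          linarith
        have h4 : 0 < bK0 (4 * π * ‖σ b‖ * y₀ / √3) := bK0_pos (by positivity)
        simp only [hM]
        calc ‖c b‖ * (Q.y * bK0 (4 * π * ‖σ b‖ * Q.y / √3))
            ≤ ‖c b‖ * ((2 * R' * P.y) * bK0 (4 * π * ‖σ b‖ * y₀ / √3)) := by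
              have := Q.y_pos
              have h5 : 0 < bK0 (4 * π * ‖σ b‖ * Q.y / √3) := bK0_pos (by positivity)
              gcongr
          _ = _ := by ring
    · rw [hkR _ (not_le.mp hQ)]
      simp
  have hint : ∀ b, Integrable fun Q : H3 => k (H3.cu P Q) * bterm σ s c Q b := by
    intro b
    by_cases hb : b = 0
    · simp [hb, bterm, h.1]
    · refine H3.integrable_radial_mul hk hkR ?_ P
      simp only [bterm_eq]
      exact continuous_const.mul (continuous_whit σ s b (map_ne σ hb))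
  have hki : Integrable fun Q : H3 => ‖k (H3.cu P Q)‖ := by
    have := H3.integrable_radial_mul hk hkR (f := fun _ => 1) continuous_const P
    simpa using this.norm
  have hsn : Summable fun b => ∫ Q : H3, ‖k (H3.cu P Q) * bterm σ s c Q b‖ := by
    refine Summable.of_nonneg_of_le (fun b => by positivity) (fun b => ?_)
      (hMs.mul_right (∫ Q : H3, ‖k (H3.cu P Q)‖))
    calc ∫ Q : H3, ‖k (H3.cu P Q) * bterm σ s c Q b‖
        ≤ ∫ Q : H3, M b * ‖k (H3.cu P Q)‖ :=
          integral_mono (hint b).norm (hki.const_mul _) (hbd b)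
      _ = _ := integral_const_mul _ _
  have h5 := hasSum_integral_of_summable_integral_norm hint hsn
  have h6 : (∫ Q : H3, ∑' b, k (H3.cu P Q) * bterm σ s c Q b) = ∫ Q : H3, k (H3.cu P Q) * G Q := by
    congr 1
    ext Q
    rw [tsum_mul_left, (h.2 Q).tsum_eq]
  rw [h6] at h5
  have h7 : ∀ b, (∫ Q : H3, k (H3.cu P Q) * bterm σ s c Q b) = ev * bterm σ s c P b := by
    intro b
    by_cases hb : b = 0
    · simp [hb, bterm, h.1]
    · simp only [bterm_eq]
      have : (fun Q : H3 => k (H3.cu P Q) * (c b * whit σ s b Q)) =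
          fun Q : H3 => c b * (k (H3.cu P Q) * whit σ s b Q) := by
        ext Q
        ring
      rw [this, integral_const_mul, hW b hb P]
      ring
  simp only [h7] at h5
  exact h5.unique ((h.2 P).mul_left ev)

end Fermat.Agent.LT.Clas
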