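import Fermat.Agent.LT.Clas.Four
import Fermat.Agent.LT.Kappa.Space

/-!
# The pointwise Fourier expansion along the unipotent radical

`hasSum_coef`: a continuous `O`-periodic function on `A` with summable coefficients is the sum of
its Fourier series.  `hasSum_wh`: the same for a function on a `GL₂(A)`-space.
`whittaker`: expansion and exponential decay of a bounded function whose coefficients are
Whittaker functions with frequencies in a discrete group.
-/

set_option autoImplicit false

open Filter Topology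
open scoped Real

namespace Fermat.Agent.LT.Kap

section Coef

variable {O A : Type*} [CommRing O] [CommRing A] [TopologicalSpace A] [IsTopologicalRing A]
  [Algebra O A] {θ : AddChar A Circle} [CompactSpace (A ⧸ lat O A)]

theorem mean_one : mean (lat O A) (fun _ => 1) = 1 := by
  simp [mean, lft]

theorem coef_ch_self (a : O) : coef O θ a (ch θ (algebraMap O A a)) = 1 := by
  unfold coef
  rw [← mean_one (O := O) (A := A)]
  exact mean_congr fun t => ch_neg_mul _ _

/-- orthogonality -/
theorem coef_ch_of_ne (hθ : SelfDual O θ) (hunit : ∀ a : O, a ≠ 0 → IsUnit (algebraMap O A a))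
    (hne : ∃ x : A, θ x ≠ 1) {a b : O} (hab : a ≠ b) :
    coef O θ b (ch θ (algebraMap O A a)) = 0 := by
  obtain ⟨x, hx⟩ := hne
  obtain ⟨v, hv⟩ := hunit (a - b) (sub_ne_zero.mpr hab)
  have hs : ∀ t, ch θ (-(algebraMap O A b)) t * ch θ (algebraMap O A a) t =
      ch θ (algebraMap O A (a - b)) t := by
    intro t
    simp only [ch]
    rw [← Circle.coe_mul, ← AddChar.map_add_eq_mul, map_sub]
    congr 2
    ring
  unfold coef
  rw [mean_congr hs]
  refine mean_eq_zero_of_trans (s := (v⁻¹ : Aˣ) * x) (c := (θ x : ℂ)) (per_ch hθ _) ?_ ?_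
  · intro t
    rw [ch_add, mul_comm]
    congr 1
    simp only [ch]
    rw [← hv, ← mul_assoc, Units.mul_inv, one_mul]
  · intro h
    exact hx (by ext; exact h)

/-- **Fourier expansion** of a continuous periodic function with summable coefficients -/
theorem hasSum_coef [IsClosed (lat O A : Set A)] (hθ : SelfDual O θ)
    (hunit : ∀ a : O, a ≠ 0 → IsUnit (algebraMap O A a)) (hne : ∃ x : A, θ x ≠ 1) {f : A → ℂ}
    (hf : Per (lat O A) f) (hc : Continuous f) (hs : Summable fun a : O => coef O θ a f) (t : A) :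
    HasSum (fun a : O => coef O θ a f * ch θ (algebraMap O A a) t) (f t) := by
  classical
  have hs' : Summable fun a : O => ‖coef O θ a f‖ := hs.norm
  have hle : ∀ (a : O) (t : A), ‖coef O θ a f * ch θ (algebraMap O A a) t‖ ≤ ‖coef O θ a f‖ :=
    fun a t => by rw [norm_mul, norm_ch, mul_one]
  set g : A → ℂ := fun t => ∑' a : O, coef O θ a f * ch θ (algebraMap O A a) t with hg
  have hgsum : ∀ t, Summable fun a : O => coef O θ a f * ch θ (algebraMap O A a) t :=
    fun t => Summable.of_norm_bounded hs' fun a => hle a t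
  have hgc : Continuous g :=
    continuous_tsum (fun a => continuous_const.mul (continuous_ch hθ _)) hs' hle
  have hgp : Per (lat O A) g := fun t l hl =>
    tsum_congr fun a => by rw [per_ch hθ a t l hl]
  -- the partial sums
  have hunif := tendstoUniformly_tsum hs' hle
  have hcoef : ∀ b : O, coef O θ b g = coef O θ b f := by
    intro b
    rw [← sub_eq_zero]
    by_contra hcon
    have hpos : 0 < ‖coef O θ b g - coef O θ b f‖ := norm_pos_iff.mpr hcon
    have h1 := Metric.tendstoUniformly_iff.mp hunif _ (half_pos hpos)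
    obtain ⟨s, hs1, hbs⟩ := (h1.and (eventually_ge_atTop {b})).exists
    have hb : b ∈ s := hbs (Finset.mem_singleton_self b)
    set ps : A → ℂ := fun t => ∑ a ∈ s, coef O θ a f * ch θ (algebraMap O A a) t with hps
    have hpsc : Continuous ps :=
      continuous_finsetSum _ fun a _ => continuous_const.mul (continuous_ch hθ _)
    have hpsp : Per (lat O A) ps := fun t l hl =>
      Finset.sum_congr rfl fun a _ => by rw [per_ch hθ a t l hl]
    have hcps : coef O θ b ps = coef O θ b f := by
      rw [hps, coef_sum hθ b s (fun a _ => (per_ch hθ a).const_mul _)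
        (fun a _ => continuous_const.mul (continuous_ch hθ _)), Finset.sum_eq_single b]
      · rw [coef_const_mul, coef_ch_self, mul_one]
      · intro a _ hab
        rw [coef_const_mul, coef_ch_of_ne hθ hunit hne hab, mul_zero]
      · exact fun h => absurd hb h
    have h2 : coef O θ b (fun t => g t + (-1) * ps t) = coef O θ b g - coef O θ b f := by
      rw [coef_add hθ b hgp hgc (hpsp.const_mul (-1)) (continuous_const.mul hpsc),
        coef_const_mul, hcps]
      ring
    have h3 : ‖coef O θ b (fun t => g t + (-1) * ps t)‖ ≤ ‖coef O θ b g - coef O θ b f‖ / 2 := by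
      refine norm_coef_le b fun t => ?_
      have := (hs1 t).le
      rw [dist_eq_norm] at this
      rw [show g t + (-1) * ps t = g t - ps t by ring]
      exact this
    rw [h2] at h3
    linarith
  have h4 := eq_zero_of_coef hθ (f := fun t => g t + (-1) * f t) (hgp.add (hf.const_mul (-1)))
    (hgc.add (continuous_const.mul hc)) (fun b => by
      rw [coef_add hθ b hgp hgc (hf.const_mul (-1)) (continuous_const.mul hc), coef_const_mul,
        hcoef]
      ring) t
  have h5 : f t = g t := by linear_combination -h4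
  rw [h5]
  exact (hgsum t).hasSum

end Coef

section Wh

variable {O A : Type*} [CommRing O] [CommRing A] [TopologicalSpace A] [IsTopologicalRing A]
  [Algebra O A] {θ : AddChar A Circle} {X : Type*} [MulAction (GL (Fin 2) A) X]
  [CompactSpace (A ⧸ lat O A)]

theorem norm_wh_le {ψ : X → ℂ} {M : ℝ} (hM : ∀ x, ‖ψ x‖ ≤ M) (a : O) (x : X) :
    ‖wh O θ ψ a x‖ ≤ M := norm_coef_le a fun _ => hM _

/-- **Fourier expansion** along the unipotent radical, at a point with summable coefficients -/
theorem hasSum_wh [IsClosed (lat O A : Set A)] (hθ : SelfDual O θ)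
    (hunit : ∀ a : O, a ≠ 0 → IsUnit (algebraMap O A a)) (hne : ∃ x : A, θ x ≠ 1) {ψ : X → ℂ}
    (h : IsAut (A := A) O ψ) {x : X} (hs : Summable fun a : O => wh O θ ψ a x) :
    HasSum (fun a : O => wh O θ ψ a x) (ψ x) := by
  have h1 := hasSum_coef hθ hunit hne (h.per x) (h.cont x) hs 0
  have h2 : ∀ a : O, ch θ (algebraMap O A a) (0 : A) = 1 := fun a => by
    simp only [ch]
    rw [mul_zero, AddChar.map_zero_eq_one]
    rfl
  simp only [h2, mul_one, nn_zero, one_smul] at h1
  exact h1

open LT.Four in
/-- **Whittaker expansion**: expansion and exponential decay of a bounded function whose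
coefficients at the points `x z y` are Whittaker functions with frequencies `w a` in a discrete
group (`l a = 0` for all other `a`). -/
theorem whittaker [IsClosed (lat O A : Set A)] (hθ : SelfDual O θ)
    (hunit : ∀ a : O, a ≠ 0 → IsUnit (algebraMap O A a)) (hne : ∃ x : A, θ x ≠ 1) {ψ : X → ℂ}
    (h : IsAut (A := A) O ψ) {M : ℝ} (hM : ∀ x, ‖ψ x‖ ≤ M) {k : ℝ → ℂ} (hk : IsK k)
    (Λ : Submodule ℤ ℂ) [DiscreteTopology Λ] {w l : O → ℂ} (hw : ∀ a, l a ≠ 0 → w a ∈ Λ ∧ w a ≠ 0)
    (hinj : ∀ a b, l a ≠ 0 → l b ≠ 0 → w a = w b → a = b) {e : O → ℂ → ℂ}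
    (he : ∀ a z, ‖e a z‖ = 1) {x : ℂ → ℝ → X}
    (hx : ∀ a z y, 0 < y → wh O θ ψ a (x z y) = l a * (y * k (4 * π * ‖w a‖ * y)) * e a z) :
    (∀ z y, 0 < y → HasSum (fun a : O => l a * (y * k (4 * π * ‖w a‖ * y)) * e a z) (ψ (x z y))) ∧
    ∀ y₀, 0 < y₀ → ∃ C c : ℝ, 0 < c ∧ ∀ z y, y₀ ≤ y → ‖ψ (x z y)‖ ≤ C * Real.exp (-(c * y)) := by
  have hM' : ∀ a, ∀ y : ℝ, 0 < y → ‖l a * (y * k (4 * π * ‖w a‖ * y))‖ ≤ M := by
    intro a y hy
    have h1 := hx a 0 y hy
    have h2 := norm_wh_le (O := O) (θ := θ) hM a (x 0 y)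
    rw [h1, norm_mul, he, mul_one] at h2
    exact h2
  have key : ∀ z y, 0 < y →
      HasSum (fun a : O => l a * (y * k (4 * π * ‖w a‖ * y)) * e a z) (ψ (x z y)) := by
    intro z y hy
    obtain ⟨u, c, hc, hu, hu0, hle⟩ := hk.exists_bound Λ hw hinj hM' hy
    have hs : Summable fun a : O => wh O θ ψ a (x z y) := by
      refine Summable.of_norm_bounded (hu.mul_right (Real.exp (-(c * y)))) fun a => ?_
      rw [hx a z y hy, norm_mul, he, mul_one]
      exact hle a y le_rfl
    have h1 := hasSum_wh hθ hunit hne h hs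
    simp only [hx _ z y hy] at h1
    exact h1
  refine ⟨key, fun y₀ h₀ => ?_⟩
  obtain ⟨u, c, hc, hu, hu0, hle⟩ := hk.exists_bound Λ hw hinj hM' h₀
  refine ⟨∑' a, u a, c, hc, fun z y hy => ?_⟩
  exact norm_le_of_hasSum (fun a => he a z) hu (fun a => hle a y hy) (key z y (h₀.trans_le hy))

end Wh

end Fermat.Agent.LT.Kap
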