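import Fermat.Agent.LT.Kappa.Inst
import Fermat.Agent.LT.Clas.Eig
import Fermat.Agent.LT.Clas.Kir
import Fermat.Agent.LT.Clas.FourA
import Fermat.Agent.LT.ThetaAS
import Fermat.Agent.LT.Adapt.InfAct
import Fermat.Agent.LT.SInt

/-!
# Expansions over `𝓞 K` of the functions of helper31's space `W` at the points `(N ^ k P, g)`
-/

set_option autoImplicit false

namespace Fermat.Agent.LT.Clas

open MeasureTheory Topology Kap NumberField IsDedekindDomain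
open scoped Real

variable {K : Type} [Field K] [NumberField K]

/-- the diagonal point of `X_∞`. -/
def ptX (P : H3) : Xi K := fun _ => P

/-- the spherical Whittaker function of frequency `α / √-3`, `α ∈ ℂ`. -/
noncomputable def whitA (σ : K →+* ℂ) (s : 𝓞 K) (α : ℂ) (P : H3) : ℂ :=
  ((P.y * bK0 (4 * π * ‖α‖ * P.y / √3) : ℝ) : ℂ) *
    Complex.exp (2 * π * Complex.I * ((2 * (α * P.z / σ s).re : ℝ) : ℂ))

theorem whit_eq_whitA (σ : K →+* ℂ) (s b : 𝓞 K) (P : H3) : whit σ s b P = whitA σ s (σ b) P := by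
  unfold whit whitA eTr
  rfl

/-- scaling of a point by a nonzero complex number. -/
noncomputable def scl (α : ℂ) (hα : α ≠ 0) (P : H3) : H3 :=
  H3.mk (α * P.z) (‖α‖ * P.y) (mul_pos (norm_pos_iff.mpr hα) P.y_pos)

theorem whitA_scl (σ : K →+* ℂ) (s : 𝓞 K) (α β : ℂ) (hα : α ≠ 0) (P : H3) :
    whitA σ s β (scl α hα P) = (‖α‖ : ℂ) * whitA σ s (α * β) P := by
  unfold whitA scl
  rw [H3.y_mk, H3.z_mk, norm_mul]
  have h1 : β * (α * P.z) / σ s = α * β * P.z / σ s := by ring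
  have h2 : 4 * π * ‖β‖ * (‖α‖ * P.y) / √3 = 4 * π * (‖α‖ * ‖β‖) * P.y / √3 := by ring
  rw [h1, h2]
  push_cast
  ring

theorem dg_smul (u : ℂˣ) (P : H3) : (Kap.dg u 1 : GL (Fin 2) ℂ) • P = scl u u.ne_zero P := by
  have h10 : (Kap.dg u 1 : GL (Fin 2) ℂ) 1 0 = 0 := by
    show ((Kap.dg u 1 : GL (Fin 2) ℂ) : Matrix (Fin 2) (Fin 2) ℂ) 1 0 = 0
    rw [Kap.coe_dg]; simp
  have h00 : (Kap.dg u 1 : GL (Fin 2) ℂ) 0 0 = u := by
    show ((Kap.dg u 1 : GL (Fin 2) ℂ) : Matrix (Fin 2) (Fin 2) ℂ) 0 0 = u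
    rw [Kap.coe_dg]; simp
  have h01 : (Kap.dg u 1 : GL (Fin 2) ℂ) 0 1 = 0 := by
    show ((Kap.dg u 1 : GL (Fin 2) ℂ) : Matrix (Fin 2) (Fin 2) ℂ) 0 1 = 0
    rw [Kap.coe_dg]; simp
  have h11 : (Kap.dg u 1 : GL (Fin 2) ℂ) 1 1 = 1 := by
    show ((Kap.dg u 1 : GL (Fin 2) ℂ) : Matrix (Fin 2) (Fin 2) ℂ) 1 1 = 1
    rw [Kap.coe_dg]; simp
  refine H3.ext ?_ ?_
  · rw [H3.z_smul_of_upper h10, h00, h01, h11]
    simp [scl]
  · rw [H3.y_smul_of_upper h10, h00, h11]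
    simp [scl]

variable {S : Finset (HeightOneSpectrum (𝓞 K))}

/-- the standard function at infinity for `K`. -/
noncomputable def wiK (w₀ : InfinitePlace K) (s : 𝓞 K) (x : Xi K) : ℂ :=
  whit w₀.embedding s 1 (x w₀)

theorem wiK_dg (w₀ : InfinitePlace K) (s : 𝓞 K) (v : (Loc.Rinf K)ˣ) (P : H3)
    (hv : (v : Loc.Rinf K) w₀ ≠ 0) :
    wiK w₀ s ((Kap.dg v 1 : GL (Fin 2) (Loc.Rinf K)) • ptX (K := K) P) =
      (‖(v : Loc.Rinf K) w₀‖ : ℂ) * whitA w₀.embedding s ((v : Loc.Rinf K) w₀) P := by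
  unfold wiK
  rw [Adapt.inf_smul_apply, Kap.map_dg, map_one, whit_eq_whitA]
  have h1 : (Kap.dg (Units.map (Adapt.evR K w₀ : Loc.Rinf K →* ℂ) v) 1 : GL (Fin 2) ℂ) • P =
      scl ((v : Loc.Rinf K) w₀) hv P := dg_smul _ P
  rw [show ptX (K := K) P w₀ = P from rfl, h1, whitA_scl]
  simp

theorem whitA_ne_zero (σ : K →+* ℂ) (s : 𝓞 K) {α : ℂ} (hα : α ≠ 0) (P : H3) :
    whitA σ s α P ≠ 0 := by
  unfold whitA
  refine mul_ne_zero (Complex.ofReal_ne_zero.mpr (mul_pos P.y_pos (bK0_pos ?_)).ne')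
    (Complex.exp_ne_zero _)
  have := norm_pos_iff.mpr hα
  have := P.y_pos
  positivity

section Wh

variable [IsTotallyComplex K] {θ : AddChar (Loc.Rinf K × Loc.Rf S) Circle}
  {lam : Loc.OS S → ℂ} {w₀ : InfinitePlace K} {s : 𝓞 K}

/-- the coefficients of a function of `W` at the diagonal points. -/
theorem wh_pt {ψ : Sp (Xi K) (Loc.Rf S) → ℂ}
    (h : InW (Loc.OS S) θ lam (wiK w₀ s) ψ) {a : Loc.OS S} (ha : a ≠ 0) {n : ℂ}
    (hn : IsNum (A := Loc.Rinf K × Loc.Rf S) (Loc.OS S) (Sp (Xi K) (Loc.Rf S)) θ lam a n)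
    (v : (Loc.Rinf K × Loc.Rf S)ˣ) (hv : algebraMap (Loc.OS S) (Loc.Rinf K × Loc.Rf S) a = v)
    (g : GL (Fin 2) (Loc.Rf S)) {c : ℂ}
    (hc : ∀ z, wh (Loc.OS S) θ ψ 1 (⟨z, Kap.dg (Units.map (RingHom.snd (Loc.Rinf K) (Loc.Rf S) :
      Loc.Rinf K × Loc.Rf S →* Loc.Rf S) v) 1 * g⟩ : Sp (Xi K) (Loc.Rf S)) = c * wiK w₀ s z)
    (P : H3) :
    wh (Loc.OS S) θ ψ a (⟨ptX P, g⟩ : Sp (Xi K) (Loc.Rf S)) =
      (n * c * ‖w₀.embedding (a : K)‖) * whitA w₀.embedding s (w₀.embedding (a : K)) P := by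
  have h1 := hn ψ h.aut h.eig (⟨ptX P, g⟩ : Sp (Xi K) (Loc.Rf S)) v hv
  rw [h1, dg_smul_mk, map_one, map_one, hc]
  have h2 : ((Units.map (RingHom.fst (Loc.Rinf K) (Loc.Rf S) :
      Loc.Rinf K × Loc.Rf S →* Loc.Rinf K) v : (Loc.Rinf K)ˣ) : Loc.Rinf K) w₀ =
      w₀.embedding (a : K) := by
    have h3 := congrArg (fun t : Loc.Rinf K × Loc.Rf S => t.1 w₀) hv
    exact h3.symm
  have ha' : w₀.embedding (a : K) ≠ 0 := by
    rw [Ne, map_eq_zero]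
    intro h0
    exact ha (Subtype.ext h0)
  rw [wiK_dg w₀ s _ P (by rw [h2]; exact ha'), h2]
  ring

variable [IsPrincipalIdealRing (Loc.OS S)]

/-- all coefficients at the points `(P, g)` are multiples of Whittaker functions -/
theorem exists_coef (hθ : SelfDual (Loc.OS S) θ) {ψ : Sp (Xi K) (Loc.Rf S) → ℂ}
    (h : InW (Loc.OS S) θ lam (wiK w₀ s) ψ) (g : GL (Fin 2) (Loc.Rf S)) :
    ∃ l : Loc.OS S → ℂ, l 0 = 0 ∧ ∀ (a : Loc.OS S) (P : H3),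
      wh (Loc.OS S) θ ψ a (⟨ptX P, g⟩ : Sp (Xi K) (Loc.Rf S)) =
        l a * whitA w₀.embedding s (w₀.embedding (a : K)) P := by
  classical
  obtain ⟨n, hn⟩ := exists_num (X := Sp (Xi K) (Loc.Rf S)) (algebraMap_OS_injective S) hθ
    (isUnit_algebraMap_OS S) lam
  have key : ∀ a : Loc.OS S, a ≠ 0 → ∃ l : ℂ, ∀ P : H3,
      wh (Loc.OS S) θ ψ a (⟨ptX P, g⟩ : Sp (Xi K) (Loc.Rf S)) =
        l * whitA w₀.embedding s (w₀.embedding (a : K)) P := by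
    intro a ha
    obtain ⟨v, hv⟩ := isUnit_algebraMap_OS S a ha
    obtain ⟨c, hc⟩ := h.line (Kap.dg (Units.map (RingHom.snd (Loc.Rinf K) (Loc.Rf S) :
      Loc.Rinf K × Loc.Rf S →* Loc.Rf S) v) 1 * g)
    exact ⟨_, fun P => wh_pt h ha (hn a ha) v hv.symm g hc P⟩
  choose! l hl using key
  refine ⟨fun a => if a = 0 then 0 else l a, if_pos rfl, fun a P => ?_⟩
  beta_reduce
  by_cases ha : a = 0
  · rw [if_pos ha, zero_mul, ha]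
    exact h.cusp _
  · rw [if_neg ha]
    exact hl a ha P

/-- the support of the coefficients -/
theorem mem_Of_of_wh_ne_zero (hθ : SelfDual (Loc.OS S) θ) {ψ : Sp (Xi K) (Loc.Rf S) → ℂ}
    (h : InW (Loc.OS S) θ lam (wiK w₀ s) ψ) {Nu : (Loc.Rf S)ˣ} (D : FinDat θ (Loc.Of S) Nu)
    {k : ℕ} (hk : ∀ y ∈ Loc.Of S, rt (nn ((Nu : Loc.Rf S) ^ k * y)) ψ = ψ) {a : Loc.OS S} {P : H3}
    (hne : wh (Loc.OS S) θ ψ a (⟨ptX P, 1⟩ : Sp (Xi K) (Loc.Rf S)) ≠ 0) :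
    (Nu : Loc.Rf S) ^ k * algebraMap (Loc.OS S) (Loc.Rf S) a ∈ Loc.Of S := by
  rw [← D.cond]
  intro y hy
  have h1 : (nn ((0, (Nu : Loc.Rf S) ^ k * y) : Loc.Rinf K × Loc.Rf S) :
      GL (Fin 2) (Loc.Rinf K × Loc.Rf S)) • (⟨ptX P, 1⟩ : Sp (Xi K) (Loc.Rf S)) =
      ⟨ptX P, 1 * nn ((Nu : Loc.Rf S) ^ k * y)⟩ := by
    rw [nn_smul_mk, nn_zero, one_smul, one_mul, mul_one]
  have h2 := wh_nn (X := Sp (Xi K) (Loc.Rf S)) hθ h.aut a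
    ((0, (Nu : Loc.Rf S) ^ k * y) : Loc.Rinf K × Loc.Rf S) (⟨ptX P, 1⟩ : Sp (Xi K) (Loc.Rf S))
  rw [h1] at h2
  have h3 := wh_rt (O := Loc.OS S) (θ := θ) ψ (nn ((Nu : Loc.Rf S) ^ k * y)) a
    (⟨ptX P, 1⟩ : Sp (Xi K) (Loc.Rf S))
  rw [hk y hy] at h3
  simp only at h3
  rw [← h3] at h2
  have h4 : ch θ (algebraMap (Loc.OS S) (Loc.Rinf K × Loc.Rf S) a)
      ((0, (Nu : Loc.Rf S) ^ k * y) : Loc.Rinf K × Loc.Rf S) = 1 := by
    have := mul_right_cancel₀ hne ((one_mul _).trans h2)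
    exact this.symm
  rw [← h4]
  unfold ch
  rw [thf_apply]
  have h5 : (algebraMap (Loc.OS S) (Loc.Rinf K × Loc.Rf S) a) *
      ((0, (Nu : Loc.Rf S) ^ k * y) : Loc.Rinf K × Loc.Rf S) =
      ((algebraMap (Loc.OS S) (Loc.Rinf K) a) * 0,
        (algebraMap (Loc.OS S) (Loc.Rf S) a) * ((Nu : Loc.Rf S) ^ k * y)) := rfl
  rw [h5, mul_zero]
  have h6 : (Nu : Loc.Rf S) ^ k * algebraMap (Loc.OS S) (Loc.Rf S) a * y =
      (algebraMap (Loc.OS S) (Loc.Rf S) a) * ((Nu : Loc.Rf S) ^ k * y) := by ring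
  rw [h6]

end Wh

end Fermat.Agent.LT.Clas
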