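import Fermat.Agent.LT.Kappa.Inst
import Fermat.Agent.LT.Clas.Kir

/-!
# The depleted vector over `A = F_∞ × ∏_{v ∈ S} F_v`: all the hypotheses at the finite places

`FinDat (thetaA S δ) (Of S) (unitN S N hN)` for a number field `F`, `S` = the places dividing
`N`, as soon as the conductor of `thetaA S δ` is `∏ O_v`; this is the case for `ℚ(√-3)`,
`δ = (√-3)⁻¹`, `3 ∣ N` (`finDat_Q3`).  `exists_depleted_Q3`: helper32's `exists_depleted` with
all the ring theoretic hypotheses discharged.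
-/

set_option autoImplicit false

open NumberField IsDedekindDomain HeightOneSpectrum WithZero
open scoped WithZero Topology

noncomputable section

namespace Fermat.Agent.LT.Clas

open Fermat.Agent.LT.Loc
open Fermat.Agent.LT.Chr hiding Rf
open Fermat.Agent.LT.Kap (SelfDual Sp InW IsAut)

variable {K : Type*} [Field K] [NumberField K] (S : Finset (HeightOneSpectrum (𝓞 K)))

/-- The integer `N` as a unit of `∏_{v ∈ S} K_v`. -/
def unitN (N : ℕ) (hN : N ≠ 0) : (Rf S)ˣ :=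
  Units.map (algebraMap K (Rf S) : K →* Rf S) (Units.mk0 (N : K) (Nat.cast_ne_zero.mpr hN))

theorem coe_unitN (N : ℕ) (hN : N ≠ 0) :
    (unitN S N hN : Rf S) = algebraMap K (Rf S) (((N : 𝓞 K) : 𝓞 K) : K) := by
  change algebraMap K (Rf S) (N : K) = _
  congr 1

theorem coe_unitN' (N : ℕ) (hN : N ≠ 0) : (unitN S N hN : Rf S) = (N : Rf S) := by
  change algebraMap K (Rf S) (N : K) = _
  rw [map_natCast]

theorem intF_eq_Of : (intF S : Subring (Rf S)) = Of S := by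
  ext x
  rfl

variable {S}

theorem val_natCast_lt_one {N : ℕ} (hS : ∀ v ∈ S, (N : 𝓞 K) ∈ v.asIdeal)
    {v : HeightOneSpectrum (𝓞 K)} (hv : v ∈ S) : v.valuation K (((N : 𝓞 K) : 𝓞 K) : K) < 1 :=
  (valuation_lt_one_iff_mem v _).mpr (hS v hv)

theorem val_le_exp {γ : ℤᵐ⁰} (h : γ < 1) : γ ≤ exp (-1 : ℤ) := by
  by_cases h0 : γ = 0
  · rw [h0]; exact zero_le
  · rw [← exp_log h0] at h ⊢
    rw [← exp_zero, exp_lt_exp] at h
    rw [exp_le_exp]
    omega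

variable (S)

/-- The sets `N ^ m O_f` are small. -/
theorem exists_pow_mul_mem {N : ℕ} (hN : N ≠ 0) (hS : ∀ v ∈ S, (N : 𝓞 K) ∈ v.asIdeal)
    {U : Set (Rf S)} (hU : U ∈ 𝓝 (0 : Rf S)) :
    ∃ m : ℕ, ∀ x ∈ Of S, (unitN S N hN : Rf S) ^ m * x ∈ U := by
  rw [nhds_pi, Filter.mem_pi] at hU
  obtain ⟨I, -, t, ht, hI⟩ := hU
  have h1 : ∀ v : S, ∃ n : ℕ, {y | Valued.v (y - (0 : Rf S) v) < exp (-(n : ℤ))} ⊆ t v :=
    fun v => (mem_nhds_iff v.1).mp (ht v)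
  choose n hn using h1
  refine ⟨Finset.univ.sup n + 1, fun x hx => hI fun v _ => hn v ?_⟩
  have hv : v.1.valuation K (((N : 𝓞 K) : 𝓞 K) : K) ≤ exp (-1 : ℤ) :=
    val_le_exp (val_natCast_lt_one hS v.2)
  simp only [Set.mem_ofPred_eq, Pi.zero_apply, sub_zero]
  rw [Pi.mul_apply, Pi.pow_apply, map_mul, map_pow, coe_unitN, algebraMap_f, v_ι]
  calc (v.1.valuation K (((N : 𝓞 K) : 𝓞 K) : K)) ^ (Finset.univ.sup n + 1) * Valued.v (x v)
      ≤ exp (-1 : ℤ) ^ (Finset.univ.sup n + 1) * 1 := by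
        gcongr
        exact hx v
    _ < exp (-(n v : ℤ)) := by
        rw [mul_one, ← exp_nsmul, exp_lt_exp]
        have := Finset.le_sup (f := n) (Finset.mem_univ v)
        simp only [nsmul_eq_mul]
        push_cast
        omega

theorem finite_quot_pow {N : ℕ} (hN : N ≠ 0) (hmem : (unitN S N hN : Rf S) ∈ Of S) (m : ℕ) :
    Finite (Of S ⧸ (Ideal.span {(⟨(unitN S N hN : Rf S), hmem⟩ : Of S) ^ m} : Ideal (Of S))) := by
  have h1 : ((N : 𝓞 K) ^ m) ≠ 0 := pow_ne_zero _ (Nat.cast_ne_zero.mpr hN)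
  have h2 := finite_quot S h1
  have h3 : idealOf S ((N : 𝓞 K) ^ m) =
      Ideal.span {(⟨(unitN S N hN : Rf S), hmem⟩ : Of S) ^ m} := by
    rw [idealOf]
    congr 2
    apply Subtype.ext
    rw [SubmonoidClass.coe_pow]
    change algebraMap K (Rf S) ((((N : 𝓞 K) ^ m : 𝓞 K)) : K) = (unitN S N hN : Rf S) ^ m
    rw [coe_unitN, ← map_pow]
    congr 1
  rw [← h3]
  exact h2

theorem jac_Of {N : ℕ} (hN : N ≠ 0) (hS : ∀ v ∈ S, (N : 𝓞 K) ∈ v.asIdeal) :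
    Jac (Of S) (unitN S N hN : Rf S) := by
  have h : Jac (piRing fun v : S => (Valued.v : Valuation (v.1.adicCompletion K) ℤᵐ⁰))
      (unitN S N hN : Rf S) := by
    refine jac_pi _ fun v => ?_
    rw [coe_unitN, algebraMap_f, v_ι]
    exact val_natCast_lt_one hS v.2
  exact h

/-- **The data at the finite places** for any number field and any `δ` such that the conductor of
`x ↦ θ_f (δ x)` is `∏ O_v`. -/
theorem finDat {N : ℕ} (hN : N ≠ 0) (hS : ∀ v ∈ S, (N : 𝓞 K) ∈ v.asIdeal) {δ : K}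
    (hcond : ∀ x : Rf S, x ∈ intF S ↔ ∀ y ∈ intF S, thetaF S (diagF S δ * (x * y)) = 1) :
    FinDat (Ri := Rinf K) (Rf := Rf S) (thetaA S δ) (Of S) (unitN S N hN) := by
  have hmem : (unitN S N hN : Rf S) ∈ Of S := by
    rw [coe_unitN]
    exact algebraMap_int_mem_Of S _
  refine ⟨hmem, fun x => ?_, finite_quot_pow S hN hmem, jac_Of S hN hS,
    fun U hU => exists_pow_mul_mem S hN hS hU⟩
  rw [← intF_eq_Of, hcond x]
  refine forall₂_congr fun y _ => ?_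
  rw [thf_apply, thetaA_inr, Circle.coe_eq_one]

/-- `K = ℚ(√-3)`. -/
theorem finDat_Q3 (hK : Module.finrank ℚ K = 2) {s : 𝓞 K} (hs : s ^ 2 = -3) {N : ℕ} (hN : N ≠ 0)
    (h3 : 3 ∣ N) (hS : ∀ v, v ∈ S ↔ (N : 𝓞 K) ∈ v.asIdeal) :
    FinDat (Ri := Rinf K) (Rf := Rf S) (thetaA S (s : K)⁻¹) (Of S) (unitN S N hN) := by
  refine finDat S hN (fun v hv => (hS v).mp hv) fun x => ?_
  refine mem_intF_iff_Q3 hK hs fun v hv => (hS v).mpr ?_
  obtain ⟨n, rfl⟩ := h3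
  push_cast
  exact v.asIdeal.mul_mem_right _ hv

variable {S}

omit [NumberField K] in
theorem mem_of_three {N : ℕ} (h3 : 3 ∣ N) (hS : ∀ v, v ∈ S ↔ (N : 𝓞 K) ∈ v.asIdeal)
    (v : HeightOneSpectrum (𝓞 K)) (hv : (3 : 𝓞 K) ∈ v.asIdeal) : v ∈ S := by
  refine (hS v).mpr ?_
  obtain ⟨n, rfl⟩ := h3
  push_cast
  exact v.asIdeal.mul_mem_right _ hv

/-- there is a place above `3`, so `S` is not empty. -/
theorem nonempty_of_three {N : ℕ} (h3 : 3 ∣ N) (hS : ∀ v, v ∈ S ↔ (N : 𝓞 K) ∈ v.asIdeal) :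
    S.Nonempty := by
  have h1 : ¬ IsUnit (3 : 𝓞 K) := by
    intro h
    have h2 : IsUnit (Algebra.norm ℤ (3 : 𝓞 K)) := h.map _
    rw [show (3 : 𝓞 K) = algebraMap ℤ (𝓞 K) 3 by simp, Algebra.norm_algebraMap,
      Int.isUnit_iff] at h2
    have h4 : 0 < Module.finrank ℤ (𝓞 K) := Module.finrank_pos
    have h5 : (3 : ℤ) ∣ 3 ^ Module.finrank ℤ (𝓞 K) := dvd_pow_self 3 h4.ne'
    rcases h2 with h2 | h2 <;> rw [h2] at h5 <;> norm_num at h5
  obtain ⟨M, hM, h3M⟩ := exists_max_ideal_of_mem_nonunits h1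
  have hne : M ≠ ⊥ := by
    rintro rfl
    rw [Ideal.mem_bot] at h3M
    norm_num at h3M
  exact ⟨⟨M, hM.isPrime, hne⟩, mem_of_three h3 hS _ h3M⟩

variable (S)

/-- **Existence of the depleted vector over `ℚ(√-3)`**, `S` = the places dividing `N`. -/
theorem exists_depleted_Q3 [IsTotallyComplex K] (hK : Module.finrank ℚ K = 2) {s : 𝓞 K}
    (hs : s ^ 2 = -3) {N : ℕ} (hN : N ≠ 0) (h3 : 3 ∣ N)
    (hS : ∀ v, v ∈ S ↔ (N : 𝓞 K) ∈ v.asIdeal) [IsPrincipalIdealRing (OS S)]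
    {Xi : Type*} [MulAction (GL (Fin 2) (Rinf K)) Xi] {lam : OS S → ℂ} {wi : Xi → ℂ}
    {C : Set (Sp Xi (Rf S) → ℂ)}
    (hC : AutSp (OS S) (thetaA S (s : K)⁻¹) lam wi C) {z₀ : Xi} (hz₀ : wi z₀ ≠ 0) :
    ∃ ψ₀ ∈ C, ∃ m : ℕ,
      IsDepleted (OS S) (thetaA S (s : K)⁻¹) wi (Of S) (unitN S N hN) m ψ₀ := by
  have := Kap.nontrivial_Rf S (nonempty_of_three h3 hS)
  exact exists_depleted K (Kap.algebraMap_OS_injective S)
    (Kap.selfDual_A_Q3 S hK hs (mem_of_three h3 hS)) (Kap.isUnit_algebraMap_OS S)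
    (denseRange_algebraMap_Rf S) (Kap.eventually_isUnit S) (finDat_Q3 S hK hs hN h3 hS) hC hz₀

end Fermat.Agent.LT.Clas
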