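import Fermat.Agent.LT.Clas.Num

/-!
# The coefficients `lam : 𝓞 K → ℝ` of the classical form (helper96)

`lamK S x N b = ∏ U_{ord_v b} (x v)` if `b` is prime to `N`, `0` otherwise; the fields
`lam_one, lam_unit, lam_bad, lam_hecke₁, lam_hecke₂` of `KForm`, and the comparison with `numC`.
-/

set_option autoImplicit false
set_option linter.unusedSectionVars false

open NumberField IsDedekindDomain HeightOneSpectrum InfinitePlace
noncomputable section

namespace Fermat.Agent.LT.Clas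

open CFT.SUnits (ord div div_apply ord_mul ord_one ord_inv)
open Fermat.Agent.LT.Loc

variable {K : Type*} [Field K] [NumberField K]

/-- a nonzero integer as an element of `Kˣ` -/
def toK (b : 𝓞 K) (h : b ≠ 0) : Kˣ :=
  Units.mk0 (b : K) (fun h1 => h (RingOfIntegers.coe_injective (h1.trans (map_zero _).symm)))

theorem coe_toK (b : 𝓞 K) (h : b ≠ 0) : ((toK b h : Kˣ) : K) = b := rfl

theorem toK_mul {a b : 𝓞 K} (ha : a ≠ 0) (hb : b ≠ 0) :
    toK (a * b) (mul_ne_zero ha hb) = toK a ha * toK b hb := Units.ext (by simp [toK])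

theorem ord_toK_nonneg (v : HeightOneSpectrum (𝓞 K)) {b : 𝓞 K} (h : b ≠ 0) :
    0 ≤ ord v (toK b h) :=
  (CFT.SUnits.ord_nonneg_iff K v _).mpr (v.valuation_le_one b)

theorem ord_toK_pos_iff (v : HeightOneSpectrum (𝓞 K)) {b : 𝓞 K} (h : b ≠ 0) :
    0 < ord v (toK b h) ↔ b ∈ v.asIdeal := by
  have h0 := ord_toK_nonneg v h
  have h1 : v.valuation K (algebraMap (𝓞 K) K b) < 1 ↔ b ∈ v.asIdeal :=
    valuation_lt_one_iff_mem v b
  rw [← h1]
  have h2 := CFT.SUnits.ord_eq_zero_iff K v (toK b h)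
  have h3 : v.valuation K (algebraMap (𝓞 K) K b) ≤ 1 := v.valuation_le_one b
  constructor
  · intro h4
    refine lt_of_le_of_ne h3 fun h5 => ?_
    rw [h2.mpr h5] at h4
    exact lt_irrefl _ h4
  · intro h4
    refine lt_of_le_of_ne h0 fun h5 => h4.ne (h2.mp h5.symm)

theorem div_toK_unit {u : 𝓞 K} (hu : IsUnit u) (h : u ≠ 0) : div (R := 𝓞 K) (toK u h) = 0 := by
  ext v
  have h1 := ord_toK_nonneg v h
  have h2 : ¬ 0 < ord v (toK u h) := by
    rw [ord_toK_pos_iff]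
    exact fun h3 => v.isPrime.ne_top (Ideal.eq_top_of_isUnit_mem _ h3 hu)
  rw [div_apply, Finsupp.zero_apply]
  omega

theorem div_mul (a b : Kˣ) : div (R := 𝓞 K) (a * b) = div a + div b := by
  ext v
  rw [Finsupp.add_apply, div_apply, div_apply, div_apply, ord_mul]

/-- the place of a prime element -/
def plc {ϖ : 𝓞 K} (hϖ : Prime ϖ) : HeightOneSpectrum (𝓞 K) where
  asIdeal := Ideal.span {ϖ}
  isPrime := (Ideal.span_singleton_prime hϖ.ne_zero).mpr hϖ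
  ne_bot := by rw [Ne, Ideal.span_singleton_eq_bot]; exact hϖ.ne_zero

theorem div_toK_prime {ϖ : 𝓞 K} (hϖ : Prime ϖ) :
    div (R := 𝓞 K) (toK ϖ hϖ.ne_zero) = Finsupp.single (plc hϖ) 1 := by
  classical
  ext w
  rw [div_apply, Finsupp.single_apply]
  split_ifs with h
  · subst h
    have h1 := intValuation_singleton (plc hϖ) hϖ.ne_zero rfl
    have h2 := CFT.SUnits.valuation_eq_exp_neg_ord K (plc hϖ) (toK ϖ hϖ.ne_zero)
    rw [coe_toK] at h2
    have h3 : (plc hϖ).valuation K (ϖ : K) = (plc hϖ).intValuation ϖ := valuation_of_algebraMap _ _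
    rw [h3, h1, WithZero.exp_inj] at h2
    omega
  · have h1 := ord_toK_nonneg w hϖ.ne_zero
    have h2 : ¬ 0 < ord w (toK ϖ hϖ.ne_zero) := by
      rw [ord_toK_pos_iff]
      intro h3
      apply h
      have h4 : (plc hϖ).asIdeal ≤ w.asIdeal := by
        change Ideal.span {ϖ} ≤ _
        rwa [Ideal.span_singleton_le_iff_mem]
      have h5 : (plc hϖ).asIdeal.IsMaximal := (plc hϖ).isMaximal
      exact HeightOneSpectrum.ext (h5.eq_of_le w.isPrime.ne_top h4)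
    omega

theorem mem_plc_iff {ϖ : 𝓞 K} (hϖ : Prime ϖ) {b : 𝓞 K} (hb : b ≠ 0) :
    ϖ ∣ b ↔ 0 < ord (plc hϖ) (toK b hb) := by
  rw [ord_toK_pos_iff]
  exact (Ideal.mem_span_singleton).symm

variable (x : HeightOneSpectrum (𝓞 K) → ℝ) (N : 𝓞 K)

/-- the coefficients of the classical form -/
def lamK (b : 𝓞 K) : ℝ :=
  open Classical in if h : b ≠ 0 ∧ IsCoprime b N then chD x (div (toK b h.1)) else 0

theorem lamK_of {b : 𝓞 K} (h0 : b ≠ 0) (h : IsCoprime b N) :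
    lamK x N b = chD x (div (toK b h0)) := dif_pos ⟨h0, h⟩

theorem lamK_zero : lamK x N 0 = 0 := dif_neg (fun h => h.1 rfl)

theorem lamK_bad (b : 𝓞 K) (h : ¬ IsCoprime b N) : lamK x N b = 0 := dif_neg (fun h1 => h h1.2)

theorem lamK_one : lamK x N 1 = 1 := by
  rw [lamK_of x N one_ne_zero isCoprime_one_left]
  have : div (R := 𝓞 K) (toK (1 : 𝓞 K) one_ne_zero) = 0 := div_toK_unit isUnit_one one_ne_zero
  rw [this, chD_zero]

theorem lamK_unit (u : (𝓞 K)ˣ) (b : 𝓞 K) : lamK x N (u * b) = lamK x N b := by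
  rcases eq_or_ne b 0 with rfl | hb
  · rw [mul_zero]
  · have hc : IsCoprime ((u : 𝓞 K) * b) N ↔ IsCoprime b N := by
      rw [IsCoprime.mul_left_iff]
      exact ⟨fun h => h.2, fun h => ⟨⟨((u⁻¹ : (𝓞 K)ˣ) : 𝓞 K), 0, by simp⟩, h⟩⟩
    by_cases h : IsCoprime b N
    · rw [lamK_of x N (mul_ne_zero u.ne_zero hb) (hc.mpr h), lamK_of x N hb h,
        toK_mul u.ne_zero hb, div_mul, div_toK_unit u.isUnit u.ne_zero, zero_add]
    · rw [lamK_bad x N _ h, lamK_bad x N _ (fun h1 => h (hc.mp h1))]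

theorem isCoprime_prime {ϖ : 𝓞 K} (hϖ : Prime ϖ) (h : ¬ ϖ ∣ N) : IsCoprime ϖ N := by
  have h1 : (plc hϖ).asIdeal.IsMaximal := (plc hϖ).isMaximal
  have h2 : N ∉ (plc hϖ).asIdeal := fun h3 => h (Ideal.mem_span_singleton.mp h3)
  obtain ⟨y, i, hi, hy⟩ := h1.exists_inv h2
  obtain ⟨c, hc⟩ := Ideal.mem_span_singleton.mp (show i ∈ Ideal.span {ϖ} from hi)
  exact ⟨c, y, by rw [← hy, hc]; ring⟩

theorem lamK_hecke₁ (ϖ : 𝓞 K) (hϖ : Prime ϖ) (h : ¬ ϖ ∣ N) (b : 𝓞 K) (hb : ¬ ϖ ∣ b) :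
    lamK x N (ϖ * b) = lamK x N ϖ * lamK x N b := by
  have hb0 : b ≠ 0 := fun h1 => hb (by rw [h1]; exact dvd_zero ϖ)
  have hϖN := isCoprime_prime N hϖ h
  by_cases hc : IsCoprime b N
  · have h1 : div (R := 𝓞 K) (toK b hb0) (plc hϖ) = 0 := by
      have h2 := ord_toK_nonneg (plc hϖ) hb0
      have h3 : ¬ 0 < ord (plc hϖ) (toK b hb0) := fun h4 => hb ((mem_plc_iff hϖ hb0).mpr h4)
      rw [div_apply]
      omega
    rw [lamK_of x N (mul_ne_zero hϖ.ne_zero hb0) (hϖN.mul_left hc), lamK_of x N hϖ.ne_zero hϖN,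
      lamK_of x N hb0 hc, toK_mul hϖ.ne_zero hb0, div_mul, div_toK_prime hϖ, add_comm,
      chD_add_single x _ _ h1, chD_single]
  · rw [lamK_bad x N b hc, mul_zero, lamK_bad x N _ (fun h1 => hc (h1.of_mul_left_right))]

theorem lamK_hecke₂ (ϖ : 𝓞 K) (hϖ : Prime ϖ) (h : ¬ ϖ ∣ N) (b : 𝓞 K) :
    lamK x N (ϖ * (ϖ * b)) + lamK x N b = lamK x N ϖ * lamK x N (ϖ * b) := by
  rcases eq_or_ne b 0 with rfl | hb0
  · simp [lamK_zero]
  have hϖN := isCoprime_prime N hϖ h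
  by_cases hc : IsCoprime b N
  · have h1 : 0 ≤ div (R := 𝓞 K) (toK b hb0) (plc hϖ) := ord_toK_nonneg (plc hϖ) hb0
    have hb1 := mul_ne_zero hϖ.ne_zero hb0
    rw [lamK_of x N (mul_ne_zero hϖ.ne_zero hb1) (hϖN.mul_left (hϖN.mul_left hc)),
      lamK_of x N hϖ.ne_zero hϖN, lamK_of x N hb1 (hϖN.mul_left hc),
      lamK_of x N hb0 hc, toK_mul hϖ.ne_zero hb1, toK_mul hϖ.ne_zero hb0, div_mul, div_mul,
      div_toK_prime hϖ, add_comm (Finsupp.single (plc hϖ) 1), add_comm (Finsupp.single (plc hϖ) 1),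
      chD_add_two x _ _ h1, chD_single]
    ring
  · rw [lamK_bad x N b hc, lamK_bad x N (ϖ * b) (fun h1 => hc (h1.of_mul_left_right)),
      lamK_bad x N (ϖ * (ϖ * b)) (fun h1 => hc (h1.of_mul_left_right.of_mul_left_right))]
    ring

theorem lamK_prime (ϖ : 𝓞 K) (hϖ : Prime ϖ) (h : ¬ ϖ ∣ N) : lamK x N ϖ = x (plc hϖ) := by
  rw [lamK_of x N hϖ.ne_zero (isCoprime_prime N hϖ h), div_toK_prime hϖ, chD_single]

/-! ### comparison with `numC` -/

theorem nmD_div (a : Kˣ) : nmD (div (R := 𝓞 K) a) = ((|Algebra.norm ℚ (a : K)| : ℚ) : ℝ) := by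
  have h1 : (FractionalIdeal.absNorm ((CFT.SUnits.idealOf K (CFT.SUnits.div (R := 𝓞 K) a) :
      (FractionalIdeal (nonZeroDivisors (𝓞 K)) K)ˣ) : FractionalIdeal (nonZeroDivisors (𝓞 K)) K)) =
        |Algebra.norm ℚ (a : K)| := by
    rw [CFT.SUnits.idealOf_div, coe_toPrincipalIdeal, FractionalIdeal.absNorm_span_singleton]
  rw [CFT.SUnits.coe_idealOf, Finsupp.prod, map_prod] at h1
  simp only [map_zpow₀, FractionalIdeal.coeIdeal_absNorm] at h1
  rw [← h1, nmD, Finsupp.prod]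
  push_cast
  rfl

theorem abs_norm_eq_sq [IsTotallyComplex K] (h : Module.finrank ℚ K = 2) (σ : K →+* ℂ) (a : K) :
    ((|Algebra.norm ℚ a| : ℚ) : ℝ) = ‖σ a‖ ^ 2 := by
  have h3 := InfinitePlace.prod_eq_abs_norm a
  have h5 : InfinitePlace.nrComplexPlaces K = 1 := by
    have := IsTotallyComplex.finrank K
    omega
  have h6 : Fintype.card (InfinitePlace K) = 1 := by
    rw [InfinitePlace.card_eq_nrRealPlaces_add_nrComplexPlaces,
      IsTotallyComplex.nrRealPlaces_eq_zero, h5]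
  obtain ⟨w, hw⟩ := Fintype.card_eq_one_iff.mp h6
  have h7 : (Finset.univ : Finset (InfinitePlace K)) = {InfinitePlace.mk σ} := by
    ext v
    simp [hw v, hw (InfinitePlace.mk σ)]
  rw [h7, Finset.prod_singleton, IsTotallyComplex.mult_eq, InfinitePlace.apply] at h3
  rw [h3]

variable (S : Finset (HeightOneSpectrum (𝓞 K)))

/-- `𝓞 K → OS S` -/
def toOS : 𝓞 K →+* OS S := algebraMap (𝓞 K) (OS S)

theorem coe_toOS (b : 𝓞 K) : ((toOS S b : OS S) : K) = b := rfl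

theorem toOS_injective : Function.Injective (toOS S) := fun _ _ h =>
  RingOfIntegers.coe_injective (congrArg (Subtype.val : OS S → K) h)

theorem toOS_ne_zero {b : 𝓞 K} (h : b ≠ 0) : toOS S b ≠ 0 :=
  fun h1 => h (toOS_injective S (h1.trans (map_zero _).symm))

theorem toU_toOS {b : 𝓞 K} (h : b ≠ 0) : toU (toOS S b) (toOS_ne_zero S h) = toK b h :=
  Units.ext rfl

/-- for `b` prime to the places of `S` -/
theorem divS_toK {b : 𝓞 K} (h : b ≠ 0) (hb : ∀ v ∈ S, b ∉ v.asIdeal) :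
    divS S (toK b h) = div (toK b h) := by
  ext v
  by_cases hv : v ∈ S
  · rw [divS_apply_mem S hv, div_apply]
    have h1 := ord_toK_nonneg v h
    have h2 : ¬ 0 < ord v (toK b h) := fun h3 => hb v hv ((ord_toK_pos_iff v h).mp h3)
    omega
  · rw [divS_apply S hv, div_apply]

theorem isCoprime_iff (hN : N ≠ 0) (hS : ∀ v, v ∈ S ↔ N ∈ v.asIdeal) (b : 𝓞 K) :
    IsCoprime b N ↔ ∀ v ∈ S, b ∉ v.asIdeal := by
  constructor
  · rintro ⟨u, w, h⟩ v hv hb
    exact v.isPrime.ne_top ((Ideal.eq_top_iff_one _).mpr (h ▸ v.asIdeal.add_mem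
      (v.asIdeal.mul_mem_left _ hb) (v.asIdeal.mul_mem_left _ ((hS v).mp hv))))
  · intro h
    rw [← Ideal.isCoprime_span_singleton_iff, Ideal.isCoprime_iff_sup_eq]
    by_contra h1
    obtain ⟨M, hM, hM1⟩ := Ideal.exists_le_maximal _ h1
    have h2 : N ∈ M := hM1 (Ideal.mem_sup_right (Ideal.mem_span_singleton_self N))
    have h3 : b ∈ M := hM1 (Ideal.mem_sup_left (Ideal.mem_span_singleton_self b))
    have h4 : M ≠ ⊥ := fun h5 => hN (by rw [h5] at h2; exact h2)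
    exact h ⟨M, hM.isPrime, h4⟩ ((hS ⟨M, hM.isPrime, h4⟩).mpr h2) h3

theorem numC_mul_norm [IsTotallyComplex K] (hK : Module.finrank ℚ K = 2) (σ : K →+* ℂ)
    {b : 𝓞 K} (h : b ≠ 0) (hb : ∀ v ∈ S, b ∉ v.asIdeal) (hc : IsCoprime b N) :
    numC S x (toOS S b) * ‖σ b‖ = lamK x N b := by
  rw [numC_of_ne S x (toOS_ne_zero S h), toU_toOS S h, divS_toK S h hb, lamK_of x N h hc,
    nmD_div, coe_toK, abs_norm_eq_sq hK σ, ← Complex.ofReal_mul]
  congr 1
  rw [Real.sqrt_sq (norm_nonneg _)]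
  have : ‖σ (b : K)‖ ≠ 0 := by
    rw [norm_ne_zero_iff, Ne, map_eq_zero]
    exact fun h1 => h (RingOfIntegers.coe_injective (h1.trans (map_zero _).symm))
  field_simp

theorem lamE_toOS [IsTotallyComplex K] (hK : Module.finrank ℚ K = 2) (σ : K →+* ℂ)
    {b : 𝓞 K} (h : b ≠ 0) (hb : ∀ v ∈ S, b ∉ v.asIdeal) (hc : IsCoprime b N) :
    lamE S x (toOS S b) = ((‖σ b‖ * lamK x N b : ℝ) : ℂ) := by
  rw [lamE_of_ne S x (toOS_ne_zero S h), toU_toOS S h, divS_toK S h hb, lamK_of x N h hc,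
    nmD_div, coe_toK, abs_norm_eq_sq hK σ, Real.sqrt_sq (norm_nonneg _)]

end Fermat.Agent.LT.Clas
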