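import Fermat.Agent.LT.Clas.Exp
import Fermat.Agent.LT.Clas.FinK
import Fermat.Agent.LT.Clas.NumK

/-!
# The expansions over `𝓞 K` of the functions of `W` (main theorem)
-/

set_option autoImplicit false

namespace Fermat.Agent.LT.Clas

open MeasureTheory Topology Kap NumberField IsDedekindDomain
open Fermat.Agent.LT.Chr hiding Rf
open scoped Real

variable {K : Type} [Field K] [NumberField K]

theorem one_le_norm [IsTotallyComplex K] (hK : Module.finrank ℚ K = 2) (σ : K →+* ℂ) {b : 𝓞 K}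
    (hb : b ≠ 0) : 1 ≤ ‖σ b‖ := by
  have h1 := abs_norm_eq_sq hK σ (b : K)
  have h2 : (1 : ℝ) ≤ ((|Algebra.norm ℚ (b : K)| : ℚ) : ℝ) := by
    have h3 : Algebra.norm ℚ (b : K) = ((Algebra.norm ℤ b : ℤ) : ℚ) :=
      (Algebra.coe_norm_int b).symm
    have h4 : Algebra.norm ℤ b ≠ 0 := by
      rw [Ne, Algebra.norm_eq_zero_iff]
      exact hb
    have h5 : (1 : ℤ) ≤ |Algebra.norm ℤ b| := Int.one_le_abs h4
    rw [h3]
    exact_mod_cast h5
  rw [h1] at h2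
  by_contra hcon
  push Not at hcon
  have := norm_nonneg (σ (b : K))
  nlinarith

theorem norm_sigma_s (σ : K →+* ℂ) {s : 𝓞 K} (hs : s ^ 2 = -3) :
    ‖σ s‖ = √3 := by
  have h1 : (σ (s : K)) ^ 2 = -3 := by
    rw [← map_pow, sq3_coe hs, map_neg, map_ofNat]
  have h3 : ‖σ (s : K)‖ ^ 2 = 3 := by
    rw [← norm_pow, h1, norm_neg]
    norm_num
  rw [← h3, Real.sqrt_sq (norm_nonneg _)]

/-- the frequencies -/
noncomputable def freq (σ : K →+* ℂ) (s : 𝓞 K) : Submodule ℤ ℂ :=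
  AddSubgroup.toIntSubmodule (AddMonoidHom.range
    (((AddMonoidHom.mulRight (σ s)⁻¹).comp (σ : K →+ ℂ)).comp
      (algebraMap (𝓞 K) K : 𝓞 K →+ K)))

theorem mem_freq (σ : K →+* ℂ) (s : 𝓞 K) {z : ℂ} : z ∈ freq σ s ↔ ∃ b : 𝓞 K, σ b / σ s = z := by
  show (∃ b : 𝓞 K, _ = z) ↔ _
  rfl

theorem discrete_freq [IsTotallyComplex K] (hK : Module.finrank ℚ K = 2) (σ : K →+* ℂ) {s : 𝓞 K}
    (hs : s ^ 2 = -3) : DiscreteTopology (freq σ s) := by
  have h0 : σ (s : K) ≠ 0 := by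
    rw [← norm_pos_iff, norm_sigma_s σ hs]
    positivity
  refine discreteTopology_of_isOpen_singleton_zero ?_
  rw [Metric.isOpen_singleton_iff]
  refine ⟨1 / √3, by positivity, ?_⟩
  rintro ⟨z, hz⟩ hd
  obtain ⟨b, rfl⟩ := (mem_freq σ s).mp hz
  by_contra hne
  have hb : b ≠ 0 := by
    rintro rfl
    apply hne
    apply Subtype.ext
    simp
  have h1 := one_le_norm hK σ hb
  rw [dist_zero_right] at hd
  have h2 : ‖σ (b : K) / σ (s : K)‖ < 1 / √3 := hd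
  rw [norm_div, norm_sigma_s σ hs, div_lt_div_iff_of_pos_right (by positivity)] at h2
  linarith

variable {S : Finset (HeightOneSpectrum (𝓞 K))}

theorem inv_natCast_mem_OS {N : ℕ} (hS : ∀ v, v ∈ S ↔ (N : 𝓞 K) ∈ v.asIdeal) :
    ((N : K))⁻¹ ∈ Loc.OS S := by
  intro v hv
  have h1 : (N : 𝓞 K) ∉ v.asIdeal := fun h => hv ((hS v).mpr h)
  have h2 : v.valuation K (((N : 𝓞 K) : 𝓞 K) : K) = 1 := by
    refine le_antisymm (v.valuation_le_one _) ?_
    by_contra hcon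
    push Not at hcon
    exact h1 ((HeightOneSpectrum.valuation_lt_one_iff_mem v _).mp hcon)
  have h3 : (((N : 𝓞 K) : 𝓞 K) : K) = (N : K) := by simp
  rw [h3] at h2
  rw [map_inv₀, h2, inv_one]

/-- `b ↦ b / N ^ k`, `𝓞 K → OS S`. -/
noncomputable def jk {N : ℕ} (hN : N ≠ 0) (hS : ∀ v, v ∈ S ↔ (N : 𝓞 K) ∈ v.asIdeal) (k : ℕ)
    (b : 𝓞 K) : Loc.OS S :=
  ⟨(b : K) * ((N : K)⁻¹) ^ k,
    (Loc.OS S).mul_mem (toOS S b).2 ((Loc.OS S).pow_mem (inv_natCast_mem_OS hS) k)⟩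

theorem coe_jk {N : ℕ} (hN : N ≠ 0) (hS : ∀ v, v ∈ S ↔ (N : 𝓞 K) ∈ v.asIdeal) (k : ℕ)
    (b : 𝓞 K) : ((jk hN hS k b : Loc.OS S) : K) = (b : K) * ((N : K)⁻¹) ^ k := rfl

theorem coe_jk_mul {N : ℕ} (hN : N ≠ 0) (hS : ∀ v, v ∈ S ↔ (N : 𝓞 K) ∈ v.asIdeal) (k : ℕ)
    (b : 𝓞 K) : ((jk hN hS k b : Loc.OS S) : K) * (N : K) ^ k = b := by
  have h : (N : K) ≠ 0 := Nat.cast_ne_zero.mpr hN
  rw [coe_jk, mul_assoc, ← mul_pow, inv_mul_cancel₀ h, one_pow, mul_one]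

theorem jk_injective {N : ℕ} (hN : N ≠ 0) (hS : ∀ v, v ∈ S ↔ (N : 𝓞 K) ∈ v.asIdeal) (k : ℕ) :
    Function.Injective (jk hN hS k) := by
  intro b b' h
  apply RingOfIntegers.coe_injective
  exact (coe_jk_mul hN hS k b).symm.trans
    ((congrArg (fun t : Loc.OS S => (t : K) * (N : K) ^ k) h).trans (coe_jk_mul hN hS k b'))

theorem natPow_ne {N : ℕ} (hN : N ≠ 0) (k : ℕ) : ((N : ℂ)) ^ k ≠ 0 :=
  pow_ne_zero _ (Nat.cast_ne_zero.mpr hN)

variable [IsTotallyComplex K] {lam : Loc.OS S → ℂ} {w₀ : InfinitePlace K} {s : 𝓞 K}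
  [IsPrincipalIdealRing (Loc.OS S)]

/-- **The expansion** of `P ↦ ψ (N ^ k P, 1)` over `𝓞 K`, for a bounded function `ψ` of `W`
invariant under `n(N ^ k O_f)`. -/
theorem exists_hasExp (hK : Module.finrank ℚ K = 2) (hs : s ^ 2 = -3) {N : ℕ} (hN : N ≠ 0)
    (h3 : 3 ∣ N) (hS : ∀ v, v ∈ S ↔ (N : 𝓞 K) ∈ v.asIdeal) {ψ : Sp (Xi K) (Loc.Rf S) → ℂ}
    (h : InW (Loc.OS S) (thetaA S (s : K)⁻¹) lam (wiK w₀ s) ψ) {M : ℝ} (hM : ∀ x, ‖ψ x‖ ≤ M)
    {k : ℕ} (hk : ∀ y ∈ Loc.Of S, rt (nn ((unitN S N hN : Loc.Rf S) ^ k * y)) ψ = ψ) :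
    ∃ c : 𝓞 K → ℂ,
      HasExp w₀.embedding s c
        (fun P => ψ ⟨ptX (scl ((N : ℂ) ^ k) (natPow_ne hN k) P), 1⟩) ∧
      ∀ (b : 𝓞 K) (a : Loc.OS S), (a : K) * (N : K) ^ k = b → ∀ P,
        wh (Loc.OS S) (thetaA S (s : K)⁻¹) ψ a
          (⟨ptX (scl ((N : ℂ) ^ k) (natPow_ne hN k) P), 1⟩ : Sp (Xi K) (Loc.Rf S)) =
          c b * whit w₀.embedding s b P := by
  classical
  have hθ := selfDual_A_Q3 S hK hs (mem_of_three h3 hS)
  have hs0 : (s : K)⁻¹ ≠ 0 := inv_ne_zero (sq3_ne_zero hs)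
  set σ := w₀.embedding with hσ
  set θ := thetaA S (s : K)⁻¹ with hθ'
  have hσs : σ (s : K) ≠ 0 := by
    rw [← norm_pos_iff, norm_sigma_s σ hs]
    positivity
  obtain ⟨l, hl0, hl⟩ := exists_coef hθ h 1
  set α : ℂ := (N : ℂ) ^ k with hα
  have hα0 : α ≠ 0 := natPow_ne hN k
  have hαK : σ ((N : K) ^ k) = α := by simp [hα]
  -- the coefficients at the scaled points
  have hcoef : ∀ (a : Loc.OS S) (P : H3),
      wh (Loc.OS S) θ ψ a (⟨ptX (scl α hα0 P), 1⟩ : Sp (Xi K) (Loc.Rf S)) =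
        (l a * (‖α‖ : ℂ)) * whitA σ s (σ ((a : K) * (N : K) ^ k)) P := by
    intro a P
    rw [hl, whitA_scl, map_mul, hαK, mul_comm α (σ (a : K))]
    ring
  -- support
  have hsupp : ∀ a : Loc.OS S, l a ≠ 0 → ∃ b : 𝓞 K, (b : K) = (a : K) * (N : K) ^ k := by
    intro a ha
    have ha0 : a ≠ 0 := fun h0 => ha (by rw [h0, hl0])
    have ha' : σ (a : K) ≠ 0 := by
      rw [Ne, map_eq_zero]
      intro h0
      exact ha0 (Subtype.ext h0)
    have h1 := mem_Of_of_wh_ne_zero hθ h (finDat_Q3 S hK hs hN h3 hS) hk (a := a)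
      (P := H3.mk 0 1 one_pos) (by
        rw [hl]
        exact mul_ne_zero ha (whitA_ne_zero σ s ha' _))
    refine Loc.exists_int_of_mem S ?_ ?_
    · have hNk : ((N : K)) ^ k ∈ Loc.OS S := by
        have := (toOS S ((N : 𝓞 K) ^ k)).2
        rw [coe_toOS] at this
        simpa using this
      exact (Loc.OS S).mul_mem a.2 hNk
    · have h2 : algebraMap K (Loc.Rf S) ((a : K) * (N : K) ^ k) =
          (unitN S N hN : Loc.Rf S) ^ k * algebraMap (Loc.OS S) (Loc.Rf S) a := by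
        rw [map_mul, map_pow, mul_comm]
        congr 1
      rw [h2]
      exact h1
  have : DiscreteTopology (freq σ s) := discrete_freq hK σ hs
  have hterm : ∀ (a : K) (P : H3) (t : ℂ),
      t * (P.y * besselK 0 (4 * π * ‖σ a / σ s‖ * P.y)) *
      Complex.exp (2 * π * Complex.I * ((2 * (σ a * P.z / σ s).re : ℝ) : ℂ)) =
      t * whitA σ s (σ a) P := by
    intro a P t
    have h1 : 4 * π * ‖σ a / σ s‖ * P.y = 4 * π * ‖σ a‖ * P.y / √3 := by
      rw [norm_div, norm_sigma_s σ hs]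
      ring
    have h2 := besselK_ofReal 0 (4 * π * ‖σ a‖ * P.y / √3)
    rw [Complex.ofReal_zero] at h2
    rw [h1, h2]
    unfold whitA bK0
    push_cast
    ring
  -- the expansion
  have main := (Kap.whittaker (X := Sp (Xi K) (Loc.Rf S)) hθ (isUnit_algebraMap_OS S)
    (exists_thetaA_ne_one S hs0) h.aut hM Four.isK_besselK_zero (freq σ s)
    (w := fun a => σ ((a : K) * (N : K) ^ k) / σ s) (l := fun a => l a * (‖α‖ : ℂ))
    (e := fun a z => Complex.exp (2 * π * Complex.I *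
      ((2 * (σ ((a : K) * (N : K) ^ k) * z / σ s).re : ℝ) : ℂ)))
    (x := fun z y => ⟨ptX (scl α hα0 (H3.ofPair (z, y))), 1⟩) ?_ ?_ ?_ ?_).1
  · have hjk : ∀ b : 𝓞 K, ((jk hN hS k b : Loc.OS S) : K) * (N : K) ^ k = b :=
      fun b => coe_jk_mul hN hS k b
    refine ⟨fun b => l (jk hN hS k b) * (‖α‖ : ℂ), ⟨?_, fun P => ?_⟩, fun b a hab P => ?_⟩
    · have : jk hN hS k 0 = 0 := by
        apply Subtype.ext
        rw [coe_jk]
        simp
      simp only [this, hl0, zero_mul]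
    · have h1 := main P.z P.y P.y_pos
      have h2 : H3.ofPair (P.z, P.y) = P := H3.ofPair_coe P
      rw [h2] at h1
      have h4 := (Function.Injective.hasSum_iff (jk_injective hN hS k) (fun a ha => ?_)).mpr h1
      · refine Eq.mp (congrArg (fun f => HasSum f _) (funext fun b => ?_)) h4
        simp only [Function.comp_apply, hjk]
        rw [bterm_eq, whit_eq_whitA, ← hterm]
      · have h5 : l a = 0 := by
          by_contra hne
          obtain ⟨b, hb⟩ := hsupp a hne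
          refine ha ⟨b, ?_⟩
          apply Subtype.ext
          have hNk : (N : K) ^ k ≠ 0 := pow_ne_zero _ (Nat.cast_ne_zero.mpr hN)
          exact mul_right_cancel₀ hNk ((hjk b).trans hb)
        simp only [h5, zero_mul]
    · have h5 : a = jk hN hS k b := by
        apply Subtype.ext
        have hNk : (N : K) ^ k ≠ 0 := pow_ne_zero _ (Nat.cast_ne_zero.mpr hN)
        exact mul_right_cancel₀ hNk (hab.trans (hjk b).symm)
      rw [hcoef, h5, hjk b, whit_eq_whitA]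
  · intro a ha
    have hla : l a ≠ 0 := left_ne_zero_of_mul ha
    have ha0 : a ≠ 0 := fun h0 => hla (by rw [h0, hl0])
    obtain ⟨b, hb⟩ := hsupp a hla
    refine ⟨(mem_freq σ s).mpr ⟨b, by rw [hb]⟩, ?_⟩
    refine div_ne_zero ?_ hσs
    rw [map_mul, hαK]
    refine mul_ne_zero ?_ hα0
    rw [Ne, map_eq_zero]
    intro h0
    exact ha0 (Subtype.ext h0)
  · intro a b _ _ hab
    have h1 : σ ((a : K) * (N : K) ^ k) = σ ((b : K) * (N : K) ^ k) :=
      (div_left_inj' hσs).mp hab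
    have hNk : (N : K) ^ k ≠ 0 := pow_ne_zero _ (Nat.cast_ne_zero.mpr hN)
    exact Subtype.ext (mul_right_cancel₀ hNk (σ.injective h1))
  · intro a z
    rw [Complex.norm_exp]
    have : (2 * π * Complex.I * ((2 * (σ ((a : K) * (N : K) ^ k) * z / σ s).re : ℝ) : ℂ)).re =
        0 := by
      simp
    rw [this, Real.exp_zero]
  · intro a z y hy
    rw [hcoef, H3.ofPair_of_pos (p := (z, y)) hy, ← hterm]
    rw [H3.y_mk, H3.z_mk]

end Fermat.Agent.LT.Clas
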