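import Fermat.Agent.LT.Clas.Main
import Fermat.Agent.LT.Clas.ClQ3
import Fermat.Agent.LT.Desc.InW

/-!
# From a form on `X_∞ × D U` over `ℚ(√-3)` to a classical form

`exists_kform_of_isForm`: block B4.5 (`StepK`) without the reference to `Steps.lean`.
-/

set_option autoImplicit false

namespace Fermat.Agent.LT.Clas

open MeasureTheory Topology Kap NumberField IsDedekindDomain
open Fermat.Agent.LT.Chr hiding Rf
open scoped Real

variable {K : Type} [Field K] [NumberField K] {S : Finset (HeightOneSpectrum (𝓞 K))}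

theorem isLam_lamE (hS : CFT.Global.ClTrivial S) (a : HeightOneSpectrum (𝓞 K) → ℝ) :
    Desc.IsLam S (fun v => ((√(Ideal.absNorm v.asIdeal) * a v : ℝ) : ℂ)) (lamE S a) := by
  intro p v hv h
  have hp : Prime p := prime_of_span h
  obtain ⟨v', hv', h'⟩ := exists_divS_prime S hS hp
  have h1 : v' = v := placeIdeal_injective ((placeIdeal_eq_span S hp.ne_zero hv' h').trans h.symm)
  subst h1
  rw [lamE_of_ne S a hp.ne_zero, h', nmD_single, chD_single]

theorem whit_eq_H3 (w : InfinitePlace K) {s : 𝓞 K} (hs : s ^ 2 = -3) (b : 𝓞 K) (Q : H3) :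
    whit w.embedding s b Q = H3.whit 0 (w.embedding (b : K) / w.embedding (s : K)) Q := by
  unfold whit H3.whit H3.e2 eTr
  have h2 : 4 * π * ‖w.embedding (b : K) / w.embedding (s : K)‖ * Q.y =
      4 * π * ‖w.embedding (b : K)‖ * Q.y / √3 := by
    rw [norm_div, norm_sigma_s w.embedding hs]
    ring
  have h3 := besselK_ofReal 0 (4 * π * ‖w.embedding (b : K)‖ * Q.y / √3)
  rw [Complex.ofReal_zero] at h3
  have h4 : w.embedding (b : K) / w.embedding (s : K) * Q.z =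
      w.embedding (b : K) * Q.z / w.embedding (s : K) := by ring
  rw [h2, h3, h4]
  unfold bK0
  push_cast
  ring

theorem wiP_eq [IsTotallyComplex K] (hK : Module.finrank ℚ K = 2) (w₀ : InfinitePlace K)
    {s : 𝓞 K} (hs : s ^ 2 = -3) :
    Desc.wiP (fun _ : InfinitePlace K => 0) ((s : K)⁻¹) = wiK w₀ s := by
  funext z
  have h7 : (Finset.univ : Finset (InfinitePlace K)) = {w₀} := by
    ext v
    simp [place_eq hK v w₀]
  unfold Desc.wiP wiK
  rw [h7, Finset.prod_singleton, whit_eq_H3 w₀ hs]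
  congr 1
  simp

theorem finite_bad (N : ℕ) (hN : N ≠ 0) :
    {v : HeightOneSpectrum (𝓞 K) | (N : 𝓞 K) ∈ v.asIdeal}.Finite := by
  have h1 : Ideal.span {(N : 𝓞 K)} ≠ 0 := by
    rw [Ne, Ideal.zero_eq_bot, Ideal.span_singleton_eq_bot]
    exact Nat.cast_ne_zero.mpr hN
  refine (Ideal.finite_factors h1).subset fun v hv => ?_
  show v.asIdeal ∣ Ideal.span {(N : 𝓞 K)}
  rw [Ideal.dvd_span_singleton]
  exact hv

/-- **B4.5.** -/
theorem exists_kform_of_isForm [IsTotallyComplex K] (w : InfinitePlace K) {s : 𝓞 K}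
    (hK : Module.finrank ℚ K = 2) (hs : s ^ 2 = -3) {N : ℕ} (hN : N ≠ 0)
    {a : HeightOneSpectrum (𝓞 K) → ℝ} {U : Lvl.Lev K} {g : Xi K × Lvl.D U → ℂ}
    (hg : IsForm K U {v | (N : 𝓞 K) ∈ v.asIdeal} a g) :
    ∃ (N' : ℕ) (F : KForm w.embedding s N'), N ∣ N' ∧
      ∀ (ϖ : 𝓞 K) (v : HeightOneSpectrum (𝓞 K)), v.asIdeal = Ideal.span {ϖ} →
        ((N' : ℕ) : 𝓞 K) ∉ v.asIdeal → F.lam ϖ = a v := by
  classical
  have h3N : 3 * N ≠ 0 := by omega
  let S : Finset (HeightOneSpectrum (𝓞 K)) := (finite_bad (K := K) (3 * N) h3N).toFinset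
  have hS : ∀ v, v ∈ S ↔ ((3 * N : ℕ) : 𝓞 K) ∈ v.asIdeal := fun v => by
    simp only [S, Set.Finite.mem_toFinset]
    rfl
  have hsub : (finite_bad (K := K) N hN).toFinset ⊆ S := by
    intro v hv
    rw [Set.Finite.mem_toFinset] at hv
    rw [hS]
    push_cast
    exact v.asIdeal.mul_mem_left _ hv
  have hcl := clTrivial_Q3 hK hs S
  have := pid_OS_Q3 hK hs S
  have hg' : IsForm K U (((finite_bad (K := K) N hN).toFinset : Finset _) : Set _) a g := by
    rwa [Set.Finite.coe_toFinset]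
  have h1 := (Desc.eigF_of_isForm hg').mono hsub
  have h3 : 3 ∣ 3 * N := Dvd.intro _ rfl
  have hθ := selfDual_A_Q3 S hK hs (mem_of_three h3 hS)
  have hs0 : (s : K)⁻¹ ≠ 0 := inv_ne_zero (sq3_ne_zero hs)
  have h2 := h1.inW_of_isEig hs0 hθ (ν := fun _ => 0) (fun _ _ h => h)
    (h1.isEig_lam (isLam_lamE hcl a))
  rw [wiP_eq hK w hs] at h2
  obtain ⟨z, hz⟩ := hg.ne
  have hne : ∃ q, Adapt.toKap S U g q ≠ 0 := by
    by_contra hcon
    push Not at hcon
    exact hz ((Adapt.forall_toKap hcl h1.offS hg.inv (fun t => t = 0)).mpr hcon z)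
  obtain ⟨M, hM⟩ := hg.bdd
  obtain ⟨m, F, hm, hF⟩ := exists_kform hK hs h3N h3 hS hcl h2 ⟨M, fun q => hM _⟩
    (fun x => hg.cont (Adapt.jS S U x)) hne
  have hm0 : m ≠ 0 := by omega
  refine ⟨(3 * N) ^ m, F, (Dvd.intro_left 3 rfl).trans (dvd_pow_self _ hm0), ?_⟩
  intro ϖ v hv hbad
  have hϖ0 : ϖ ≠ 0 := by
    rintro rfl
    apply v.ne_bot
    rw [hv]
    simp
  have hϖ : Prime ϖ := by
    rw [← Ideal.span_singleton_prime hϖ0, ← hv]
    exact v.isPrime
  have hplc : plc hϖ = v := HeightOneSpectrum.ext hv.symm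
  have hnd : ¬ ϖ ∣ ((3 * N : ℕ) : 𝓞 K) := by
    intro h4
    apply hbad
    rw [hv, Ideal.mem_span_singleton]
    push_cast at h4 ⊢
    exact dvd_pow h4 hm0
  rw [hF, lamK_prime a _ ϖ hϖ hnd, hplc]

end Fermat.Agent.LT.Clas
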