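import Fermat.Agent.LT.BesselK
import Mathlib.Algebra.Module.ZLattice.Summable

/-!
# Whittaker expansions over a lattice: growth of the coefficients, summability, decay

`k` is a function with the two properties of `K_ν` that matter (`IsK`).  A family of terms
`l i * (y * k (4 π |w i| y))`, with frequencies in a discrete subgroup of `ℂ` and bounded
uniformly in `i` and `y`, is summable, and its sum decays exponentially for `y ≥ y₀`.
-/

set_option autoImplicit false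

open MeasureTheory Set Filter Topology Module
open scoped Real Nat

namespace Fermat.Agent.LT.Four

/-- what is used of the function `K_ν` -/
structure IsK (k : ℝ → ℂ) : Prop where
  ne : ∃ x : ℝ, 0 < x ∧ k x ≠ 0
  le : ∀ x₀ : ℝ, 0 < x₀ → ∃ C : ℝ, 0 ≤ C ∧ ∀ x, x₀ ≤ x → ‖k x‖ ≤ C * Real.exp (-x)

theorem isK_besselK {ν : ℂ} (h : ∃ x : ℝ, 0 < x ∧ besselK ν x ≠ 0) : IsK (besselK ν) where
  ne := h
  le x₀ h₀ := by
    refine ⟨Real.exp x₀ * (bkR ν.re x₀ / 2), by have := (bkR_pos ν.re h₀).le; positivity,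
      fun x hx => ?_⟩
    have h1 := norm_besselK_le_exp ν h₀ hx
    refine h1.trans (le_of_eq ?_)
    rw [show -(x - x₀) = x₀ + -x by ring, Real.exp_add]
    ring

theorem isK_besselK_zero : IsK (besselK 0) :=
  isK_besselK ⟨1, one_pos, by
    obtain ⟨r, hr, h⟩ := besselK_zero_pos one_pos
    rw [h]
    exact_mod_cast hr.ne'⟩

variable {k : ℝ → ℂ}

/-- growth of the coefficients from boundedness -/
theorem IsK.growth (hk : IsK k) : ∃ C : ℝ, 0 ≤ C ∧ ∀ (M : ℝ) (w l : ℂ), w ≠ 0 →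
    (∀ y : ℝ, 0 < y → ‖l * (y * k (4 * π * ‖w‖ * y))‖ ≤ M) → ‖l‖ ≤ C * M * ‖w‖ := by
  obtain ⟨x, hx, hne⟩ := hk.ne
  have hpi := Real.pi_pos
  have hn : 0 < ‖k x‖ := norm_pos_iff.mpr hne
  refine ⟨4 * π / (x * ‖k x‖), by positivity, fun M w l hw h => ?_⟩
  have hw' : 0 < ‖w‖ := norm_pos_iff.mpr hw
  have h1 := h (x / (4 * π * ‖w‖)) (by positivity)
  rw [show 4 * π * ‖w‖ * (x / (4 * π * ‖w‖)) = x by field_simp, norm_mul, norm_mul,
    Complex.norm_real, Real.norm_of_nonneg (by positivity)] at h1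
  rw [show 4 * π / (x * ‖k x‖) * M * ‖w‖ = M / (x / (4 * π * ‖w‖) * ‖k x‖) by field_simp,
    le_div_iff₀ (by positivity)]
  exact h1

theorem exists_gap (Λ : Submodule ℤ ℂ) [DiscreteTopology Λ] :
    ∃ δ : ℝ, 0 < δ ∧ ∀ w : Λ, w ≠ 0 → δ ≤ ‖(w : ℂ)‖ := by
  have h : IsOpen ({0} : Set Λ) := isOpen_discrete _
  obtain ⟨δ, hδ, hb⟩ := Metric.isOpen_iff.mp h 0 rfl
  refine ⟨δ, hδ, fun w hw => ?_⟩
  by_contra hlt
  push Not at hlt
  have : w ∈ Metric.ball (0 : Λ) δ := by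
    rw [mem_ball_zero_iff]
    exact hlt
  exact hw (hb this)

theorem pow_mul_exp_le {a t : ℝ} (ha : 0 < a) (ht : 0 ≤ t) (m : ℕ) :
    t ^ m * Real.exp (-(a * t)) ≤ m ! / a ^ m := by
  have h := Real.pow_div_factorial_le_exp (a * t) (by positivity) m
  have hm : (0 : ℝ) < (m ! : ℝ) := by exact_mod_cast m.factorial_pos
  rw [div_le_iff₀ hm, mul_pow] at h
  rw [Real.exp_neg, ← div_eq_mul_inv, div_le_div_iff₀ (Real.exp_pos _) (by positivity)]
  linarith

/-- the majorant of the terms over a discrete subgroup -/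
theorem IsK.majorant (hk : IsK k) (Λ : Submodule ℤ ℂ) [DiscreteTopology Λ] {y₀ : ℝ}
    (h₀ : 0 < y₀) : ∃ (u : Λ → ℝ) (c : ℝ), 0 < c ∧ Summable u ∧ (∀ w, 0 ≤ u w) ∧
      ∀ w : Λ, w ≠ 0 → ∀ y, y₀ ≤ y →
        ‖(w : ℂ)‖ * (y * ‖k (4 * π * ‖(w : ℂ)‖ * y)‖) ≤ u w * Real.exp (-(c * y)) := by
  have hpi := Real.pi_pos
  obtain ⟨δ, hδ, hgap⟩ := exists_gap Λ
  obtain ⟨C, hC, hle⟩ := hk.le (4 * π * δ * y₀) (by positivity)
  set n := Module.finrank ℤ Λ + 1 with hn
  have hsum : Summable fun w : Λ => ‖w‖⁻¹ ^ n :=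
    ZLattice.summable_norm_pow_inv Λ n (by omega)
  set a : ℝ := 2 * π * y₀ with ha
  have ha0 : 0 < a := by positivity
  refine ⟨fun w => C / (π * δ) * (((n + 1) ! : ℕ) / a ^ (n + 1)) * ‖w‖⁻¹ ^ n, π * δ, by positivity,
    hsum.mul_left _, fun w => by positivity, fun w hw y hy => ?_⟩
  have hy0 : 0 < y := h₀.trans_le hy
  have hg := hgap w hw
  set r : ℝ := ‖(w : ℂ)‖ with hr
  have hr0 : 0 < r := hδ.trans_le hg
  have h1 := hle (4 * π * r * y) (by gcongr)
  have h2 : Real.exp (-(4 * π * r * y)) ≤ Real.exp (-(a * r)) * Real.exp (-(2 * (π * δ) * y)) := by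
    rw [← Real.exp_add, Real.exp_le_exp, ha]
    have e1 : 2 * π * y₀ * r ≤ 2 * π * y * r := by gcongr
    have e2 : 2 * (π * δ) * y ≤ 2 * π * y * r := by
      have := mul_le_mul_of_nonneg_left hg (by positivity : (0 : ℝ) ≤ 2 * π * y)
      linarith
    linarith
  have h3 : y * Real.exp (-(2 * (π * δ) * y)) ≤ 1 / (π * δ) * Real.exp (-(π * δ * y)) := by
    have e := pow_mul_exp_le (a := π * δ) (t := y) (by positivity) hy0.le 1
    rw [pow_one, pow_one, Nat.factorial_one, Nat.cast_one] at e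
    rw [show -(2 * (π * δ) * y) = -(π * δ * y) + -(π * δ * y) by ring, Real.exp_add, ← mul_assoc]
    exact mul_le_mul_of_nonneg_right e (Real.exp_pos _).le
  have h4 : r * Real.exp (-(a * r)) ≤ ((n + 1) ! : ℕ) / a ^ (n + 1) * r⁻¹ ^ n := by
    have e := pow_mul_exp_le (a := a) (t := r) ha0 hr0.le (n + 1)
    rw [inv_pow, ← div_eq_mul_inv, le_div_iff₀ (by positivity)]
    calc r * Real.exp (-(a * r)) * r ^ n = r ^ (n + 1) * Real.exp (-(a * r)) := by ring
      _ ≤ _ := e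
  change r * (y * ‖k (4 * π * r * y)‖) ≤
    C / (π * δ) * (((n + 1) ! : ℕ) / a ^ (n + 1)) * r⁻¹ ^ n * Real.exp (-(π * δ * y))
  calc r * (y * ‖k (4 * π * r * y)‖)
      ≤ r * (y * (C * (Real.exp (-(a * r)) * Real.exp (-(2 * (π * δ) * y))))) := by
        gcongr
        exact h1.trans (mul_le_mul_of_nonneg_left h2 hC)
    _ = C * (r * Real.exp (-(a * r))) * (y * Real.exp (-(2 * (π * δ) * y))) := by ring
    _ ≤ C * (((n + 1) ! : ℕ) / a ^ (n + 1) * r⁻¹ ^ n) *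
        (1 / (π * δ) * Real.exp (-(π * δ * y))) := by
        gcongr
    _ = C / (π * δ) * (((n + 1) ! : ℕ) / a ^ (n + 1)) * r⁻¹ ^ n * Real.exp (-(π * δ * y)) := by
        ring

/-- **Summability and decay** of a Whittaker expansion with frequencies in a discrete group, from
uniform boundedness of its terms. -/
theorem IsK.exists_bound (hk : IsK k) (Λ : Submodule ℤ ℂ) [DiscreteTopology Λ] {ι : Type*}
    {w l : ι → ℂ} (hw : ∀ i, l i ≠ 0 → w i ∈ Λ ∧ w i ≠ 0)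
    (hinj : ∀ i j, l i ≠ 0 → l j ≠ 0 → w i = w j → i = j) {M : ℝ}
    (hM : ∀ i, ∀ y : ℝ, 0 < y → ‖l i * (y * k (4 * π * ‖w i‖ * y))‖ ≤ M) {y₀ : ℝ} (h₀ : 0 < y₀) :
    ∃ (u : ι → ℝ) (c : ℝ), 0 < c ∧ Summable u ∧ (∀ i, 0 ≤ u i) ∧ ∀ i, ∀ y, y₀ ≤ y →
      ‖l i * (y * k (4 * π * ‖w i‖ * y))‖ ≤ u i * Real.exp (-(c * y)) := by
  classical
  obtain ⟨C, hC, hgrow⟩ := hk.growth
  obtain ⟨u, c, hc, hu, hu0, hmaj⟩ := hk.majorant Λ h₀
  have hM0 : ∀ i : ι, 0 ≤ M := fun i => (norm_nonneg _).trans (hM i 1 one_pos)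
  -- the support of `l`
  let S : Set ι := {i | l i ≠ 0}
  let em : S → Λ := fun i => ⟨w i.1, (hw i.1 i.2).1⟩
  have hem : Function.Injective em := fun i j h => Subtype.ext
    (hinj i.1 j.1 i.2 j.2 (congrArg Subtype.val h))
  have hsum : Summable fun i : S => C * M * u (em i) := (hu.comp_injective hem).mul_left _
  refine ⟨fun i => if h : l i ≠ 0 then C * M * u (em ⟨i, h⟩) else 0, c, hc, ?_, fun i => ?_,
    fun i y hy => ?_⟩
  · have hinjS : Function.Injective (Subtype.val : S → ι) := Subtype.val_injective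
    refine (hinjS.summable_iff (fun i hi => ?_)).mp ?_
    · have : ¬ (l i ≠ 0) := fun h => hi ⟨⟨i, h⟩, rfl⟩
      simp only [this, dite_false]
    · refine hsum.congr fun i => ?_
      have : l i.1 ≠ 0 := i.2
      simp only [Function.comp_apply, dif_pos this]
  · dsimp only
    split_ifs with h
    · exact mul_nonneg (mul_nonneg hC (hM0 i)) (hu0 _)
    · exact le_rfl
  · dsimp only
    split_ifs with h
    · have h1 := hgrow M (w i) (l i) (hw i h).2 (hM i)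
      have h2 := hmaj (em ⟨i, h⟩) (fun h0 => (hw i h).2 (congrArg Subtype.val h0)) y hy
      have hy0 : 0 < y := h₀.trans_le hy
      rw [norm_mul, norm_mul, Complex.norm_real, Real.norm_of_nonneg hy0.le]
      calc ‖l i‖ * (y * ‖k (4 * π * ‖w i‖ * y)‖)
          ≤ C * M * ‖w i‖ * (y * ‖k (4 * π * ‖w i‖ * y)‖) := by gcongr
        _ = C * M * (‖w i‖ * (y * ‖k (4 * π * ‖w i‖ * y)‖)) := by ring
        _ ≤ C * M * (u (em ⟨i, h⟩) * Real.exp (-(c * y))) :=
            mul_le_mul_of_nonneg_left h2 (mul_nonneg hC (hM0 i))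
        _ = _ := by ring
    · push Not at h
      rw [h, zero_mul, norm_zero, zero_mul]

/-- the corresponding bound of the sum -/
theorem norm_le_of_hasSum {ι : Type*} {a e : ι → ℂ} {s : ℂ} {u : ι → ℝ} {q : ℝ}
    (he : ∀ i, ‖e i‖ = 1) (hu : Summable u) (hle : ∀ i, ‖a i‖ ≤ u i * q)
    (hs : HasSum (fun i => a i * e i) s) : ‖s‖ ≤ (∑' i, u i) * q := by
  rw [← tsum_mul_right]
  refine hs.norm_le_of_bounded (hu.mul_right q).hasSum fun i => ?_
  rw [norm_mul, he, mul_one]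
  exact hle i

end Fermat.Agent.LT.Four
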