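import Fermat.Agent.LT.Clas.Cls
import Fermat.Agent.LT.Clas.CoefOne
import Fermat.Agent.LT.H3.Whittaker
import Fermat.Agent.LT.H3.RealKer

/-!
# From the space `W` over `ℚ(√-3)` to a classical form

`exists_kform`: a nonzero bounded function of `W = InW (OS S) (thetaA S s⁻¹) (lamE S a) (wiK w₀ s)`
gives a `KForm` with the eigenvalues `a`.
-/

set_option autoImplicit false

namespace Fermat.Agent.LT.Clas

open MeasureTheory Topology Kap NumberField IsDedekindDomain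
open Fermat.Agent.LT.Chr hiding Rf
open scoped Real

variable {K : Type} [Field K] [NumberField K] {S : Finset (HeightOneSpectrum (𝓞 K))}
  [IsTotallyComplex K] {w₀ : InfinitePlace K} {s : 𝓞 K}

/-- the space of functions -/
def clsSp (w₀ : InfinitePlace K) (s : 𝓞 K) (lam : Loc.OS S → ℂ) :
    Set (Sp (Xi K) (Loc.Rf S) → ℂ) :=
  {ψ | InW (Loc.OS S) (thetaA S (s : K)⁻¹) lam (wiK w₀ s) ψ ∧ (∃ M, ∀ x, ‖ψ x‖ ≤ M) ∧
    ∀ g, Continuous fun z : Xi K => ψ ⟨z, g⟩}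

theorem autSp_cls {lam : Loc.OS S → ℂ} (hθ : SelfDual (Loc.OS S) (thetaA S (s : K)⁻¹))
    {ψ : Sp (Xi K) (Loc.Rf S) → ℂ} (hψ : ψ ∈ clsSp w₀ s lam) (hne : ∃ x, ψ x ≠ 0) :
    AutSp (Loc.OS S) (thetaA S (s : K)⁻¹) lam (wiK w₀ s) (clsSp w₀ s lam) where
  add := by
    rintro ψ ⟨h1, ⟨M, hM⟩, hc⟩ ψ' ⟨h1', ⟨M', hM'⟩, hc'⟩ c c'
    refine ⟨h1.add hθ h1' c c', ⟨‖c‖ * M + ‖c'‖ * M', fun x => ?_⟩, fun g =>
      (continuous_const.mul (hc g)).add (continuous_const.mul (hc' g))⟩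
    refine (norm_add_le _ _).trans ?_
    rw [norm_mul, norm_mul]
    have := hM x
    have := hM' x
    gcongr
  rt := by
    rintro ψ ⟨h1, ⟨M, hM⟩, hc⟩ k
    exact ⟨h1.rt k, ⟨M, fun x => hM _⟩, fun g => hc (g * k)⟩
  inW ψ h := h.1
  ne := ⟨ψ, hψ, hne⟩

theorem wiK_pt_ne (w₀ : InfinitePlace K) (s : 𝓞 K) (P : H3) : wiK w₀ s (ptX P) ≠ 0 := by
  unfold wiK
  rw [whit_eq_whitA]
  refine whitA_ne_zero _ _ ?_ _
  simp

theorem integral_ker_whit_K (w : InfinitePlace K) (hs : s ^ 2 = -3) {k : ℝ → ℂ}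
    (hk : H3.IsKer k) {b : 𝓞 K} (hb : b ≠ 0) (P : H3) :
    ∫ Q : H3, k (H3.cu P Q) * whit w.embedding s b Q =
      (∫ t : ℝ, H3.abel k t) * whit w.embedding s b P := by
  have hσs : w.embedding (s : K) ≠ 0 := by
    rw [← norm_pos_iff, norm_sigma_s w.embedding hs]
    positivity
  have hc : w.embedding (b : K) / w.embedding (s : K) ≠ 0 :=
    div_ne_zero (map_ne w.embedding hb) hσs
  have h1 : ∀ Q : H3, whit w.embedding s b Q =
      H3.whit 0 (w.embedding (b : K) / w.embedding (s : K)) Q := by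
    intro Q
    unfold whit H3.whit H3.e2 eTr
    have h2 : 4 * π * ‖w.embedding (b : K) / w.embedding (s : K)‖ * Q.y =
        4 * π * ‖w.embedding (b : K)‖ * Q.y / √3 := by
      rw [norm_div, norm_sigma_s w.embedding hs]
      ring
    have h3 := besselK_ofReal 0 (4 * π * ‖w.embedding (b : K)‖ * Q.y / √3)
    rw [Complex.ofReal_zero] at h3
    have h4 : w.embedding (b : K) / w.embedding (s : K) * Q.z =
        w.embedding (b : K) * Q.z / w.embedding (s : K) := by ring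
    rw [h2, h3, h4]
    unfold bK0
    push_cast
    ring
  simp only [h1]
  rw [H3.integral_ker_whit hk 0 hc P, H3.sph_zero]

theorem scl_one (P : H3) (N : ℕ) (hN : N ≠ 0) :
    scl ((N : ℂ) ^ 0) (natPow_ne hN 0) P = P := by
  unfold scl
  refine H3.ext ?_ ?_ <;> simp

variable [IsPrincipalIdealRing (Loc.OS S)]

/-- **Classicalisation over `ℚ(√-3)`.** -/
theorem exists_kform (hK : Module.finrank ℚ K = 2) (hs : s ^ 2 = -3) {N : ℕ} (hN : N ≠ 0)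
    (h3 : 3 ∣ N) (hS : ∀ v, v ∈ S ↔ (N : 𝓞 K) ∈ v.asIdeal) (hcl : CFT.Global.ClTrivial S)
    {a : HeightOneSpectrum (𝓞 K) → ℝ} {ψ : Sp (Xi K) (Loc.Rf S) → ℂ}
    (h : InW (Loc.OS S) (thetaA S (s : K)⁻¹) (lamE S a) (wiK w₀ s) ψ)
    (hb : ∃ M, ∀ x, ‖ψ x‖ ≤ M) (hc : ∀ g, Continuous fun z : Xi K => ψ ⟨z, g⟩)
    (hne : ∃ x, ψ x ≠ 0) :
    ∃ (m : ℕ) (F : KForm w₀.embedding s (N ^ m)), 1 ≤ m ∧
      ∀ b : 𝓞 K, F.lam b = lamK a (N : 𝓞 K) b := by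
  have hθ := selfDual_A_Q3 S hK hs (mem_of_three h3 hS)
  obtain ⟨ψ₀, ⟨hW, ⟨M, hM⟩, hcont⟩, m, D⟩ := exists_depleted_Q3 S hK hs hN h3 hS
    (autSp_cls hθ ⟨h, hb, hc⟩ hne) (z₀ := ptX (H3.mk 0 1 one_pos)) (wiK_pt_ne w₀ s _)
  have hw : ∀ w' : InfinitePlace K, w' = w₀ := fun w' => place_eq hK w' w₀
  set σ := w₀.embedding with hσ
  have hN' : (N : 𝓞 K) ≠ 0 := Nat.cast_ne_zero.mpr hN
  have hNm : ((N ^ m : ℕ) : 𝓞 K) = (N : 𝓞 K) ^ m := by push_cast; rfl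
  have hm : m ≠ 0 := by have := D.one_le; omega
  -- the expansion at infinity
  obtain ⟨c, hcE, hcoef⟩ := exists_hasExp hK hs hN h3 hS hW hM (k := 0)
    (fun y hy => by rw [pow_zero, one_mul]; exact D.rt_nn y hy)
  have hsc : ∀ P : H3, scl ((N : ℂ) ^ 0) (natPow_ne hN 0) P = P := fun P => scl_one P N hN
  have hcE : HasExp σ s c (cls ψ₀) := by
    have h1 : cls ψ₀ = fun P => ψ₀ ⟨ptX (scl ((N : ℂ) ^ 0) (natPow_ne hN 0) P), 1⟩ := by
      ext P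
      rw [hsc]
      rfl
    rw [h1]
    exact hcE
  have hcoef : ∀ (b : 𝓞 K) (a : Loc.OS S), (a : K) * (N : K) ^ 0 = b → ∀ P,
      wh (Loc.OS S) (thetaA S (s : K)⁻¹) ψ₀ a (⟨ptX P, 1⟩ : Sp (Xi K) (Loc.Rf S)) =
        c b * whit σ s b P := by
    intro b a hab P
    have h1 := hcoef b a hab P
    rwa [hsc] at h1
  have hwi : ∀ P, wiK w₀ s (cst K P) = ((P.y * bK0 (4 * π * P.y / √3) : ℝ) : ℂ) *
      eTr w₀.embedding s 1 P.z := by
    intro P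
    unfold wiK whit
    rw [cst_apply]
    simp
  have hc_eq : ∀ b : 𝓞 K, c b = ((lamK a (N : 𝓞 K) b : ℝ) : ℂ) := by
    intro b
    by_cases hb0 : b = 0
    · rw [hb0, hcE.1, lamK_zero]
      simp
    · have h1 := hcoef b (toOS S b) (by rw [pow_zero, mul_one, coe_toOS]) (H3.mk 0 1 one_pos)
      have h2 := D.wh_int hcl hK hθ hW.aut hW.eig hw hN' hS hwi hb0 (H3.mk 0 1 one_pos)
      have h4 : c b * whit σ s b (H3.mk 0 1 one_pos) =
          ((lamK a (N : 𝓞 K) b : ℝ) : ℂ) * whit σ s b (H3.mk 0 1 one_pos) := by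
        rw [← h1]
        refine Eq.trans h2 ?_
        unfold whit
        push_cast
        ring
      refine mul_right_cancel₀ ?_ h4
      rw [whit_eq_whitA]
      exact whitA_ne_zero _ _ (map_ne σ hb0) _
  have hprime : ∀ ϖ : 𝓞 K, Prime ϖ → ¬ ϖ ∣ ((N ^ m : ℕ) : 𝓞 K) → ¬ ϖ ∣ (N : 𝓞 K) := by
    intro ϖ _ h1 h2
    rw [hNm] at h1
    exact h1 (dvd_pow h2 hm)
  refine ⟨m, ⟨cls ψ₀, lamK a (N : 𝓞 K), hs, h3.trans (dvd_pow_self N hm), pow_ne_zero m hN,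
    ?_, ?_, ?_, ?_, ?_, ?_, ?_, ?_, ?_, ?_, ?_, ?_, ?_⟩, D.one_le, fun b => rfl⟩
  · -- cont
    exact (hcont 1).comp (continuous_pi fun _ => continuous_id)
  · exact ⟨M, fun P => hM _⟩
  · intro g hg P
    rw [hNm] at hg
    exact cls_inv hK w₀ hW.aut hN D.rt_U0 g hg P
  · intro g
    exact cls_decay hK hs hN h3 hS hW hM D.rt_cong g
  · -- eig
    rintro k hk ⟨R, hR⟩ P
    have hker : H3.IsKer k := ⟨hk, ⟨R + 1, fun t ht => hR t (by linarith)⟩⟩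
    exact hcE.eig hk hR (fun b hb P => integral_ker_whit_K w₀ hs hker hb P) P
  · intro g y hy
    exact cls_cusp hK hs hN h3 hS hW hM D.rt_cong g y hy
  · -- four
    intro P
    have h1 := hcE.2 P
    refine Eq.mp (congrArg (fun f => HasSum f _) (funext fun b => ?_)) h1
    unfold bterm
    rw [hc_eq]
    push_cast
    ring
  · exact lamK_one a _
  · exact lamK_unit a _
  · intro b hb
    refine lamK_bad a _ b fun h1 => hb ?_
    rw [hNm]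
    exact h1.pow_right
  · intro ϖ hϖ h1 b hb
    exact lamK_hecke₁ a _ ϖ hϖ (hprime ϖ hϖ h1) b hb
  · intro ϖ hϖ h1 b
    exact lamK_hecke₂ a _ ϖ hϖ (hprime ϖ hϖ h1) b
  · -- heckeT
    intro ϖ hϖ h1 hσϖ P
    have h2 := hprime ϖ hϖ h1
    have hcop := isCoprime_prime (N : 𝓞 K) hϖ h2
    have hv := (isCoprime_iff (N : 𝓞 K) S hN' hS ϖ).mp hcop
    have h4 := D.atOne_hecke hW.aut hW.eig hw hϖ hv hσϖ P
    rw [lamE_toOS a (N : 𝓞 K) S hK w₀.embedding hϖ.ne_zero hv hcop] at h4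
    exact h4

end Fermat.Agent.LT.Clas
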