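import Fermat.Agent.LT.SRing
import Fermat.Agent.LT.Period.Local

/-!
# The numbers attached to a system of Hecke eigenvalues (helper96)

`x : HeightOneSpectrum (𝓞 K) → ℝ` unitary eigenvalues.  For a divisor `D` (finitely supported
function on the finite places), `chD x D = ∏ U_{D v} (x v)` and `nmD D = ∏ (N v) ^ (D v)`.
-/

set_option autoImplicit false
set_option linter.unusedSectionVars false

open NumberField IsDedekindDomain HeightOneSpectrum
open Fermat.Agent.LT.Period (ch ch_zero ch_one ch_add_two)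

noncomputable section

namespace Fermat.Agent.LT.Clas

variable {K : Type*} [Field K] [NumberField K]

/-- `∏ U_{D v} (x v)` -/
def chD (x : HeightOneSpectrum (𝓞 K) → ℝ) (D : HeightOneSpectrum (𝓞 K) →₀ ℤ) : ℝ :=
  D.prod fun v n => ch (x v) n.toNat

/-- `∏ (N v) ^ (D v)` -/
def nmD (D : HeightOneSpectrum (𝓞 K) →₀ ℤ) : ℝ :=
  D.prod fun v n => (Ideal.absNorm v.asIdeal : ℝ) ^ n

theorem absNorm_pos (v : HeightOneSpectrum (𝓞 K)) : 0 < (Ideal.absNorm v.asIdeal : ℝ) := by
  have h : Ideal.absNorm v.asIdeal ≠ 0 := by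
    rw [Ne, Ideal.absNorm_eq_zero_iff]
    exact v.ne_bot
  exact_mod_cast Nat.pos_of_ne_zero h

theorem chD_eq (x : HeightOneSpectrum (𝓞 K) → ℝ) (D : HeightOneSpectrum (𝓞 K) →₀ ℤ)
    (v : HeightOneSpectrum (𝓞 K)) :
    chD x D = ch (x v) (D v).toNat * chD x (D.erase v) := by
  classical
  exact (Finsupp.mul_prod_erase' D v (fun v n => ch (x v) n.toNat) (fun w => by simp)).symm

theorem chD_zero (x : HeightOneSpectrum (𝓞 K) → ℝ) : chD x 0 = 1 := by simp [chD]

theorem erase_add_single (D : HeightOneSpectrum (𝓞 K) →₀ ℤ) (v : HeightOneSpectrum (𝓞 K))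
    (n : ℤ) : (D + Finsupp.single v n).erase v = D.erase v := by
  classical
  ext w
  by_cases h : w = v
  · subst h; simp
  · simp [Finsupp.erase_ne h]

theorem chD_add_single (x : HeightOneSpectrum (𝓞 K) → ℝ) (D : HeightOneSpectrum (𝓞 K) →₀ ℤ)
    (v : HeightOneSpectrum (𝓞 K)) (h : D v = 0) :
    chD x (D + Finsupp.single v 1) = x v * chD x D := by
  rw [chD_eq x _ v, chD_eq x D v, erase_add_single]
  simp [h]

theorem chD_single (x : HeightOneSpectrum (𝓞 K) → ℝ) (v : HeightOneSpectrum (𝓞 K)) :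
    chD x (Finsupp.single v 1) = x v := by
  have := chD_add_single x 0 v (by simp)
  rwa [zero_add, chD_zero, mul_one] at this

theorem chD_add_two (x : HeightOneSpectrum (𝓞 K) → ℝ) (D : HeightOneSpectrum (𝓞 K) →₀ ℤ)
    (v : HeightOneSpectrum (𝓞 K)) (h : 0 ≤ D v) :
    chD x (D + Finsupp.single v 1 + Finsupp.single v 1) =
      x v * chD x (D + Finsupp.single v 1) - chD x D := by
  rw [chD_eq x _ v, chD_eq x (D + Finsupp.single v 1) v, chD_eq x D v, erase_add_single,
    erase_add_single]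
  obtain ⟨n, hn⟩ := Int.eq_ofNat_of_zero_le h
  have h1 : (D + Finsupp.single v 1 + Finsupp.single v 1 : HeightOneSpectrum (𝓞 K) →₀ ℤ) v =
      ((n + 2 : ℕ) : ℤ) := by
    simp [hn]; ring
  have h2 : (D + Finsupp.single v 1 : HeightOneSpectrum (𝓞 K) →₀ ℤ) v = ((n + 1 : ℕ) : ℤ) := by
    simp [hn]
  rw [h1, h2, hn, Int.toNat_natCast, Int.toNat_natCast, Int.toNat_natCast, ch_add_two]
  ring

theorem nmD_add (D E : HeightOneSpectrum (𝓞 K) →₀ ℤ) : nmD (D + E) = nmD D * nmD E := by
  classical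
  rw [nmD, nmD, nmD, Finsupp.prod_add_index]
  · intro v _
    rw [zpow_zero]
  · intro v _ a b
    rw [zpow_add₀ (absNorm_pos v).ne']

theorem nmD_single (v : HeightOneSpectrum (𝓞 K)) :
    nmD (Finsupp.single v 1) = (Ideal.absNorm v.asIdeal : ℝ) := by
  rw [nmD, Finsupp.prod_single_index] <;> simp

theorem nmD_pos (D : HeightOneSpectrum (𝓞 K) →₀ ℤ) : 0 < nmD D := by
  rw [nmD]
  exact Finset.prod_pos fun v _ => zpow_pos (absNorm_pos v) _

/-! ### divisors outside `S` -/

open CFT.SUnits (ord div div_apply ord_mul ord_one ord_inv)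
open Fermat.Agent.LT.Loc

variable (S : Finset (HeightOneSpectrum (𝓞 K)))

/-- the divisor outside `S` -/
def divS (a : Kˣ) : HeightOneSpectrum (𝓞 K) →₀ ℤ :=
  open Classical in (div (R := 𝓞 K) a).filter (· ∉ S)

theorem divS_apply {v : HeightOneSpectrum (𝓞 K)} (hv : v ∉ S) (a : Kˣ) :
    divS S a v = ord v a := by
  classical
  rw [divS, Finsupp.filter_apply, if_pos hv, div_apply]

theorem divS_apply_mem {v : HeightOneSpectrum (𝓞 K)} (hv : v ∈ S) (a : Kˣ) :
    divS S a v = 0 := by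
  classical
  rw [divS, Finsupp.filter_apply, if_neg (not_not.mpr hv)]

theorem divS_mul (a b : Kˣ) : divS S (a * b) = divS S a + divS S b := by
  ext v
  rw [Finsupp.add_apply]
  by_cases hv : v ∈ S
  · simp only [divS_apply_mem S hv, add_zero]
  · simp only [divS_apply S hv, ord_mul]

theorem divS_one : divS S (1 : Kˣ) = 0 := by
  have h := divS_mul S 1 1
  rw [mul_one] at h
  ext v
  have h1 := DFunLike.congr_fun h v
  rw [Finsupp.add_apply] at h1
  rw [Finsupp.zero_apply]
  omega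

theorem ord_nonneg_of_mem {a : Kˣ} (ha : (a : K) ∈ OS S) {v : HeightOneSpectrum (𝓞 K)}
    (hv : v ∉ S) : 0 ≤ ord v a :=
  (CFT.SUnits.ord_nonneg_iff K v a).mpr (ha v hv)

theorem divS_nonneg {a : Kˣ} (ha : (a : K) ∈ OS S) (v : HeightOneSpectrum (𝓞 K)) :
    0 ≤ divS S a v := by
  by_cases hv : v ∈ S
  · rw [divS_apply_mem S hv]
  · rw [divS_apply S hv]; exact ord_nonneg_of_mem S ha hv

variable {S} in
/-- a nonzero `S`-integer as an element of `Kˣ` -/
def toU (a : OS S) (h : a ≠ 0) : Kˣ := Units.mk0 (a : K) (fun h1 => h (Subtype.ext h1))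

variable {S} in
theorem coe_toU (a : OS S) (h : a ≠ 0) : ((toU a h : Kˣ) : K) = a := rfl

theorem toU_mul (a b : OS S) (ha : a ≠ 0) (hb : b ≠ 0) (hab : a * b ≠ 0) :
    toU (a * b) hab = toU a ha * toU b hb := Units.ext rfl

theorem dvd_iff {a b : OS S} (ha : a ≠ 0) (hb : b ≠ 0) :
    a ∣ b ↔ ∀ v, divS S (toU a ha) v ≤ divS S (toU b hb) v := by
  constructor
  · rintro ⟨c, rfl⟩ v
    have hc : c ≠ 0 := fun h => hb (by rw [h, mul_zero])
    rw [toU_mul S a c ha hc, divS_mul, Finsupp.add_apply]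
    have := divS_nonneg S (a := toU c hc) c.2 v
    omega
  · intro h
    have h1 : ((toU b hb / toU a ha : Kˣ) : K) ∈ OS S := by
      intro v hv
      rw [← CFT.SUnits.ord_nonneg_iff, CFT.SUnits.ord_div]
      have h2 := h v
      rw [divS_apply S hv, divS_apply S hv] at h2
      omega
    refine ⟨⟨_, h1⟩, Subtype.ext ?_⟩
    change (b : K) = (a : K) * ((toU b hb / toU a ha : Kˣ) : K)
    have ha' : (a : K) ≠ 0 := fun h2 => ha (Subtype.ext h2)
    rw [Units.val_div_eq_div_val, coe_toU, coe_toU]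
    field_simp

theorem divS_of_isUnit {a : OS S} (ha : IsUnit a) (h0 : a ≠ 0) : divS S (toU a h0) = 0 := by
  ext v
  have h1 := (dvd_iff S h0 one_ne_zero).mp ha.dvd v
  have h2 : divS S (toU (1 : OS S) one_ne_zero) = 0 := by
    rw [← divS_one S]
    congr 1
    exact Units.ext rfl
  rw [h2] at h1
  have h3 := divS_nonneg S (a := toU a h0) a.2 v
  exact le_antisymm h1 h3

theorem isUnit_of_divS {a : OS S} (h0 : a ≠ 0) (h : divS S (toU a h0) = 0) : IsUnit a := by
  refine isUnit_of_dvd_one ((dvd_iff S h0 one_ne_zero).mpr fun v => ?_)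
  rw [h]
  exact divS_nonneg S (a := toU (1 : OS S) one_ne_zero) (1 : OS S).2 v

/-- a prime element of `O_S` has divisor `[v]` -/
theorem exists_divS_prime (hS : CFT.Global.ClTrivial S) {p : OS S} (hp : Prime p) :
    ∃ v ∉ S, divS S (toU p hp.ne_zero) = Finsupp.single v 1 := by
  classical
  obtain ⟨v, hv⟩ : ∃ v, divS S (toU p hp.ne_zero) v ≠ 0 := by
    by_contra hcon
    push Not at hcon
    exact hp.not_isUnit (isUnit_of_divS S hp.ne_zero (Finsupp.ext hcon))
  have hvS : v ∉ S := fun h => hv (divS_apply_mem S h _)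
  obtain ⟨y, hy⟩ := hS (Finsupp.single v 1)
  have hy' : divS S y = Finsupp.single v 1 := by
    ext w
    by_cases hw : w ∈ S
    · rw [divS_apply_mem S hw, Finsupp.single_apply, if_neg]
      rintro rfl
      exact hvS hw
    · rw [divS_apply S hw, hy w hw]
  have hyS : (y : K) ∈ OS S := by
    intro w hw
    rw [← CFT.SUnits.ord_nonneg_iff, ← divS_apply S hw, hy', Finsupp.single_apply]
    split_ifs <;> simp
  set y' : OS S := ⟨(y : K), hyS⟩ with hy'def
  have hy0 : y' ≠ 0 := fun h => y.ne_zero (congrArg Subtype.val h)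
  have hyU : toU y' hy0 = y := Units.ext rfl
  have hdvd : y' ∣ p := by
    rw [dvd_iff S hy0 hp.ne_zero, hyU, hy']
    intro w
    rw [Finsupp.single_apply]
    split_ifs with h
    · subst h
      have := divS_nonneg S (a := toU p hp.ne_zero) p.2 v
      omega
    · exact divS_nonneg S (a := toU p hp.ne_zero) p.2 w
  obtain ⟨c, hc⟩ := hdvd
  have hc0 : c ≠ 0 := fun h => hp.ne_zero (by rw [hc, h, mul_zero])
  refine ⟨v, hvS, ?_⟩
  rcases hp.irreducible.isUnit_or_isUnit hc with h1 | h1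
  · have h2 := divS_of_isUnit S h1 hy0
    rw [hyU, hy'] at h2
    exact absurd (DFunLike.congr_fun h2 v) (by simp)
  · have h2 := divS_of_isUnit S h1 hc0
    have h3 : toU p hp.ne_zero = y * toU c hc0 := by
      rw [← hyU]
      exact Units.ext (congrArg Subtype.val hc)
    rw [h3, divS_mul, h2, hy', add_zero]

/-! ### the numbers -/

variable (x : HeightOneSpectrum (𝓞 K) → ℝ)

/-- the Hecke eigenvalue attached to `a`; `lamE p = √(N v) * x v` for a prime `p` with place `v`. -/
def lamE (a : OS S) : ℂ :=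
  open Classical in
  if h : a = 0 then 0 else
    ((√(nmD (divS S (toU a h))) * chD x (divS S (toU a h)) : ℝ) : ℂ)

/-- the number of the Fourier coefficient at `a`. -/
def numC (a : OS S) : ℂ :=
  open Classical in
  if h : a = 0 then 0 else
    ((chD x (divS S (toU a h)) / √(nmD (divS S (toU a h))) : ℝ) : ℂ)

theorem lamE_of_ne {a : OS S} (h : a ≠ 0) : lamE S x a =
    ((√(nmD (divS S (toU a h))) * chD x (divS S (toU a h)) : ℝ) : ℂ) := dif_neg h

theorem numC_of_ne {a : OS S} (h : a ≠ 0) : numC S x a =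
    ((chD x (divS S (toU a h)) / √(nmD (divS S (toU a h))) : ℝ) : ℂ) := dif_neg h

theorem numC_zero : numC S x 0 = 0 := dif_pos rfl

theorem numC_of_isUnit {a : OS S} (ha : IsUnit a) : numC S x a = 1 := by
  have h0 : a ≠ 0 := ha.ne_zero
  rw [numC_of_ne S x h0, divS_of_isUnit S ha h0, chD_zero]
  simp [nmD]

/-- the norm outside `S` of a prime: the cardinality of the residue field -/
def qS (p : OS S) : ℝ := open Classical in if h : p = 0 then 0 else nmD (divS S (toU p h))

theorem qS_of_ne {p : OS S} (h : p ≠ 0) : qS S p = nmD (divS S (toU p h)) := dif_neg h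

theorem qS_pos {p : OS S} (h : p ≠ 0) : 0 < qS S p := by
  rw [qS_of_ne S h]; exact nmD_pos _

theorem divS_mul_prime {p a : OS S} (hp : p ≠ 0) (ha : a ≠ 0) :
    divS S (toU (p * a) (mul_ne_zero hp ha)) = divS S (toU a ha) + divS S (toU p hp) := by
  rw [toU_mul S p a hp ha, divS_mul, add_comm]

theorem not_dvd_iff {p a : OS S} (hp : p ≠ 0) (ha : a ≠ 0)
    {v : HeightOneSpectrum (𝓞 K)} (hv : divS S (toU p hp) = Finsupp.single v 1) :
    ¬ p ∣ a ↔ divS S (toU a ha) v = 0 := by
  classical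
  have h0 := divS_nonneg S (a := toU a ha) a.2 v
  rw [dvd_iff S hp ha, hv]
  constructor
  · intro h
    by_contra h1
    refine h fun w => ?_
    rw [Finsupp.single_apply]
    split_ifs with h2
    · subst h2; omega
    · exact divS_nonneg S (a := toU a ha) a.2 w
  · intro h h1
    have h2 := h1 v
    rw [Finsupp.single_eq_same, h] at h2
    omega

theorem chD_mul_of_not_dvd (hS : CFT.Global.ClTrivial S) {p a : OS S} (hp : Prime p) (ha : a ≠ 0)
    (hpa : ¬ p ∣ a) : chD x (divS S (toU (p * a) (mul_ne_zero hp.ne_zero ha))) =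
      chD x (divS S (toU p hp.ne_zero)) * chD x (divS S (toU a ha)) := by
  obtain ⟨v, -, hv⟩ := exists_divS_prime S hS hp
  rw [divS_mul_prime S hp.ne_zero ha, hv, chD_single,
    chD_add_single x _ v ((not_dvd_iff S hp.ne_zero ha hv).mp hpa)]

theorem chD_mul_mul (hS : CFT.Global.ClTrivial S) {p a : OS S} (hp : Prime p) (ha : a ≠ 0) :
    chD x (divS S (toU (p * (p * a)) (mul_ne_zero hp.ne_zero (mul_ne_zero hp.ne_zero ha)))) =
      chD x (divS S (toU p hp.ne_zero)) *
        chD x (divS S (toU (p * a) (mul_ne_zero hp.ne_zero ha))) - chD x (divS S (toU a ha)) := by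
  obtain ⟨v, -, hv⟩ := exists_divS_prime S hS hp
  rw [divS_mul_prime S hp.ne_zero (mul_ne_zero hp.ne_zero ha), divS_mul_prime S hp.ne_zero ha, hv,
    chD_single, chD_add_two x _ v (divS_nonneg S (a := toU a ha) a.2 v)]

theorem nmD_mul {a b : OS S} (ha : a ≠ 0) (hb : b ≠ 0) :
    nmD (divS S (toU (a * b) (mul_ne_zero ha hb))) =
      nmD (divS S (toU a ha)) * nmD (divS S (toU b hb)) := by
  rw [toU_mul S a b ha hb, divS_mul, nmD_add]

/-- relation (K2)(i), first form -/
theorem numC_mul (hS : CFT.Global.ClTrivial S) {p a : OS S} (hp : Prime p) (hpa : ¬ p ∣ a) :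
    (qS S p : ℂ) * numC S x (p * a) = lamE S x p * numC S x a := by
  have ha : a ≠ 0 := fun h => hpa (by rw [h]; exact dvd_zero p)
  rw [numC_of_ne S x (mul_ne_zero hp.ne_zero ha), numC_of_ne S x ha, lamE_of_ne S x hp.ne_zero,
    qS_of_ne S hp.ne_zero, chD_mul_of_not_dvd S x hS hp ha hpa, nmD_mul S hp.ne_zero ha]
  rw [← Complex.ofReal_mul, ← Complex.ofReal_mul]
  congr 1
  have h1 := nmD_pos (divS S (toU p hp.ne_zero))
  have h2 := nmD_pos (divS S (toU a ha))
  rw [Real.sqrt_mul h1.le]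
  have h3 := Real.sqrt_pos.mpr h1
  have h4 := Real.sqrt_pos.mpr h2
  have h5 := Real.mul_self_sqrt h1.le
  field_simp
  rw [sq, h5]
  ring

/-- relation (K2)(i), second form -/
theorem numC_mul_mul (hS : CFT.Global.ClTrivial S) {p a : OS S} (hp : Prime p) (ha : a ≠ 0) :
    (qS S p : ℂ) * numC S x (p * (p * a)) = lamE S x p * numC S x (p * a) - numC S x a := by
  have hpa : p * a ≠ 0 := mul_ne_zero hp.ne_zero ha
  rw [numC_of_ne S x (mul_ne_zero hp.ne_zero hpa), numC_of_ne S x hpa, numC_of_ne S x ha,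
    lamE_of_ne S x hp.ne_zero, qS_of_ne S hp.ne_zero, chD_mul_mul S x hS hp ha,
    nmD_mul S hp.ne_zero hpa, nmD_mul S hp.ne_zero ha]
  rw [← Complex.ofReal_mul, ← Complex.ofReal_mul, ← Complex.ofReal_sub]
  congr 1
  have h1 := nmD_pos (divS S (toU p hp.ne_zero))
  have h2 := nmD_pos (divS S (toU a ha))
  set c := chD x (divS S (toU p hp.ne_zero))
  set c₁ := chD x (divS S (toU (p * a) hpa))
  set c₂ := chD x (divS S (toU a ha))
  have h3 := Real.sqrt_pos.mpr h1
  have h4 := Real.sqrt_pos.mpr h2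
  have h5 := Real.mul_self_sqrt h1.le
  rw [Real.sqrt_mul h1.le, Real.sqrt_mul h1.le, ← mul_assoc √_ √_, h5]
  field_simp

end Fermat.Agent.LT.Clas
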