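import Fermat.Agent.LT.Clas.NumK
import Fermat.Agent.LT.Kappa.Inst
import Fermat.Agent.LT.Kappa.Num

/-!
# The explicit numbers compute the Whittaker coefficients (helper96)

`numC S x a` satisfies helper31's recursion with `lam = lamE S x`, so
`wh ψ a P = numC S x a * wh ψ 1 (diag(a, 1) P)` for every `ψ` with eigenvalues `lamE S x`.
-/

set_option autoImplicit false
set_option linter.unusedSectionVars false

open NumberField IsDedekindDomain HeightOneSpectrum

noncomputable section

namespace Fermat.Agent.LT.Clas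

open Kap Loc
open CFT.SUnits (ord)

variable {K : Type*} [Field K] [NumberField K] (S : Finset (HeightOneSpectrum (𝓞 K)))
  (x : HeightOneSpectrum (𝓞 K) → ℝ)

theorem val_lt_one_iff (v : HeightOneSpectrum (𝓞 K)) (hv : v ∉ S) {a : OS S} (ha : a ≠ 0) :
    v.valuation K (a : K) < 1 ↔ 0 < divS S (toU a ha) v := by
  rw [divS_apply S hv]
  have h1 : v.valuation K (a : K) ≤ 1 := a.2 v hv
  have h2 := ord_nonneg_of_mem S (a := toU a ha) a.2 hv
  have h3 := CFT.SUnits.ord_eq_zero_iff K v (toU a ha)
  rw [coe_toU] at h3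
  constructor
  · intro h4
    refine lt_of_le_of_ne h2 fun h5 => h4.ne (h3.mp h5.symm)
  · intro h4
    refine lt_of_le_of_ne h1 fun h5 => ?_
    rw [h3.mpr h5] at h4
    exact lt_irrefl _ h4

theorem placeIdeal_eq_span {p : OS S} (hp : p ≠ 0) {v : HeightOneSpectrum (𝓞 K)} (hv : v ∉ S)
    (h : divS S (toU p hp) = Finsupp.single v 1) : placeIdeal v hv = Ideal.span {p} := by
  classical
  ext a
  rw [mem_placeIdeal, Ideal.mem_span_singleton]
  rcases eq_or_ne a 0 with rfl | ha
  · simp
  · rw [val_lt_one_iff S v hv ha, dvd_iff S hp ha, h]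
    constructor
    · intro h1 w
      rw [Finsupp.single_apply]
      split_ifs with h2
      · subst h2; omega
      · exact divS_nonneg S (a := toU a ha) a.2 w
    · intro h1
      have h2 := h1 v
      rw [Finsupp.single_eq_same] at h2
      omega

theorem card_eq_qS (hS : CFT.Global.ClTrivial S) {p : OS S} (hp : Prime p) {R : Finset (OS S)}
    (hR : IsReps p R) : (R.card : ℂ) = (qS S p : ℂ) := by
  obtain ⟨v, hv, h⟩ := exists_divS_prime S hS hp
  rw [qS_of_ne S hp.ne_zero, h, nmD_single, card_isReps (placeIdeal_eq_span S hp.ne_zero hv h) hR]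
  norm_cast

theorem isRec_numC (hS : CFT.Global.ClTrivial S) :
    IsRec (lamE S x) (fun p => (qS S p : ℂ)) (numC S x) where
  unit e := numC_of_isUnit S x e.isUnit
  step _ hp _ _ hpa := numC_mul S x hS hp hpa
  step' _ hp _ hb := numC_mul_mul S x hS hp hb

/-- **The explicit numbers.** -/
theorem isNum_numC [IsTotallyComplex K] (hS : CFT.Global.ClTrivial S) {X : Type*}
    [MulAction (GL (Fin 2) (Rinf K × Rf S)) X] {θ : AddChar (Rinf K × Rf S) Circle}
    (hθ : Kap.SelfDual (OS S) (A := Rinf K × Rf S) θ) {a : OS S} (ha : a ≠ 0) :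
    IsNum (A := Rinf K × Rf S) (OS S) X θ (lamE S x) a (numC S x a) := by
  have : IsPrincipalIdealRing (OS S) := isPrincipalIdealRing_OS S hS
  exact isNum_of_isRec (algebraMap_OS_injective S) hθ (isUnit_algebraMap_OS S)
    (fun p hp R hR => card_eq_qS S hS hp hR)
    (fun p hp => by exact_mod_cast (qS_pos S hp.ne_zero).ne') (isRec_numC S x hS) ha

end Fermat.Agent.LT.Clas
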